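import Fermat.Agent.MordellWeil.ModularCoords

/-!
# Mordell–Weil and divisibility for `J₀(N)`

The results are `jZero_exists_nsmul_eq` (`J₀(N)(ℚ̄)` is divisible) and `jZero_rationalPoints_fg`
(its Galois fixed points are finitely generated, used for S17), for every `N`; the latter is a
case of `Coords.GalAct.fg_fixedClasses` (curves with Galois equivariant coordinates). The group of
classes `Pic⁰` is used directly, with no abelian variety and no Néron model. The argument:

1. Coefficients of expansions at `∞` are coordinates on the Riemann–Roch spaces `L(m ∞)`
   (`ModularCoords`).
2. They give a height on classes (`Height`) which satisfies the parallelogram law up to a bounded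
   term, is bounded below and has the Northcott property on fixed classes (`Invariant`,
   `Rational`).
3. Torsion of given order is finite (`TorsionFinite`) and every class is a double (`Divisible`).
4. Outside finitely many primes inertia does not translate classes by 2-torsion
   (`ChevalleyWeil`), and there are finitely many quadratic characters unramified outside a finite
   set (`Characters`): the fixed classes modulo `2` form a finite group (`WeakMW`).
5. The descent by `2` with this height gives finite generation (`WeakMW`).

## References

* J.-P. Serre, *Lectures on the Mordell–Weil theorem*, chapters 2–4.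
* M. Hindry and J. H. Silverman, *Diophantine geometry*, part C.
-/

set_option autoImplicit false

noncomputable section

open ModularCurve

namespace Fermat.Agent.MordellWeil

variable (N : ℕ) [NeZero N]

/-! ## Divisibility -/

/-- `J₀(N)(ℚ̄)` is divisible. -/
theorem jZero_exists_nsmul_eq (m : ℕ) (hm : 0 < m) (x : JZero N) : ∃ z : JZero N, m • z = x :=
  (x0Coords N).exists_nsmul_eq m hm x

/-! ## Finite generation -/

/-- **The Mordell–Weil theorem**: the Galois fixed points of `J₀(N)` are finitely generated. -/
theorem jZero_rationalPoints_fg :
    AddGroup.FG ↥(FixedPoints.addSubgroup (Qb ≃ₐ[ℚ] Qb) (JZero N)) := by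
  have h := (x0GalAct N).fg_fixedClasses (arithmeticGalois (L := Qb) (modularFunctionFieldFull N))
    fun _ => rfl
  -- the fixed points are the fixed classes of the action on coordinates
  have e : (FixedPoints.addSubgroup (Qb ≃ₐ[ℚ] Qb) (JZero N)) = (x0GalAct N).fixedClasses := by
    ext y
    rw [Coords.GalAct.mem_fixedClasses]
    exact Iff.rfl
  rw [e]
  exact (AddGroup.fg_iff_addSubgroup_fg _).mpr h

end Fermat.Agent.MordellWeil
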