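import Fermat.Agent.MordellWeil.Minors
import Fermat.Agent.MordellWeil.Contraction

/-!
# Adding a point: the increment of the height is additive in the divisor

The main theorem is `Coords.incr_add_of_disjoint`.
-/

set_option autoImplicit false

noncomputable section

open AlgebraicCurve Fermat.Agent.FF

namespace Fermat.Agent.MordellWeil

theorem prod_const_mem_pow {P : Type*} {S : Submodule Qb (P → Qb)} {k : ℕ}
    {f : Fin k → P → Qb} (h : ∀ i, f i ∈ S) : ∏ i, f i ∈ S ^ k := by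
  have := prod_mem_prod (s := Finset.univ) (f := f) (S := fun _ => S) fun i _ => h i
  rwa [Finset.prod_const, Finset.card_univ, Fintype.card_fin] at this

variable {F : Type*} [Field F] [Algebra Qb F] [IsFunctionField Qb F]

namespace Coords

variable (X : Coords F)

/-! ### Increments and contraction vectors -/

/-- Increment of the height when a point is added. -/
def incr (m : ℕ) (D : Divisor Qb F) (Q : Place Qb F) : ℝ :=
  X.hW m (D + Finsupp.single Q 1) - X.hW m D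

/-- The contraction vector of `L(m • pt - D)` by evaluation at `Q`. -/
def cvec (m k : ℕ) (D : Divisor Qb F) (Q : Place Qb F) :
    (Fin k → Fin (X.d m)) × Fin k → Qb :=
  contr (X.φ Q m) (X.pl m (PLevel.basisW X m k D))

omit [IsFunctionField Qb F] in
/-- A point is an effective divisor. -/
theorem single_nonneg (Q : Place Qb F) : (0 : Divisor Qb F) ≤ Finsupp.single Q 1 :=
  Finsupp.le_def.mpr fun v => by
    classical
    rw [Finsupp.single_apply]; split_ifs <;> simp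

theorem cvec_bounds {m n : ℕ} (hm : n + bnd Qb F + 2 ≤ m) :
    ∃ C, ∀ (D : Divisor Qb F) (Q : Place Qb F), 0 ≤ D → Divisor.degree D = n → D Q = 0 →
      X.cvec m (X.kdim m n) D Q ≠ 0 ∧
      |habs (X.cvec m (X.kdim m n) D Q) - X.hW m (D + Finsupp.single Q 1)| ≤ C := by
  have hk : X.kdim m n = X.kdim m (n + 1) + 1 := X.kdim_succ (by omega)
  rw [hk]
  obtain ⟨C, hC⟩ := X.contr_bounds m (X.kdim m (n + 1))
  refine ⟨C, fun D Q hD hn hQ => ?_⟩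
  obtain ⟨h1, h2, h3, -, -⟩ := PLevel.basisW_spec X (m := m) hD hn (by omega)
  rw [hk] at h1 h2 h3
  have hn1 : Divisor.degree (D + Finsupp.single Q 1) = ((n + 1 : ℕ) : ℤ) := by
    rw [map_add, hn, FF.degree_single_one]; push_cast; rfl
  have hT : X.W m (D + Finsupp.single Q 1) ≤ X.W m D :=
    riemannRochSpace_mono (sub_le_sub_left (le_add_of_nonneg_right (single_nonneg Q)) _)
  refine hC (X.W m D) (X.W m (D + Finsupp.single Q 1)) _ (X.φ Q m) (X.W_le hD) h1 h2 hT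
    (X.finrank_W hn1 (by omega)) (fun f hf => ?_) ?_
  · rw [← X.evv_eq_sum Q (X.W_le hD (hT hf))]
    exact (X.evv_eq_zero_iff hD hQ (hT hf)).mpr hf
  · by_contra hno
    push Not at hno
    have hle : X.W m D ≤ X.W m (D + Finsupp.single Q 1) := fun f hf =>
      (X.evv_eq_zero_iff hD hQ hf).mp (by rw [X.evv_eq_sum Q (X.W_le hD hf)]; exact hno f hf)
    have e := congrArg (fun S : Submodule Qb F => Module.finrank Qb S) (le_antisymm hle hT)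
    simp only [X.finrank_W hn (show n + bnd Qb F ≤ m by omega),
      X.finrank_W hn1 (show n + 1 + bnd Qb F ≤ m by omega)] at e
    omega

theorem evv_el_uvec {m k : ℕ} (Q : Place Qb F) (Ω : (Fin k → Fin (X.d m)) → Qb)
    (a : (Fin k → Fin (X.d m)) × Fin k) :
    X.evv Q m (X.el m (uvec Ω a)) = contr (X.φ Q m) Ω a := by
  rw [X.evv_eq_sum Q (X.el_mem _ _), co_el]; rfl

theorem sum_φ_prodVec {m₁ m₂ k₁ k₂ : ℕ} (Q : Place Qb F)
    (Ω₁ : (Fin k₁ → Fin (X.d m₁)) → Qb) (Ω₂ : (Fin k₂ → Fin (X.d m₂)) → Qb) (ab) :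
    ∑ t, X.φ Q (m₁ + m₂) t * X.prodVec Ω₁ Ω₂ ab t =
      contr (X.φ Q m₁) Ω₁ ab.1 * contr (X.φ Q m₂) Ω₂ ab.2 := by
  rw [prodVec, ← X.evv_eq_sum Q (X.mul_mem_V (X.el_mem _ _) (X.el_mem _ _)),
    X.evv_mul Q (X.el_mem _ _) (X.el_mem _ _), evv_el_uvec, evv_el_uvec]

omit [IsFunctionField Qb F] in
theorem prodVec_mem {P : Type*} {m₁ m₂ k₁ k₂ : ℕ}
    (Ω₁ : P → (Fin k₁ → Fin (X.d m₁)) → Qb) (Ω₂ : P → (Fin k₂ → Fin (X.d m₂)) → Qb) (ab)
    (l : Fin (X.d (m₁ + m₂))) :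
    (fun x => X.prodVec (Ω₁ x) (Ω₂ x) ab l) ∈ coordSpan Ω₁ * coordSpan Ω₂ := by
  have e : (fun x => X.prodVec (Ω₁ x) (Ω₂ x) ab l) =
      ∑ j, ∑ i, X.co (m₁ + m₂) (X.e m₁ i * X.e m₂ j) l •
        ((fun x => Ω₁ x (Function.update ab.1.1 ab.1.2 i)) *
          fun x => Ω₂ x (Function.update ab.2.1 ab.2.2 j)) := by
    funext x
    simp only [prodVec, X.co_mul (X.el_mem _ _) (X.el_mem _ _), co_el, mulMat, uvec,
      Finset.sum_apply, Pi.smul_apply, Pi.mul_apply, smul_eq_mul, Finset.sum_mul]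
    exact Finset.sum_congr rfl fun j _ => Finset.sum_congr rfl fun i _ => by ring
  rw [e]
  exact sum_mem fun j _ => sum_mem fun i _ => Submodule.smul_mem _ _
    (Submodule.mul_mem_mul (coord_mem _ _) (coord_mem _ _))

theorem adjugate_mem {P : Type*} {S : Submodule Qb (P → Qb)} {k : ℕ}
    (M : P → Matrix (Fin (k + 1)) (Fin (k + 1)) Qb) (h : ∀ r c, (fun x => M x r c) ∈ S)
    (i j : Fin (k + 1)) : (fun x => (M x).adjugate i j) ∈ S ^ k := by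
  have e : (fun x => (M x).adjugate i j) = ∑ s : Equiv.Perm (Fin k),
      ((-1 : Qb) ^ (j + i : ℕ) * ((Equiv.Perm.sign s : ℤ) : Qb)) •
        ∏ r, (fun x => M x (j.succAbove (s r)) (i.succAbove r)) := by
    funext x
    rw [Matrix.adjugate_fin_succ_eq_det_submatrix, Matrix.det_apply', Finset.mul_sum]
    simp [Finset.sum_apply, Finset.prod_apply, mul_assoc]
  rw [e]
  exact sum_mem fun s _ => Submodule.smul_mem _ _ (prod_const_mem_pow fun r => h _ _)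

/-! ### Minors of products -/

/-- The contraction at `Q` of a minor of products is a form of degree one in the contractions of
the two factors and of degree `k` in the products. -/
private theorem contr_minorsY_mem {P : Type*} {m₁ m₂ n₁ n₂ k : ℕ} (Q : P → Place Qb F)
    (Ω₁ : P → (Fin (X.kdim m₁ n₁) → Fin (X.d m₁)) → Qb)
    (Ω₂ : P → (Fin (X.kdim m₂ n₂) → Fin (X.d m₂)) → Qb)
    (a : (Fin (k + 1) → X.UIx m₁ n₁ × X.UIx m₂ n₂) ×
      ((Fin (k + 1) → Fin (X.d (m₁ + m₂))) × Fin (k + 1))) :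
    (fun x => ∑ t, X.φ (Q x) (m₁ + m₂) t *
        X.minorsY (k + 1) (Ω₁ x) (Ω₂ x) (a.1, Function.update a.2.1 a.2.2 t)) ∈
      coordSpan (fun x => contr (X.φ (Q x) m₁) (Ω₁ x)) *
        coordSpan (fun x => contr (X.φ (Q x) m₂) (Ω₂ x)) *
          (coordSpan Ω₁ * coordSpan Ω₂) ^ k := by
  classical
  have e : (fun x => ∑ t, X.φ (Q x) (m₁ + m₂) t *
        X.minorsY (k + 1) (Ω₁ x) (Ω₂ x) (a.1, Function.update a.2.1 a.2.2 t)) =
      ∑ i, ((fun x => contr (X.φ (Q x) m₁) (Ω₁ x) (a.1 i).1) *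
          (fun x => contr (X.φ (Q x) m₂) (Ω₂ x) (a.1 i).2)) *
        fun x => (Matrix.of fun r l => X.prodVec (Ω₁ x) (Ω₂ x) (a.1 l) (a.2.1 r) :
          Matrix (Fin (k + 1)) (Fin (k + 1)) Qb).adjugate i a.2.2 := by
    funext x
    simp only [minorsY, sum_mul_plucker_update, Finset.sum_apply, Pi.mul_apply]
    refine Finset.sum_congr rfl fun i _ => ?_
    rw [X.sum_φ_prodVec]
  rw [e]
  exact sum_mem fun i _ => Submodule.mul_mem_mul
    (Submodule.mul_mem_mul (coord_mem _ _) (coord_mem _ _))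
    (adjugate_mem _ (fun r l => X.prodVec_mem _ _ _ _) _ _)

omit [IsFunctionField Qb F] in
/-- Products of elements of the two spaces are combinations of a basis of the product space. -/
private theorem exists_prodVec_eq {m₁ m₂ k₁ k₂ : ℕ} {κ : Type*} [Fintype κ] {D₁ D₂ : Divisor Qb F}
    {w : κ → F} (hw : Submodule.span Qb (Set.range w) = X.W (m₁ + m₂) (D₁ + D₂))
    (hv : ∀ i, w i ∈ X.V (m₁ + m₂)) {w₁ : Fin k₁ → F}
    (hs₁ : Submodule.span Qb (Set.range w₁) = X.W m₁ D₁) (hv₁ : ∀ i, w₁ i ∈ X.V m₁)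
    {w₂ : Fin k₂ → F} (hs₂ : Submodule.span Qb (Set.range w₂) = X.W m₂ D₂)
    (hv₂ : ∀ i, w₂ i ∈ X.V m₂) (ab) :
    ∃ c : κ → Qb, X.prodVec (X.pl m₁ w₁) (X.pl m₂ w₂) ab =
      fun l => ∑ i, c i * X.co (m₁ + m₂) (w i) l := by
  have hmem : X.el m₁ (uvec (X.pl m₁ w₁) ab.1) * X.el m₂ (uvec (X.pl m₂ w₂) ab.2) ∈
      Submodule.span Qb (Set.range w) := by
    rw [hw]
    exact X.mul_mem_W (hs₁ ▸ X.el_uvec_mem hv₁ ab.1) (hs₂ ▸ X.el_uvec_mem hv₂ ab.2)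
  obtain ⟨c, hc⟩ := (Submodule.mem_span_range_iff_exists_fun Qb).mp hmem
  refine ⟨c, funext fun l => ?_⟩
  rw [prodVec, ← hc, X.co_sum _ fun i _ => Submodule.smul_mem _ _ (hv i), Finset.sum_apply]
  exact Finset.sum_congr rfl fun i _ => by simp [X.co_smul _ (hv i)]

/-- The contractions of the factors times a coordinate of the product space, through the
contraction of the product space. -/
private theorem contr_mul_contr_mul {m₁ m₂ k₁ k₂ k : ℕ} (Q : Place Qb F)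
    {Ω₁ : (Fin k₁ → Fin (X.d m₁)) → Qb} {Ω₂ : (Fin k₂ → Fin (X.d m₂)) → Qb}
    {w : Fin k → F} {c : Fin k → Qb} {ab}
    (hc : X.prodVec Ω₁ Ω₂ ab = fun l => ∑ i, c i * X.co (m₁ + m₂) (w i) l)
    (I : Fin k → Fin (X.d (m₁ + m₂))) :
    contr (X.φ Q m₁) Ω₁ ab.1 * contr (X.φ Q m₂) Ω₂ ab.2 * X.pl (m₁ + m₂) w I =
      ∑ j, X.prodVec Ω₁ Ω₂ ab (I j) * contr (X.φ Q (m₁ + m₂)) (X.pl (m₁ + m₂) w) (I, j) := by
  rw [← X.sum_φ_prodVec]
  simp only [hc, contr, uvec, Finset.mul_sum, Finset.sum_mul]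
  conv_rhs => rw [Finset.sum_comm]
  refine Finset.sum_congr rfl fun t _ => ?_
  conv_rhs => rw [Finset.sum_comm]
  refine Finset.sum_congr rfl fun i _ => ?_
  have := plucker_mul_apply (fun i => X.co (m₁ + m₂) (w i)) I i t
  calc X.φ Q (m₁ + m₂) t * (c i * X.co (m₁ + m₂) (w i) t) * X.pl (m₁ + m₂) w I
      = X.φ Q (m₁ + m₂) t * c i *
          (plucker (fun i => X.co (m₁ + m₂) (w i)) I * X.co (m₁ + m₂) (w i) t) := by
        simp only [pl]; ring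
    _ = _ := by
        rw [this, Finset.mul_sum]
        exact Finset.sum_congr rfl fun j _ => by simp only [pl]; ring

omit [IsFunctionField Qb F] in
/-- The minors of the products are multiples of the Plücker coordinates of the product space. -/
private theorem exists_minorsY_eq_mul {m₁ m₂ n₁ n₂ k : ℕ}
    {Ω₁ : (Fin (X.kdim m₁ n₁) → Fin (X.d m₁)) → Qb}
    {Ω₂ : (Fin (X.kdim m₂ n₂) → Fin (X.d m₂)) → Qb} {w : Fin k → F}
    (h : ∀ ab, ∃ c : Fin k → Qb,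
      X.prodVec Ω₁ Ω₂ ab = fun l => ∑ i, c i * X.co (m₁ + m₂) (w i) l) :
    ∃ lam : (Fin k → X.UIx m₁ n₁ × X.UIx m₂ n₂) → Qb,
      X.minorsY k Ω₁ Ω₂ = fun SI => lam SI.1 * X.pl (m₁ + m₂) w SI.2 := by
  choose g hg using h
  refine ⟨fun S => (Matrix.of fun i c => g (S c) i).det, funext fun ⟨S, I⟩ => ?_⟩
  rw [minorsY, show (fun c => X.prodVec Ω₁ Ω₂ (S c)) = fun c l =>
      ∑ i, X.co (m₁ + m₂) (w i) l * (Matrix.of fun i c => g (S c) i) i c from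
    funext fun c => by rw [hg]; funext l; simp [mul_comm], plucker_comb, mul_comm]
  rfl

/-- The contractions of the minors of the products have heights bounded by those of the
contractions of the factors and `k` times those of the factors. -/
private theorem exists_bound_contr_minorsY {P : Type*} {m₁ m₂ n₁ n₂ k : ℕ} (Q : P → Place Qb F)
    (Ω₁ : P → (Fin (X.kdim m₁ n₁) → Fin (X.d m₁)) → Qb)
    (Ω₂ : P → (Fin (X.kdim m₂ n₂) → Fin (X.d m₂)) → Qb) :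
    ∃ B, ∀ x, habs (fun a : (Fin (k + 1) → X.UIx m₁ n₁ × X.UIx m₂ n₂) ×
        ((Fin (k + 1) → Fin (X.d (m₁ + m₂))) × Fin (k + 1)) => ∑ t, X.φ (Q x) (m₁ + m₂) t *
          X.minorsY (k + 1) (Ω₁ x) (Ω₂ x) (a.1, Function.update a.2.1 a.2.2 t)) ≤
      habs (contr (X.φ (Q x) m₁) (Ω₁ x)) + habs (contr (X.φ (Q x) m₂) (Ω₂ x)) +
        k * (habs (Ω₁ x) + habs (Ω₂ x)) + B := by
  obtain ⟨B, hB⟩ := (((dominated_coordSpan fun x => contr (X.φ (Q x) m₁) (Ω₁ x)).mul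
    (dominated_coordSpan fun x => contr (X.φ (Q x) m₂) (Ω₂ x))).mul
      (((dominated_coordSpan Ω₁).mul (dominated_coordSpan Ω₂)).pow k)).le
    _ (X.contr_minorsY_mem (k := k) Q Ω₁ Ω₂)
  exact ⟨B, hB⟩

/-- The products of the contractions of the factors with the coordinates of the product space have
heights bounded by those of the factors and of the contraction of the product space. -/
private theorem exists_bound_contr_mul {P : Type*} {m₁ m₂ n₁ n₂ k : ℕ} (Q : P → Place Qb F)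
    (Ω₁ : P → (Fin (X.kdim m₁ n₁) → Fin (X.d m₁)) → Qb)
    (Ω₂ : P → (Fin (X.kdim m₂ n₂) → Fin (X.d m₂)) → Qb) (w : P → Fin k → F)
    (h : ∀ x ab, ∃ c : Fin k → Qb,
      X.prodVec (Ω₁ x) (Ω₂ x) ab = fun l => ∑ i, c i * X.co (m₁ + m₂) (w x i) l) :
    ∃ B, ∀ x, habs (fun a : (X.UIx m₁ n₁ × X.UIx m₂ n₂) × (Fin k → Fin (X.d (m₁ + m₂))) =>
        contr (X.φ (Q x) m₁) (Ω₁ x) a.1.1 * contr (X.φ (Q x) m₂) (Ω₂ x) a.1.2 *
          X.pl (m₁ + m₂) (w x) a.2) ≤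
      habs (Ω₁ x) + habs (Ω₂ x) + habs (contr (X.φ (Q x) (m₁ + m₂)) (X.pl (m₁ + m₂) (w x))) +
        B := by
  let Y : (X.UIx m₁ n₁ × X.UIx m₂ n₂) × (Fin k → Fin (X.d (m₁ + m₂))) → P → Qb := fun a x =>
    contr (X.φ (Q x) m₁) (Ω₁ x) a.1.1 * contr (X.φ (Q x) m₂) (Ω₂ x) a.1.2 *
      X.pl (m₁ + m₂) (w x) a.2
  have hY : ∀ a, Y a ∈ coordSpan Ω₁ * coordSpan Ω₂ *
      coordSpan fun x => contr (X.φ (Q x) (m₁ + m₂)) (X.pl (m₁ + m₂) (w x)) := by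
    intro a
    have e : Y a = ∑ j, (fun x => X.prodVec (Ω₁ x) (Ω₂ x) a.1 (a.2 j)) *
        fun x => contr (X.φ (Q x) (m₁ + m₂)) (X.pl (m₁ + m₂) (w x)) (a.2, j) := by
      funext x
      obtain ⟨c, hc⟩ := h x a.1
      rw [Finset.sum_apply]
      exact X.contr_mul_contr_mul (Q x) hc a.2
    rw [e]
    exact sum_mem fun j _ => Submodule.mul_mem_mul (X.prodVec_mem _ _ _ _) (coord_mem _ _)
  obtain ⟨B, hB⟩ :=
    (((dominated_coordSpan Ω₁).mul (dominated_coordSpan Ω₂)).mul (dominated_coordSpan _)).le Y hY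
  exact ⟨B, hB⟩

omit [IsFunctionField Qb F] in
/-- The comparisons of the heights of the factors, the minors and the contractions bound the defect
of additivity. -/
private theorem abs_defect_le {k l a₁ a₂ a c₁ c₂ c u₁ u₂ u B₁ B₂ B₃ E₁ E₂ E₃ : ℝ}
    (h₁ : (k + 1) * (a₁ + a₂) ≤ l + a + B₃) (h₂ : l + c ≤ c₁ + c₂ + k * (a₁ + a₂) + B₁)
    (h₃ : c₁ + c₂ + a ≤ a₁ + a₂ + c + B₂) (hu₁ : |c₁ - u₁| ≤ E₁) (hu₂ : |c₂ - u₂| ≤ E₂)
    (hu : |c - u| ≤ E₃) :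
    |u - a - (u₁ - a₁ + (u₂ - a₂))| ≤ |B₁| + |B₂| + |B₃| + |E₁| + |E₂| + |E₃| := by
  rw [abs_le] at hu₁ hu₂ hu ⊢
  have := le_abs_self B₁; have := le_abs_self B₂; have := le_abs_self B₃
  have := le_abs_self E₁; have := le_abs_self E₂; have := le_abs_self E₃
  have := abs_nonneg B₁; have := abs_nonneg B₂; have := abs_nonneg B₃
  constructor <;> linarith

/-! ### Additivity -/

theorem incr_add_of_disjoint (m₁ n₁ m₂ n₂ : ℕ) (h₁ : n₁ + bnd Qb F + 2 ≤ m₁)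
    (h₂ : n₂ + 3 * bnd Qb F + 2 ≤ m₂) :
    ∃ C, ∀ (D₁ D₂ : Divisor Qb F) (Q : Place Qb F), 0 ≤ D₁ → Divisor.degree D₁ = n₁ → 0 ≤ D₂ →
      Divisor.degree D₂ = n₂ → D₁ Q = 0 → D₂ Q = 0 →
      |X.incr (m₁ + m₂) (D₁ + D₂) Q - (X.incr m₁ D₁ Q + X.incr m₂ D₂ Q)| ≤ C := by
  classical
  set L₁ : PLevel := ⟨m₁, n₁, 2 * bnd Qb F + 2, bnd Qb F + 1⟩ with hL₁
  set L₂ : PLevel := ⟨m₂, n₂, 2 * bnd Qb F + 2, bnd Qb F + 1⟩ with hL₂
  have g₁ : L₁.Good F :=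
    ⟨show n₁ + bnd Qb F + 1 ≤ m₁ by omega,
      show bnd Qb F + 1 + bnd Qb F + 1 ≤ 2 * bnd Qb F + 2 by omega⟩
  have g₂ : L₂.Good F :=
    ⟨show n₂ + bnd Qb F + 1 ≤ m₂ by omega,
      show bnd Qb F + 1 + bnd Qb F + 1 ≤ 2 * bnd Qb F + 2 by omega⟩
  have hm12 : n₁ + n₂ + bnd Qb F + 2 ≤ m₁ + m₂ := by omega
  obtain ⟨k, hk⟩ : ∃ k, X.kdim (m₁ + m₂) (n₁ + n₂) = k + 1 := ⟨_, X.kdim_succ (by omega)⟩
  let P := {x : PLevel.Pt X L₁ × PLevel.Pt X L₂ × Place Qb F //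
    x.1.D x.2.2 = 0 ∧ x.2.1.D x.2.2 = 0}
  let Q : P → Place Qb F := fun x => x.1.2.2
  let Ω₁ : P → (Fin (X.kdim m₁ n₁) → Fin (X.d m₁)) → Qb := fun x => L₁.vec X .W x.1.1
  let Ω₂ : P → (Fin (X.kdim m₂ n₂) → Fin (X.d m₂)) → Qb := fun x => L₂.vec X .W x.1.2.1
  let w : P → Fin (k + 1) → F := fun x =>
    PLevel.basisW X (m₁ + m₂) (k + 1) (x.1.1.D + x.1.2.1.D)
  have hdeg : ∀ x : P, Divisor.degree (x.1.1.D + x.1.2.1.D) = ((n₁ + n₂ : ℕ) : ℤ) := fun x => by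
    rw [map_add, x.1.1.D_degree, x.1.2.1.D_degree]
    simp only [hL₁, hL₂]; push_cast; rfl
  have hw : ∀ x : P, LinearIndependent Qb (w x) ∧
      Submodule.span Qb (Set.range (w x)) = X.W (m₁ + m₂) (x.1.1.D + x.1.2.1.D) ∧
      (∀ j, w x j ∈ X.V (m₁ + m₂)) ∧ X.pl (m₁ + m₂) (w x) ≠ 0 ∧
      X.hW (m₁ + m₂) (x.1.1.D + x.1.2.1.D) = habs (X.pl (m₁ + m₂) (w x)) := fun x => by
    have := PLevel.basisW_spec X (m := m₁ + m₂) (add_nonneg x.1.1.D_nonneg x.1.2.1.D_nonneg)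
      (hdeg x) (by omega)
    rw [hk] at this
    exact this
  have hprod : ∀ (x : P) ab, ∃ c : Fin (k + 1) → Qb,
      X.prodVec (Ω₁ x) (Ω₂ x) ab = fun l => ∑ i, c i * X.co (m₁ + m₂) (w x i) l := fun x ab => by
    obtain ⟨-, hs₁, hv₁, -, -⟩ := PLevel.basisW_spec X (m := m₁) x.1.1.D_nonneg x.1.1.D_degree
      (by simp only [hL₁]; omega)
    obtain ⟨-, hs₂, hv₂, -, -⟩ := PLevel.basisW_spec X (m := m₂) x.1.2.1.D_nonneg x.1.2.1.D_degree
      (by simp only [hL₂]; omega)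
    exact X.exists_prodVec_eq (hw x).2.1 (hw x).2.2.1 hs₁ hv₁ hs₂ hv₂ ab
  -- the bounds, uniform in the point
  obtain ⟨B₁, hB₁⟩ := X.exists_bound_contr_minorsY (k := k) Q Ω₁ Ω₂
  obtain ⟨B₂, hB₂⟩ := X.exists_bound_contr_mul Q Ω₁ Ω₂ w hprod
  obtain ⟨B₃, hB₃⟩ := X.le_habs_minorsY L₁ L₂ g₁ g₂ h₂
  obtain ⟨E₁, hE₁⟩ := X.cvec_bounds h₁
  obtain ⟨E₂, hE₂⟩ := X.cvec_bounds (m := m₂) (n := n₂) (by omega)
  obtain ⟨E₃, hE₃⟩ := X.cvec_bounds hm12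
  refine ⟨|B₁| + |B₂| + |B₃| + |E₁| + |E₂| + |E₃|, fun D₁ D₂ R hD₁ hn₁ hD₂ hn₂ hR₁ hR₂ => ?_⟩
  obtain ⟨x₁, hx₁⟩ := PLevel.exists_pt_of_divisor X (m := m₁) hD₁ hn₁
  obtain ⟨x₂, hx₂⟩ := PLevel.exists_pt_of_divisor X (m := m₂) hD₂ hn₂
  subst hx₁ hx₂
  let x : P := ⟨(x₁, x₂, R), hR₁, hR₂⟩
  obtain ⟨hc₁, hc₁'⟩ := hE₁ x₁.D R hD₁ hn₁ hR₁
  obtain ⟨hc₂, hc₂'⟩ := hE₂ x₂.D R hD₂ hn₂ hR₂
  obtain ⟨hc, hc'⟩ := hE₃ (x₁.D + x₂.D) R (add_nonneg hD₁ hD₂) (hdeg x)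
    (by rw [Finsupp.add_apply, hR₁, hR₂, add_zero])
  rw [cvec, hk] at hc hc'
  change contr (X.φ R m₁) (Ω₁ x) ≠ 0 at hc₁
  change contr (X.φ R m₂) (Ω₂ x) ≠ 0 at hc₂
  change contr (X.φ R (m₁ + m₂)) (X.pl (m₁ + m₂) (w x)) ≠ 0 at hc
  -- factor the minors
  obtain ⟨lam, hlam⟩ := X.exists_minorsY_eq_mul fun ab => hprod x ab
  obtain ⟨hy0, hy⟩ : X.minorsY (k + 1) (Ω₁ x) (Ω₂ x) ≠ 0 ∧
      ((k + 1 : ℕ) : ℝ) * (habs (Ω₁ x) + habs (Ω₂ x)) ≤
        habs (X.minorsY (k + 1) (Ω₁ x) (Ω₂ x)) + B₃ := by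
    have := hB₃ x₁ x₂
    revert this
    simp only [Ω₁, Ω₂, x, hL₁, hL₂]
    rw [hk]
    exact id
  have hlam0 : lam ≠ 0 := fun h0 => hy0 (by rw [hlam]; funext SI; simp [h0])
  rw [hlam, habs_mul_table hlam0 (hw x).2.2.2.1, Nat.cast_succ] at hy
  have e₁ : (fun a : (Fin (k + 1) → X.UIx m₁ n₁ × X.UIx m₂ n₂) ×
      ((Fin (k + 1) → Fin (X.d (m₁ + m₂))) × Fin (k + 1)) => ∑ t, X.φ R (m₁ + m₂) t *
        X.minorsY (k + 1) (Ω₁ x) (Ω₂ x) (a.1, Function.update a.2.1 a.2.2 t)) =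
      fun a => lam a.1 * contr (X.φ R (m₁ + m₂)) (X.pl (m₁ + m₂) (w x)) a.2 := by
    funext a
    simp only [contr, uvec, hlam, Finset.mul_sum]
    exact Finset.sum_congr rfl fun t _ => by ring
  have i₁ := hB₁ x
  rw [show Q x = R from rfl, e₁, habs_mul_table hlam0 hc] at i₁
  have hne : (fun ab : X.UIx m₁ n₁ × X.UIx m₂ n₂ =>
      contr (X.φ R m₁) (Ω₁ x) ab.1 * contr (X.φ R m₂) (Ω₂ x) ab.2) ≠ 0 := by
    obtain ⟨a, ha⟩ := Function.ne_iff.mp hc₁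
    obtain ⟨b, hb⟩ := Function.ne_iff.mp hc₂
    exact Function.ne_iff.mpr ⟨(a, b), mul_ne_zero ha hb⟩
  have i₂ := hB₂ x
  rw [show Q x = R from rfl, habs_mul_table hne (hw x).2.2.2.1, habs_mul_table hc₁ hc₂] at i₂
  rw [incr, incr, incr, show X.hW (m₁ + m₂) (x₁.D + x₂.D) = _ from (hw x).2.2.2.2,
    show X.hW m₁ x₁.D = habs (Ω₁ x) from
      (PLevel.basisW_spec X (m := m₁) hD₁ hn₁ (by omega)).2.2.2.2,
    show X.hW m₂ x₂.D = habs (Ω₂ x) from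
      (PLevel.basisW_spec X (m := m₂) hD₂ hn₂ (by omega)).2.2.2.2]
  exact abs_defect_le hy i₁ i₂ hc₁' hc₂' hc'

end Coords

end Fermat.Agent.MordellWeil
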