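import Fermat.Agent.MordellWeil.WSpaces

/-!
# Base divisors, and inclusion of products as an algebraic condition
-/

set_option autoImplicit false

noncomputable section

open AlgebraicCurve Fermat.Agent.FF

namespace Fermat.Agent.MordellWeil

variable {F : Type*} [Field F] [Algebra Qb F]

namespace Coords

variable (X : Coords F)

/-- The divisor of zeros of a section of `L(N • pt)`. -/
def zdiv [IsFunctionField Qb F] (N : ℕ) (u : F) :
    Divisor Qb F := div Qb u + Finsupp.single X.pt (N : ℤ)

/-- `zdiv N u` has degree `N`, whatever `u` is. -/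
theorem degree_zdiv [IsFunctionField Qb F] {N : ℕ} {u : F} : Divisor.degree (X.zdiv N u) = N := by
  rw [zdiv, map_add, degree_div, FF.degree_single_one, zero_add]

theorem zdiv_mul [IsFunctionField Qb F] {N M : ℕ} {u v : F} (hu : u ≠ 0) (hv : v ≠ 0) :
    X.zdiv (N + M) (u * v) = X.zdiv N u + X.zdiv M v := by
  rw [zdiv, zdiv, zdiv, FF.div_mul hu hv, Nat.cast_add, Finsupp.single_add]
  abel

/-- `B` is the base divisor of `W` in `L(m • pt)`. -/
def IsBase (m : ℕ) (W : Submodule Qb F) (B : Divisor Qb F) : Prop :=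
  W ≤ X.W m B ∧ ∀ v : Place Qb F, ∃ f ∈ W, f ≠ 0 ∧ v.ord f = B v - Finsupp.single X.pt (m : ℤ) v

theorem IsBase.nonneg {m : ℕ} {W : Submodule Qb F} {B : Divisor Qb F} (h : X.IsBase m W B)
    (hW : W ≤ X.V m) : 0 ≤ B := Finsupp.le_def.mpr fun v => by
  obtain ⟨f, hf, h0, hord⟩ := h.2 v
  have := neg_le_ord (D := Finsupp.single X.pt (m : ℤ)) (hW hf) h0 v
  simp only [Finsupp.zero_apply]
  omega

theorem exists_isBase [IsFunctionField Qb F] {m k : ℕ} {W : Submodule Qb F} (hW : W ≤ X.V m)
    (hk : Module.finrank Qb W = k) (hk0 : 1 ≤ k) : ∃ B, X.IsBase m W B := by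
  classical
  have := X.finiteDimensional_of_le hW
  let b := Module.finBasisOfFinrankEq Qb W hk
  have : Nonempty (Fin k) := ⟨⟨0, hk0⟩⟩
  let Z : Fin k → Divisor Qb F := fun j => X.zdiv m (b j : F)
  let B : Divisor Qb F := Finsupp.onFinset (Finset.univ.biUnion fun j => (Z j).support)
    (fun v => Finset.univ.inf' Finset.univ_nonempty fun j => Z j v) (fun v hv => by
      obtain ⟨j, -, hj⟩ := Finset.exists_mem_eq_inf' Finset.univ_nonempty (fun j => Z j v)
      exact Finset.mem_biUnion.mpr ⟨j, Finset.mem_univ _, Finsupp.mem_support_iff.mpr (hj ▸ hv)⟩)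
  have hb0 : ∀ j, (b j : F) ≠ 0 := fun j => fun h => b.ne_zero j (Subtype.ext h)
  refine ⟨B, fun f hf => ?_, fun v => ?_⟩
  · have hmem : ∀ j, (b j : F) ∈ X.W m B := fun j => mem_L_of_le fun v => by
      have : B v ≤ Z j v := Finset.inf'_le _ (Finset.mem_univ j)
      simp only [Z, zdiv, Finsupp.add_apply, div_apply] at this
      rw [Finsupp.sub_apply]
      omega
    have := congrArg Subtype.val (b.sum_repr ⟨f, hf⟩)
    simp only [Submodule.coe_sum, Submodule.coe_smul] at this
    exact this ▸ sum_mem fun j _ => Submodule.smul_mem _ _ (hmem j)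
  · obtain ⟨j, -, hj⟩ := Finset.exists_mem_eq_inf' Finset.univ_nonempty (fun j => Z j v)
    refine ⟨b j, (b j).2, hb0 j, ?_⟩
    change v.ord (b j : F) = (Finset.univ.inf' Finset.univ_nonempty fun j => Z j v) - _
    rw [hj]
    simp [Z, zdiv]

theorem IsBase.degree_le [IsFunctionField Qb F] {m n : ℕ} {W : Submodule Qb F} {B : Divisor Qb F}
    (h : X.IsBase m W B) (hk : Module.finrank Qb W = X.kdim m n) (hm : n + bnd Qb F + 1 ≤ m) :
    Divisor.degree B ≤ n := by
  classical
  by_contra hlt
  have h1 : Module.finrank Qb W ≤ Module.finrank Qb (X.W m B) :=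
    Submodule.finrank_mono (s := W)
      (t := riemannRochSpace (Finsupp.single X.pt (m : ℤ) - B)) h.1
  rw [hk, kdim] at h1
  by_cases hbig : (bnd Qb F : ℤ) ≤ Divisor.degree (Finsupp.single X.pt (m : ℤ) - B)
  · have h2 : (Module.finrank Qb (X.W m B) : ℤ) = _ := finrank_L hbig
    rw [degree_level_sub] at h2 hbig
    omega
  · set D := Finsupp.single X.pt (m : ℤ) - B with hD
    set t := (bnd Qb F : ℤ) - Divisor.degree D with ht
    have hle : D ≤ D + Finsupp.single X.pt t := Finsupp.le_def.mpr fun v => by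
      rw [Finsupp.add_apply, Finsupp.single_apply]; split_ifs <;> omega
    have h2 : (Module.finrank Qb (X.W m B) : ℤ) ≤ ell Qb (D + Finsupp.single X.pt t) :=
      ell_mono hle
    rw [ell_eq (by rw [map_add, FF.degree_single_one]; omega), map_add, FF.degree_single_one] at h2
    omega

theorem IsBase.eq_W [IsFunctionField Qb F] {m n : ℕ} {W : Submodule Qb F} {B : Divisor Qb F}
    (h : X.IsBase m W B) (hk : Module.finrank Qb W = X.kdim m n) (hB : Divisor.degree B = n)
    (hm : n + bnd Qb F ≤ m) : W = X.W m B := by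
  have : FiniteDimensional Qb (X.W m B) :=
    finiteDimensional_riemannRochSpace (K := Qb) (Finsupp.single X.pt (m : ℤ) - B)
  exact Submodule.eq_of_le_of_finrank_le h.1 (by rw [X.finrank_W hB hm, hk])

/-- For `m ≥ n + bnd + 1` the base divisor of `W m D` is `D`. -/
theorem isBase_W [IsFunctionField Qb F] {m n : ℕ} {D : Divisor Qb F} (hn : Divisor.degree D = n)
    (hm : n + bnd Qb F + 1 ≤ m) : X.IsBase m (X.W m D) D := by
  refine ⟨le_rfl, fun v => ?_⟩
  obtain ⟨f, hf, h0, hord⟩ := exists_exact (D := Finsupp.single X.pt (m : ℤ) - D)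
    (by rw [degree_level_sub, hn]; omega) v
  exact ⟨f, hf, h0, by rw [hord, Finsupp.sub_apply]; omega⟩

theorem IsBase.mul {a b : ℕ} {W W' : Submodule Qb F} {B B' : Divisor Qb F} (h : X.IsBase a W B)
    (h' : X.IsBase b W' B') : X.IsBase (a + b) (W * W') (B + B') := by
  refine ⟨Submodule.mul_le.mpr fun f hf g hg => X.mul_mem_W (h.1 hf) (h'.1 hg), fun v => ?_⟩
  obtain ⟨f, hf, hf0, hfv⟩ := h.2 v
  obtain ⟨g, hg, hg0, hgv⟩ := h'.2 v
  refine ⟨f * g, Submodule.mul_mem_mul hf hg, mul_ne_zero hf0 hg0, ?_⟩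
  rw [v.ord_mul hf0 hg0, hfv, hgv, Nat.cast_add, Finsupp.single_add]
  simp only [Finsupp.add_apply]
  ring

/-- A common factor of the sections of `W` is part of its base divisor. -/
theorem IsBase.zdiv_le [IsFunctionField Qb F] {m N r : ℕ} {W : Submodule Qb F} {B : Divisor Qb F}
    (h : X.IsBase m W B) {u : F} (hu : u ≠ 0) (hm : N + r = m)
    (hle : W ≤ (X.V r).map (LinearMap.mulLeft Qb u)) :
    X.zdiv N u ≤ B := Finsupp.le_def.mpr fun v => by
  obtain ⟨f, hf, h0, hfv⟩ := h.2 v
  obtain ⟨g, hg, rfl⟩ := hle hf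
  simp only [LinearMap.mulLeft_apply] at hfv h0
  have hg0 := right_ne_zero_of_mul h0
  rw [v.ord_mul hu hg0, ← hm, Nat.cast_add, Finsupp.single_add, Finsupp.add_apply] at hfv
  have := neg_le_ord (D := Finsupp.single X.pt (r : ℤ)) hg hg0 v
  simp only [zdiv, Finsupp.add_apply, div_apply]
  omega

/-- `W m G` is divisible by `u` when `G` contains the zeros of `u`. -/
theorem W_le_map_mul [IsFunctionField Qb F] {m N r : ℕ} {G : Divisor Qb F} {u : F} (hu : u ≠ 0)
    (hm : N + r = m) (hG : X.zdiv N u ≤ G) : X.W m G ≤ (X.V r).map (LinearMap.mulLeft Qb u) := by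
  intro f hf
  rcases eq_or_ne f 0 with rfl | h0
  · exact zero_mem _
  refine ⟨f / u, mem_L_of_le fun v => ?_, by simp [mul_div_cancel₀ _ hu]⟩
  have h1 := neg_le_ord (D := Finsupp.single X.pt (m : ℤ) - G) hf h0 v
  have h2 := Finsupp.le_def.mp hG v
  simp only [zdiv, Finsupp.add_apply, div_apply] at h2
  rw [Finsupp.sub_apply, ← hm, Nat.cast_add, Finsupp.single_add, Finsupp.add_apply] at h1
  rw [FF.ord_div v h0 hu]
  omega

/-! ### Polynomially varying elements -/

/-- The element with given coordinates. -/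
def el (m : ℕ) (c : Fin (X.d m) → Qb) : F := ((X.coord m).symm c : F)

/-- The element with given coordinates lies in `V m`. -/
theorem el_mem (m : ℕ) (c : Fin (X.d m) → Qb) : X.el m c ∈ X.V m := ((X.coord m).symm c).2

/-- `el` is a right inverse of `co`. -/
@[simp] theorem co_el (m : ℕ) (c : Fin (X.d m) → Qb) : X.co m (X.el m c) = c := by
  rw [X.co_of_mem (X.el_mem m c)]; exact (X.coord m).apply_symm_apply c

/-- `el` inverts `co` on `V m`. -/
theorem el_co {m : ℕ} {f : F} (hf : f ∈ X.V m) : X.el m (X.co m f) = f :=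
  X.co_injOn (X.el_mem _ _) hf (X.co_el _ _)

/-- Nonzero coordinates give a nonzero element. -/
theorem el_ne_zero {m : ℕ} {c : Fin (X.d m) → Qb} (h : c ≠ 0) : X.el m c ≠ 0 := fun h0 =>
  h (by rw [← X.co_el m c, h0, co_zero])

/-- A polynomially varying element of `L(m • pt)`. -/
def IsPolyElt {V : Type*} (m : ℕ) (f : (V → Qb) → F) : Prop :=
  (∀ z, f z ∈ X.V m) ∧ ∀ i, IsPoly fun z => X.co m (f z) i

/-- Polynomial coordinates give a polynomially varying element. -/
theorem isPolyElt_el {V : Type*} {m : ℕ} {c : (V → Qb) → Fin (X.d m) → Qb}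
    (hc : ∀ i, IsPoly fun z => c z i) : X.IsPolyElt m fun z => X.el m (c z) :=
  ⟨fun z => X.el_mem _ _, fun i => by simpa using hc i⟩

theorem isPolyElt_const {V : Type*} {m : ℕ} {f : F} (hf : f ∈ X.V m) :
    X.IsPolyElt m fun _ : V → Qb => f :=
  ⟨fun _ => hf, fun _ => IsPoly.const _⟩

/-- Products of polynomially varying elements vary polynomially. -/
theorem IsPolyElt.mul {V : Type*} {a b : ℕ} {f g : (V → Qb) → F} (hf : X.IsPolyElt a f)
    (hg : X.IsPolyElt b g) : X.IsPolyElt (a + b) fun z => f z * g z := by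
  refine ⟨fun z => X.mul_mem_V (hf.1 z) (hg.1 z), fun l => ?_⟩
  simp only [X.co_mul (hf.1 _) (hg.1 _), mulMat]
  exact IsPoly.sum _ fun j _ =>
    (IsPoly.sum _ fun i _ => (hf.2 i).mul (IsPoly.const _)).mul (hg.2 j)

/-- Membership in a multiple of a space is an algebraic condition. -/
theorem isAlgSet_mem_map {V : Type*} {m N r : ℕ} (hm : N + r = m) {P : (V → Qb) → Prop}
    (hP : IsAlgSet {z | P z}) {f u : (V → Qb) → F} (hf : X.IsPolyElt m f)
    (hu : X.IsPolyElt N u) (hu0 : ∀ z, P z → u z ≠ 0) :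
    IsAlgSet {z | P z ∧ f z ∈ (X.V r).map (LinearMap.mulLeft Qb (u z))} := by
  classical
  subst hm
  let w : (V → Qb) → Fin (X.d r + 1) → Fin (X.d (N + r)) → Qb := fun z =>
    Fin.cons (X.co (N + r) (f z)) fun l => X.co (N + r) (u z * X.e r l)
  have hw : ∀ j x, IsPoly fun z => w z j x := fun j x => by
    cases j using Fin.cases with
    | zero => simpa [w] using hf.2 x
    | succ l => simpa [w] using (hu.mul X (X.isPolyElt_const (X.e_mem r l))).2 x
  -- Membership says that the coordinates of `f` are dependent on those of `u` times a basis.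
  have key : ∀ z, P z →
      (f z ∈ (X.V r).map (LinearMap.mulLeft Qb (u z)) ↔ ¬LinearIndependent Qb (w z)) := by
    intro z hz
    have hmem : ∀ l, u z * X.e r l ∈ X.V (N + r) := fun l => X.mul_mem_V (hu.1 z) (X.e_mem r l)
    have hind : LinearIndependent Qb fun l => X.co (N + r) (u z * X.e r l) := by
      refine Fintype.linearIndependent_iff.mpr fun c hc => congrFun (?_ : c = 0)
      refine X.mulMat_injective (a := N) (b := r) (u := X.co N (u z))
        (X.co_ne_zero (hu.1 z) (hu0 z hz)) c fun l => ?_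
      have h := congrFun hc l
      simp only [Finset.sum_apply, Pi.smul_apply, smul_eq_mul, Pi.zero_apply] at h
      refine Eq.trans (Finset.sum_congr rfl fun j _ => ?_) h
      rw [mul_comm (c j), X.co_mul (hu.1 z) (X.e_mem r j)]
      congr 1
      have he : X.co r (X.e r j) = Pi.single j 1 := by
        rw [X.co_of_mem (X.e_mem r j)]; exact (X.coord r).apply_symm_apply _
      simp [he, Pi.single_apply]
    rw [linearIndependent_finCons, not_and_or, or_iff_right (not_not.mpr hind), not_not]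
    constructor
    · rintro ⟨g, hg, hgf⟩
      rw [Submodule.mem_span_range_iff_exists_fun]
      refine ⟨X.co r g, ?_⟩
      rw [← hgf, LinearMap.mulLeft_apply]
      conv_rhs => rw [← X.sum_co_smul_e hg, Finset.mul_sum]
      simp only [mul_smul_comm]
      rw [X.co_sum _ fun l _ => Submodule.smul_mem _ _ (hmem l)]
      exact Finset.sum_congr rfl fun l _ => (X.co_smul _ (hmem l)).symm
    · intro h
      obtain ⟨c, hc⟩ := (Submodule.mem_span_range_iff_exists_fun Qb).mp h
      refine ⟨∑ l, c l • X.e r l, sum_mem fun l _ => Submodule.smul_mem _ _ (X.e_mem r l), ?_⟩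
      rw [LinearMap.mulLeft_apply, Finset.mul_sum]
      simp only [mul_smul_comm]
      refine X.co_injOn (sum_mem fun l _ => Submodule.smul_mem _ _ (hmem l)) (hf.1 z) ?_
      rw [← hc, X.co_sum _ fun l _ => Submodule.smul_mem _ _ (hmem l)]
      exact Finset.sum_congr rfl fun l _ => X.co_smul _ (hmem l)
  -- Dependence is an algebraic condition.
  have e : {z | P z ∧ f z ∈ (X.V r).map (LinearMap.mulLeft Qb (u z))} =
      {z | P z ∧ ¬LinearIndependent Qb (w z)} := by
    ext z; exact and_congr_right fun hz => key z hz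
  rw [e]
  exact IsAlgSet.and hP (IsAlgSet.not_linearIndependent hw)

end Coords

end Fermat.Agent.MordellWeil
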