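import Fermat.Agent.MordellWeil.AbsHeight
import Mathlib.RingTheory.Nullstellensatz

/-!
# Two-sided height bounds from charts and the Nullstellensatz
-/

set_option autoImplicit false

noncomputable section

open MvPolynomial

namespace Fermat.Agent.MordellWeil

/-! ## Algebraic sets -/

/-- `Z` is the zero set of some family of polynomials. -/
def IsAlgSet {V : Type*} (Z : Set (V → Qb)) : Prop :=
  ∃ R : Set (MvPolynomial V Qb), Z = {z | ∀ r ∈ R, eval z r = 0}

namespace IsAlgSet

variable {V : Type*}

/-- An equation between polynomials cuts out an algebraic set. -/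
theorem eq (r s : MvPolynomial V Qb) : IsAlgSet {z : V → Qb | eval z r = eval z s} :=
  ⟨{r - s}, by ext z; simp [sub_eq_zero]⟩

theorem iInter {α : Sort*} {Z : α → Set (V → Qb)} (h : ∀ a, IsAlgSet (Z a)) :
    IsAlgSet (⋂ a, Z a) := by
  choose R hR using h
  refine ⟨⋃ a, R a, ?_⟩
  ext z
  simp only [Set.mem_iInter, hR, Set.mem_iUnion, Set.mem_ofPred_eq]
  exact ⟨fun h r ⟨a, ha⟩ => h a r ha, fun h a r ha => h r ⟨a, ha⟩⟩

/-- A conjunction of any family of algebraic conditions is algebraic. -/
theorem forall_ {α : Sort*} {P : α → (V → Qb) → Prop} (h : ∀ a, IsAlgSet {z | P a z}) :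
    IsAlgSet {z | ∀ a, P a z} := by
  have e : {z | ∀ a, P a z} = ⋂ a, {z | P a z} := by ext z; simp
  rw [e]; exact iInter h

/-- The conjunction of two algebraic conditions is algebraic. -/
theorem and {P Q : (V → Qb) → Prop} (hP : IsAlgSet {z | P z}) (hQ : IsAlgSet {z | Q z}) :
    IsAlgSet {z | P z ∧ Q z} := by
  obtain ⟨R, hR⟩ := hP
  obtain ⟨S, hS⟩ := hQ
  refine ⟨R ∪ S, ?_⟩
  ext z
  have h1 := Set.ext_iff.mp hR z
  have h2 := Set.ext_iff.mp hS z
  simp only [Set.mem_ofPred_eq] at h1 h2 ⊢
  simp only [h1, h2, Set.mem_union]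
  exact ⟨fun h r hr => hr.elim (h.1 r) (h.2 r),
    fun h => ⟨fun r hr => h r (.inl hr), fun r hr => h r (.inr hr)⟩⟩

end IsAlgSet

/-- Polynomials without common zero on an algebraic set generate the unit ideal modulo it. -/
theorem exists_partition_of_no_common_zero {V J : Type*} [Finite V] [Fintype J]
    {Z : Set (V → Qb)} (hZ : IsAlgSet Z) (F : J → MvPolynomial V Qb)
    (h : ∀ z ∈ Z, ∃ j, eval z (F j) ≠ 0) :
    ∃ A : J → MvPolynomial V Qb, ∀ z ∈ Z, ∑ j, eval z (A j) * eval z (F j) = 1 := by
  obtain ⟨R, hR⟩ := hZ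
  subst hR
  set I : Ideal (MvPolynomial V Qb) := Ideal.span (R ∪ Set.range F) with hI
  have h0 : zeroLocus Qb I = ∅ := by
    rw [Set.eq_empty_iff_forall_notMem]
    intro z hz
    rw [hI, zeroLocus_span] at hz
    obtain ⟨j, hj⟩ := h z (fun r hr => hz r (.inl hr))
    exact hj (hz (F j) (.inr ⟨j, rfl⟩))
  have h1 : I.radical = ⊤ := by
    rw [← vanishingIdeal_zeroLocus_eq_radical (K := Qb), h0, vanishingIdeal_empty]
  have h2 : (1 : MvPolynomial V Qb) ∈ I := by
    rw [Ideal.radical_eq_top] at h1; rw [h1]; exact Submodule.mem_top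
  rw [hI, Ideal.span_union, Submodule.mem_sup] at h2
  obtain ⟨u, hu, w, hw, huw⟩ := h2
  obtain ⟨A, hA⟩ := (Submodule.mem_span_range_iff_exists_fun _).mp hw
  refine ⟨A, fun z hz => ?_⟩
  have hu0 : eval z u = 0 := by
    have : Ideal.span R ≤ RingHom.ker (eval z) := Ideal.span_le.mpr fun r hr => hz r hr
    exact this hu
  have := congrArg (eval z) huw
  rw [map_add, hu0, zero_add, ← hA, map_sum, map_one] at this
  simpa [smul_eq_mul] using this

/-! ## Forms -/

variable {P : Type*}

/-- The coordinate functions of a block. -/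
def coordSpan {σ : Type*} (p : P → σ → Qb) : Submodule Qb (P → Qb) :=
  Submodule.span Qb (Set.range fun k => fun x => p x k)

theorem coord_mem {σ : Type*} (p : P → σ → Qb) (k : σ) : (fun x => p x k) ∈ coordSpan p :=
  Submodule.subset_span ⟨k, rfl⟩

/-- A submodule of functions is dominated by `w` if it is spanned by finitely many functions whose
height is at most `w`. -/
def Dominated (S : Submodule Qb (P → Qb)) (w : P → ℝ) : Prop :=
  ∃ (n : ℕ) (g : Fin n → P → Qb), S ≤ Submodule.span Qb (Set.range g) ∧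
    ∀ x, habs (fun k => g k x) ≤ w x

theorem dominated_of_family {κ : Type*} [Finite κ] (g : κ → P → Qb) {w : P → ℝ}
    (h : ∀ x, habs (fun k => g k x) ≤ w x) : Dominated (Submodule.span Qb (Set.range g)) w := by
  obtain ⟨n, ⟨e⟩⟩ := Finite.exists_equiv_fin κ
  refine ⟨n, g ∘ e.symm, by rw [Set.range_comp, e.symm.surjective.range_eq, Set.image_univ],
    fun x => (habs_comp_le e.symm (fun k => g k x)).trans (h x)⟩

theorem dominated_coordSpan {σ : Type*} [Finite σ] (p : P → σ → Qb) :
    Dominated (coordSpan p) (fun x => habs (p x)) :=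
  dominated_of_family (fun k => fun x => p x k) fun _ => le_rfl

theorem dominated_one : Dominated (1 : Submodule Qb (P → Qb)) (0 : P → ℝ) := by
  refine ⟨1, fun _ => 1, ?_, fun x => ?_⟩
  · rw [Submodule.one_eq_span]
    exact Submodule.span_mono (by simp)
  · have e : (fun _ : Fin 1 => (1 : P → Qb) x) = (fun _ : Fin 1 => (1 : Qb)) := rfl
    obtain ⟨L, hL, hmem⟩ := exists_field_mem (fun _ : Fin 1 => (1 : Qb))
    rw [e, habs_eq _ L hmem, fieldHeight]
    simp

theorem Dominated.mul {S T : Submodule Qb (P → Qb)} {w w' : P → ℝ} (hS : Dominated S w)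
    (hT : Dominated T w') : Dominated (S * T) (w + w') := by
  obtain ⟨n, g, hg, hgw⟩ := hS
  obtain ⟨m, g', hg', hgw'⟩ := hT
  obtain ⟨k, f, hf, hfw⟩ := dominated_of_family (fun a : Fin n × Fin m => g a.1 * g' a.2)
    (w := w + w') (fun x => by
      rcases eq_or_ne (fun i => g i x) 0 with h0 | h0
      · have e : (fun a : Fin n × Fin m => (g a.1 * g' a.2) x) = 0 := by
          funext a; simp [congrFun h0 a.1]
        rw [e, habs_zero]
        exact add_nonneg ((habs_nonneg _).trans (hgw x)) ((habs_nonneg _).trans (hgw' x))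
      rcases eq_or_ne (fun i => g' i x) 0 with h1 | h1
      · have e : (fun a : Fin n × Fin m => (g a.1 * g' a.2) x) = 0 := by
          funext a; simp [congrFun h1 a.2]
        rw [e, habs_zero]
        exact add_nonneg ((habs_nonneg _).trans (hgw x)) ((habs_nonneg _).trans (hgw' x))
      · rw [show (fun a : Fin n × Fin m => (g a.1 * g' a.2) x) =
            fun a : Fin n × Fin m => g a.1 x * g' a.2 x from rfl, habs_mul_table h0 h1]
        exact add_le_add (hgw x) (hgw' x))
  refine ⟨k, f, le_trans ?_ hf, hfw⟩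
  refine (mul_le_mul' hg hg').trans ?_
  rw [Submodule.span_mul_span]
  refine Submodule.span_mono ?_
  rintro _ ⟨_, ⟨i, rfl⟩, _, ⟨j, rfl⟩, rfl⟩
  exact ⟨(i, j), rfl⟩

theorem Dominated.pow {S : Submodule Qb (P → Qb)} {w : P → ℝ} (hS : Dominated S w) (d : ℕ) :
    Dominated (S ^ d) (fun x => d * w x) := by
  induction d with
  | zero =>
    rw [pow_zero, show (fun x : P => ((0 : ℕ) : ℝ) * w x) = 0 by funext x; simp]
    exact dominated_one
  | succ d ih =>
    have := ih.mul hS
    rw [← pow_succ] at this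
    convert this using 1
    funext x; push_cast; simp [add_mul]

/-- A tuple in a dominated space has height at most `w` up to a constant. -/
theorem Dominated.le {S : Submodule Qb (P → Qb)} {w : P → ℝ} (hS : Dominated S w) {τ : Type*}
    [Finite τ] (y : τ → P → Qb) (hy : ∀ j, y j ∈ S) :
    ∃ C, ∀ x, habs (fun j => y j x) ≤ w x + C := by
  obtain ⟨n, g, hg, hgw⟩ := hS
  choose A hA using fun j => (Submodule.mem_span_range_iff_exists_fun _).mp (hg (hy j))
  obtain ⟨C, hC⟩ := habs_linear_le A
  refine ⟨C, fun x => ?_⟩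
  have e : (fun j => y j x) = fun j => ∑ i, A j i * g i x := by
    funext j; rw [← hA j]; simp
  rw [e]
  exact (hC _).trans (by linarith [hgw x])

/-! ## Charts -/

variable {ι : Type*} [Fintype ι] {σ : ι → Type*} [∀ i, Finite (σ i)] (p : ∀ i, P → σ i → Qb)

/-- Forms of multidegree `d`. -/
def monoSpan (d : ι → ℕ) : Submodule Qb (P → Qb) := ∏ i, coordSpan (p i) ^ d i

omit [∀ (i : ι), Finite (σ i)] in
theorem monoSpan_mul (d e : ι → ℕ) : monoSpan p d * monoSpan p e = monoSpan p (d + e) := by
  rw [monoSpan, monoSpan, monoSpan, ← Finset.prod_mul_distrib]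
  simp [pow_add]

/-- The weight of a multidegree. -/
def weight (d : ι → ℕ) (x : P) : ℝ := ∑ i, (d i : ℝ) * habs (p i x)

theorem dominated_monoSpan (d : ι → ℕ) : Dominated (monoSpan p d) (weight p d) := by
  classical
  rw [monoSpan, show weight p d = fun x => ∑ i ∈ Finset.univ, (d i : ℝ) * habs (p i x) from rfl]
  induction (Finset.univ : Finset ι) using Finset.induction_on with
  | empty =>
    rw [Finset.prod_empty, show (fun x : P => ∑ i ∈ (∅ : Finset ι), (d i : ℝ) * habs (p i x)) = 0 by
      funext x; simp]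
    exact dominated_one
  | insert a s ha ih =>
    rw [Finset.prod_insert ha]
    convert ((dominated_coordSpan (p a)).pow (d a)).mul ih using 1
    funext x; simp [Finset.sum_insert ha]

/-- The ratio coordinates in a chart. -/
def ratio (c : ∀ i, σ i) (x : P) : (Σ i, σ i) → Qb := fun a => p a.1 x a.2 / p a.1 x (c a.1)

/-- The chart monomial. -/
def chartMono (c : ∀ i, σ i) (d : ι → ℕ) (x : P) : Qb := ∏ i, p i x (c i) ^ d i

omit [Fintype ι] in
theorem prod_mem_prod {s : Finset ι} {f : ι → P → Qb} {S : ι → Submodule Qb (P → Qb)}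
    (h : ∀ i ∈ s, f i ∈ S i) : ∏ i ∈ s, f i ∈ ∏ i ∈ s, S i := by
  classical
  induction s using Finset.induction_on with
  | empty =>
    rw [Finset.prod_empty, Finset.prod_empty]
    exact Submodule.one_le.mp (le_refl (1 : Submodule Qb (P → Qb)))
  | insert a s ha ih =>
    rw [Finset.prod_insert ha, Finset.prod_insert ha]
    exact Submodule.mul_mem_mul (h a (Finset.mem_insert_self _ _))
      (ih fun i hi => h i (Finset.mem_insert_of_mem hi))

omit [∀ (i : ι), Finite (σ i)] in
theorem chartMono_mem (c : ∀ i, σ i) (d : ι → ℕ) : chartMono p c d ∈ monoSpan p d := by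
  have e : chartMono p c d = ∏ i, (fun x => p i x (c i)) ^ d i := by
    funext x; simp [chartMono, Finset.prod_apply]
  rw [e]
  exact prod_mem_prod fun i _ => Submodule.pow_mem_pow _ (coord_mem _ _) _

omit [∀ (i : ι), Finite (σ i)] in
/-- A polynomial in the chart coordinates becomes a form after multiplying by a large power of
the chart monomial. -/
theorem exists_chartMono_mul_eval_mem (c : ∀ i, σ i) (F : MvPolynomial (Σ i, σ i) Qb) :
    ∃ N : ℕ, ∀ d : ι → ℕ, (∀ i, N ≤ d i) →
      (fun x => chartMono p c d x * eval (ratio p c x) F) ∈ monoSpan p d := by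
  classical
  induction F using MvPolynomial.induction_on with
  | C a =>
    refine ⟨0, fun d _ => ?_⟩
    have := (monoSpan p d).smul_mem a (chartMono_mem p c d)
    convert this using 1
    funext x; simp [mul_comm]
  | add F G hF hG =>
    obtain ⟨N, hN⟩ := hF
    obtain ⟨M, hM⟩ := hG
    refine ⟨max N M, fun d hd => ?_⟩
    have := add_mem (hN d fun i => le_trans (le_max_left _ _) (hd i))
      (hM d fun i => le_trans (le_max_right _ _) (hd i))
    convert this using 1
    funext x; simp [mul_add]
  | mul_X F a hF =>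
    obtain ⟨N, hN⟩ := hF
    refine ⟨N + 2, fun d hd => ?_⟩
    -- Times a coordinate ratio: trade one power of the chart coordinate for that coordinate.
    obtain ⟨i₀, k⟩ := a
    set e : ι → ℕ := Function.update d i₀ (d i₀ - 1) with he
    have hed : Pi.single i₀ 1 + e = d := by
      funext i; rcases eq_or_ne i i₀ with rfl | h
      · simp [he]; have := hd i; omega
      · simp [he, h]
    have h1 : (fun x => p i₀ x k) ∈ monoSpan p (Pi.single i₀ 1) := by
      rw [monoSpan, Finset.prod_eq_single i₀ (fun i _ h => by simp [h]) (by simp)]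
      simpa using coord_mem (p i₀) k
    have h2 := hN e fun i => by
      rcases eq_or_ne i i₀ with rfl | h
      · simp [he]; have := hd i; omega
      · simp [he, h]; have := hd i; omega
    have := Submodule.mul_mem_mul h1 h2
    rw [monoSpan_mul, hed] at this
    convert this using 1
    funext x
    simp only [map_mul, eval_X, Pi.mul_apply, ratio, chartMono]
    rw [← Finset.mul_prod_erase Finset.univ _ (Finset.mem_univ i₀),
      ← Finset.mul_prod_erase Finset.univ (fun i => p i x (c i) ^ e i) (Finset.mem_univ i₀)]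
    have hrest : ∏ i ∈ Finset.univ.erase i₀, p i x (c i) ^ e i =
        ∏ i ∈ Finset.univ.erase i₀, p i x (c i) ^ d i :=
      Finset.prod_congr rfl fun i hi => by simp [he, Finset.ne_of_mem_erase hi]
    rw [hrest, show d i₀ = (d i₀ - 1) + 1 by have := hd i₀; omega,
      show e i₀ = d i₀ - 1 by simp [he]]
    simp only [pow_succ]
    rcases eq_or_ne (p i₀ x (c i₀)) 0 with h0 | h0
    · have : d i₀ - 1 ≠ 0 := by have := hd i₀; omega
      simp [h0, zero_pow this]
    · field_simp

theorem habs_chartMono_eq (d : ι → ℕ) {x : P} (hx : ∀ i, p i x ≠ 0) :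
    habs (fun c : ∀ i, σ i => chartMono p c d x) = weight p d x := by
  classical
  obtain ⟨L, hL, hmem⟩ := exists_field_mem (fun a : Σ i, σ i => p a.1 x a.2)
  have := numberField_of_finite L
  have hc : ∀ c : ∀ i, σ i, chartMono p c d x ∈ L := fun c =>
    prod_mem fun i _ => pow_mem (hmem ⟨i, c i⟩) _
  let q : ∀ i, σ i → L := fun i k => (⟨p i x k, hmem ⟨i, k⟩⟩ : L) ^ d i
  have hq : ∀ i, q i ≠ 0 := fun i h => by
    obtain ⟨k, hk⟩ := Function.ne_iff.mp (hx i)
    exact pow_ne_zero (d i) (fun h' => hk (congrArg Subtype.val h') :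
      (⟨p i x k, hmem ⟨i, k⟩⟩ : L) ≠ 0) (congrFun h k)
  have e : (fun c : ∀ i, σ i => (⟨chartMono p c d x, hc c⟩ : L)) =
      fun c : ∀ i, σ i => ∏ i, q i (c i) := by
    funext c; exact Subtype.ext (by simp [chartMono, q])
  rw [habs_eq _ L hc, fieldHeight, e, Height.logHeight_fun_prod_eq hq, Finset.sum_div, weight]
  refine Finset.sum_congr rfl fun i _ => ?_
  rw [habs_eq (p i x) L (fun k => hmem ⟨i, k⟩), fieldHeight,
    show q i = (fun k => (⟨p i x k, hmem ⟨i, k⟩⟩ : L)) ^ d i from rfl, Height.logHeight_pow,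
    mul_div_assoc]

/-- Data of a vector-valued function given by polynomials in every chart. -/
structure ChartMap (τ : Type*) where
  y : τ → P → Qb
  deg : ι → ℕ
  F : (∀ i, σ i) → τ → MvPolynomial (Σ i, σ i) Qb
  eq : ∀ c j x, (∀ i, p i x (c i) ≠ 0) →
    y j x = chartMono p c deg x * eval (ratio p c x) (F c j)

variable {p}
variable {τ : Type*} [Finite τ]

omit [∀ (i : ι), Finite (σ i)] in
theorem chartMono_add (c : ∀ i, σ i) (d e : ι → ℕ) (x : P) :
    chartMono p c (d + e) x = chartMono p c d x * chartMono p c e x := by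
  simp [chartMono, pow_add, Finset.prod_mul_distrib]

omit [∀ (i : ι), Finite (σ i)] in
theorem chartMono_eq_zero {c : ∀ i, σ i} {d : ι → ℕ} {x : P} {i : ι} (h : p i x (c i) = 0)
    (hd : d i ≠ 0) : chartMono p c d x = 0 :=
  Finset.prod_eq_zero (Finset.mem_univ i) (by rw [h, zero_pow hd])

omit [∀ (i : ι), Finite (σ i)] in
theorem chartMono_ne_zero {x : P} (hx : ∀ i, p i x ≠ 0) (d : ι → ℕ) :
    (fun c : ∀ i, σ i => chartMono p c d x) ≠ 0 := by
  choose c hc using fun i => Function.ne_iff.mp (hx i)
  exact Function.ne_iff.mpr ⟨c, Finset.prod_ne_zero_iff.mpr fun i _ => pow_ne_zero _ (hc i)⟩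

/-- Upper bound. -/
theorem ChartMap.habs_le (m : ChartMap p τ) :
    ∃ C, ∀ x, (∀ i, p i x ≠ 0) → (fun j => m.y j x) ≠ 0 →
      habs (fun j => m.y j x) ≤ weight p m.deg x + C := by
  classical
  choose N hN using fun a : (∀ i, σ i) × τ => exists_chartMono_mul_eval_mem p a.1 (m.F a.1 a.2)
  have := Fintype.ofFinite ((∀ i, σ i) × τ)
  set M : ι → ℕ := fun _ => (Finset.univ.sup N) + 1 with hM
  have hmem : ∀ a : (∀ i, σ i) × τ,
      (fun x => chartMono p a.1 M x * m.y a.2 x) ∈ monoSpan p (M + m.deg) := fun a => by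
    have := hN a (M + m.deg) fun i => by
      have := Finset.le_sup (f := N) (Finset.mem_univ a)
      simp [hM]; omega
    convert this using 1
    funext x
    by_cases h : ∀ i, p i x (a.1 i) ≠ 0
    · rw [m.eq a.1 a.2 x h, chartMono_add, mul_assoc]
    · push Not at h
      obtain ⟨i, hi⟩ := h
      rw [chartMono_eq_zero hi (by simp [hM]), chartMono_eq_zero hi (by simp [hM])]
      simp
  obtain ⟨C, hC⟩ := (dominated_monoSpan p (M + m.deg)).le _ hmem
  refine ⟨C, fun x hx hy => ?_⟩
  have h := hC x
  rw [habs_mul_table (chartMono_ne_zero hx M) hy, habs_chartMono_eq p M hx] at h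
  have : weight p (M + m.deg) x = weight p M x + weight p m.deg x := by
    simp [weight, add_mul, Finset.sum_add_distrib]
  linarith

/-- Lower bound. -/
theorem ChartMap.le_habs (m : ChartMap p τ) (Z : (∀ i, σ i) → Set ((Σ i, σ i) → Qb))
    (hZ : ∀ c, IsAlgSet (Z c))
    (hpt : ∀ c x, (∀ i, p i x (c i) ≠ 0) → ratio p c x ∈ Z c)
    (hne : ∀ c, ∀ z ∈ Z c, ∃ j, eval z (m.F c j) ≠ 0) :
    ∃ C, ∀ x, (∀ i, p i x ≠ 0) → weight p m.deg x ≤ habs (fun j => m.y j x) + C := by
  classical
  have := Fintype.ofFinite τ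
  have := Fintype.ofFinite (∀ i, σ i)
  -- On each chart `1` is a combination of the coordinate functions, as they have no common zero.
  choose A hA using fun c => exists_partition_of_no_common_zero (hZ c) (m.F c) (hne c)
  choose N hN using fun a : (∀ i, σ i) × τ => exists_chartMono_mul_eval_mem p a.1 (A a.1 a.2)
  set M : ι → ℕ := fun _ => (Finset.univ.sup N) + 1 with hM
  have hmem : ∀ a : (∀ i, σ i) × τ,
      (fun x => chartMono p a.1 M x * eval (ratio p a.1 x) (A a.1 a.2)) ∈ monoSpan p M := fun a =>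
    hN a M fun i => by have := Finset.le_sup (f := N) (Finset.mem_univ a); simp [hM]; omega
  obtain ⟨C₁, hC₁⟩ := (dominated_monoSpan p M).le _ hmem
  obtain ⟨C₂, hC₂⟩ := habs_linear_le
    (fun (c : ∀ i, σ i) (a : ((∀ i, σ i) × τ) × τ) => if a.1.1 = c ∧
      a.1.2 = a.2 then (1 : Qb) else 0)
  refine ⟨C₁ + C₂, fun x hx => ?_⟩
  set G : (∀ i, σ i) × τ → Qb := fun a => chartMono p a.1 M x * eval (ratio p a.1 x) (A a.1 a.2)
    with hG
  set Y : τ → Qb := fun j => m.y j x with hY
  -- So each chart monomial is a combination of the products of forms of degree `M` with the `y j`.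
  have key : (fun c : ∀ i, σ i => chartMono p c (M + m.deg) x) =
      fun c => ∑ a : ((∀ i, σ i) × τ) × τ,
        (if a.1.1 = c ∧ a.1.2 = a.2 then (1 : Qb) else 0) * (G a.1 * Y a.2) := by
    funext c
    have hs : ∑ a : ((∀ i, σ i) × τ) × τ,
        (if a.1.1 = c ∧ a.1.2 = a.2 then (1 : Qb) else 0) * (G a.1 * Y a.2) =
        ∑ j, G (c, j) * Y j := by
      simp only [Fintype.sum_prod_type]
      rw [Finset.sum_eq_single c (fun c' _ h => by simp [h])
        (fun h => absurd (Finset.mem_univ _) h)]
      refine Finset.sum_congr rfl fun j _ => ?_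
      rw [Finset.sum_eq_single j (fun j' _ h => by simp [Ne.symm h])
        (fun h => absurd (Finset.mem_univ _) h)]
      simp
    rw [hs]
    by_cases h : ∀ i, p i x (c i) ≠ 0
    · calc chartMono p c (M + m.deg) x
          = chartMono p c (M + m.deg) x * ∑ j, eval (ratio p c x) (A c j) *
              eval (ratio p c x) (m.F c j) := by rw [hA c _ (hpt c x h), mul_one]
        _ = _ := by
              rw [Finset.mul_sum]
              refine Finset.sum_congr rfl fun j _ => ?_
              simp only [hG, hY]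
              rw [m.eq c j x h, chartMono_add]
              ring
    · push Not at h
      obtain ⟨i, hi⟩ := h
      rw [chartMono_eq_zero hi (by simp [hM])]
      simp only [hG]
      simp [chartMono_eq_zero (d := M) hi (by simp [hM])]
  -- Compare the heights.
  have h0 := habs_chartMono_eq p (M + m.deg) hx
  rw [key] at h0
  have hne0 : (fun c : ∀ i, σ i => chartMono p c (M + m.deg) x) ≠ 0 := chartMono_ne_zero hx _
  have hG0 : G ≠ 0 := fun h => hne0 <| by rw [key]; funext c; simp [h]
  have hY0 : Y ≠ 0 := fun h => hne0 <| by rw [key]; funext c; simp [h]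
  have h1 := hC₂ (fun a : ((∀ i, σ i) × τ) × τ => G a.1 * Y a.2)
  rw [h0, habs_mul_table hG0 hY0] at h1
  have h2 : habs G ≤ weight p M x + C₁ := hC₁ x
  have : weight p (M + m.deg) x = weight p M x + weight p m.deg x := by
    simp [weight, add_mul, Finset.sum_add_distrib]
  linarith

end Fermat.Agent.MordellWeil
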