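import Mathlib.LinearAlgebra.Matrix.Adjugate
import Mathlib.LinearAlgebra.Matrix.Determinant.Basic
import Mathlib.LinearAlgebra.Matrix.ToLin
import Mathlib.LinearAlgebra.Matrix.ToLinearEquiv

/-!
# Plücker vectors indexed by all functions
-/

set_option autoImplicit false

noncomputable section

open Matrix Finset

namespace Fermat.Agent.MordellWeil

variable {K : Type*} [CommRing K] {α β γ : Type*}

/-- The `k`-th tensor power of a matrix, acting on functions of `k` indices. -/
def tens [Fintype β] (k : ℕ) (M : α → β → K) (z : (Fin k → β) → K) (l : Fin k → α) : K :=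
  ∑ m : Fin k → β, (∏ r, M (l r) (m r)) * z m

theorem tens_tens [Fintype β] [Fintype γ] (k : ℕ) (M : α → β → K) (N : β → γ → K)
    (z : (Fin k → γ) → K) :
    tens k M (tens k N z) = tens k (fun a c => ∑ b, M a b * N b c) z := by
  funext l
  simp only [tens, Finset.mul_sum]
  rw [Finset.sum_comm]
  refine Finset.sum_congr rfl fun m _ => ?_
  rw [Fintype.prod_sum, Finset.sum_mul]
  refine Finset.sum_congr rfl fun p _ => ?_
  rw [Finset.prod_mul_distrib]
  ring

theorem tens_one [Fintype β] [DecidableEq β] (k : ℕ) (z : (Fin k → β) → K) :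
    tens k (fun a b : β => if a = b then 1 else 0) z = z := by
  funext l
  rw [tens, Finset.sum_eq_single l]
  · simp
  · intro m _ hm
    obtain ⟨r, hr⟩ := Function.ne_iff.mp hm
    rw [Finset.prod_eq_zero (Finset.mem_univ r) (if_neg (Ne.symm hr)), zero_mul]
  · exact fun h => absurd (Finset.mem_univ _) h

/-- Plücker vector of a tuple of vectors. -/
def plucker {k : ℕ} (w : Fin k → α → K) (J : Fin k → α) : K :=
  det (Matrix.of fun r j => w j (J r))

theorem plucker_map [Fintype β] {k : ℕ} (M : α → β → K) (w : Fin k → β → K) :
    plucker (fun j a => ∑ b, M a b * w j b) = tens k M (plucker w) := by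
  funext J
  simp only [plucker, tens]
  rw [← det_transpose]
  have hrow : (Matrix.of fun r j => ∑ b, M (J r) b * w j b : Matrix (Fin k) (Fin k) K)ᵀᵀ =
      (fun r => ∑ b, M (J r) b • fun j => w j b) := by
    funext r j; simp [Finset.sum_apply]
  rw [← det_transpose, hrow]
  have := (detRowAlternating (n := Fin k) (R := K)).toMultilinearMap.map_sum
    (fun (r : Fin k) (b : β) => M (J r) b • fun j => w j b)
  change detRowAlternating.toMultilinearMap _ = _
  rw [this]
  refine Finset.sum_congr rfl fun m _ => ?_
  rw [MultilinearMap.map_smul_univ]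
  rfl

/-- A change of basis multiplies the Plücker vector by the determinant. -/
theorem plucker_comb {k : ℕ} (g : Matrix (Fin k) (Fin k) K) (w : Fin k → α → K) :
    plucker (fun j a => ∑ i, w i a * g i j) = fun J => plucker w J * g.det := by
  funext J
  simp only [plucker]
  rw [← det_mul]
  rfl

/-- Row replacement (Cramer). -/
theorem plucker_mul_apply {k : ℕ} (w : Fin k → α → K) (J : Fin k → α) (i : Fin k)
    (a : α) :
    plucker w J * w i a = ∑ j, plucker w (Function.update J j a) * w i (J j) := by
  set M : Matrix (Fin k) (Fin k) K := Matrix.of fun r j => w j (J r) with hM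
  have h := congrFun (Mᵀ.mulVec_cramer fun l => w l a) i
  simp only [mulVec, dotProduct, transpose_apply, det_transpose, Pi.smul_apply, smul_eq_mul,
    cramer_transpose_apply] at h
  rw [plucker, ← hM, ← h]
  refine Finset.sum_congr rfl fun j _ => ?_
  rw [mul_comm, plucker]
  congr 2
  ext r l
  rcases eq_or_ne r j with rfl | h
  · simp [updateRow_self, hM]
  · simp [updateRow_ne h, hM, Function.update_of_ne h]

/-- Expansion along a replaced row. -/
theorem plucker_update_eq {k : ℕ} (w : Fin k → α → K) (J : Fin k → α) (j : Fin k)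
    (a : α) :
    plucker w (Function.update J j a) =
      ∑ i, w i a * (Matrix.of fun r l => w l (J r) : Matrix (Fin k) (Fin k) K).adjugate i j := by
  set M : Matrix (Fin k) (Fin k) K := Matrix.of fun r l => w l (J r) with hM
  have : (Matrix.of fun r l => w l (Function.update J j a r) : Matrix (Fin k) (Fin k) K) =
      M.updateRow j (fun l => w l a) := by
    ext r l
    rcases eq_or_ne r j with rfl | h
    · simp [updateRow_self]
    · simp [updateRow_ne h, hM, Function.update_of_ne h]
  rw [plucker, this, ← cramer_transpose_apply, cramer_eq_adjugate_mulVec]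
  rw [← adjugate_transpose M]
  simp [mulVec, dotProduct, mul_comm]

section Field

variable {F : Type*} [Field F]

/-- The update vector of a Plücker vector. -/
def uvec [DecidableEq α] {k : ℕ} (Ω : (Fin k → α) → F) (a : (Fin k → α) × Fin k) (x : α) : F :=
  Ω (Function.update a.1 a.2 x)

/-- The vectors read off the Plücker vector lie in the span. -/
theorem uvec_mem_span [DecidableEq α] {k : ℕ} (w : Fin k → α → F) (a : (Fin k → α) × Fin k) :
    uvec (plucker w) a ∈ Submodule.span F (Set.range w) := by
  rw [Submodule.mem_span_range_iff_exists_fun]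
  refine ⟨fun i => (Matrix.of fun r l => w l (a.1 r) : Matrix (Fin k) (Fin k) F).adjugate i a.2, ?_⟩
  funext x
  simp [uvec, plucker_update_eq, Finset.sum_apply, mul_comm]

theorem plucker_eq_zero_of_not_linearIndependent {k : ℕ} {w : Fin k → α → F}
    (h : ¬LinearIndependent F w) : plucker w = 0 := by
  funext J
  obtain ⟨c, hc, i, hi⟩ := Fintype.not_linearIndependent_iff.mp h
  by_contra hJ
  have hmul : (Matrix.of fun r l => w l (J r) : Matrix (Fin k) (Fin k) F) *ᵥ c = 0 := by
    funext r
    have := congrFun hc (J r)
    simp only [Finset.sum_apply, Pi.smul_apply, smul_eq_mul, Pi.zero_apply] at this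
    simpa [mulVec, dotProduct, mul_comm] using this
  exact hi (congrFun (Matrix.eq_zero_of_mulVec_eq_zero hJ hmul) i)

theorem exists_left_inverse [Fintype α] [DecidableEq α] [Fintype β] [DecidableEq β]
    (M : α → β → F) (h : ∀ c : β → F, (∀ a, ∑ b, M a b * c b = 0) → c = 0) :
    ∃ N : β → α → F, ∀ b b', ∑ a, N b a * M a b' = if b = b' then 1 else 0 := by
  obtain ⟨g, hg⟩ := LinearMap.exists_leftInverse_of_injective (Matrix.toLin' (Matrix.of M))
    (LinearMap.ker_eq_bot'.mpr fun c hc => h c fun a => by
      simpa [mulVec, dotProduct] using congrFun hc a)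
  refine ⟨LinearMap.toMatrix' g, fun b b' => ?_⟩
  have h1 : LinearMap.toMatrix' g * Matrix.of M = 1 := by
    rw [← LinearMap.toMatrix'_toLin' (Matrix.of M), ← LinearMap.toMatrix'_comp, hg,
      LinearMap.toMatrix'_id]
  have := congrFun (congrFun h1 b) b'
  simpa [Matrix.mul_apply, Matrix.one_apply] using this

/-- Tensor powers of an injective matrix are injective. -/
theorem tens_ne_zero [Fintype α] [DecidableEq α] [Fintype β] [DecidableEq β] {k : ℕ}
    {M : α → β → F} (h : ∀ c : β → F, (∀ a, ∑ b, M a b * c b = 0) → c = 0)
    {z : (Fin k → β) → F} (hz : z ≠ 0) : tens k M z ≠ 0 := by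
  intro h0
  obtain ⟨N, hN⟩ := exists_left_inverse M h
  have e := tens_tens k N M z
  have : (fun b b' => ∑ a, N b a * M a b') = fun b b' : β => if b = b' then (1 : F) else 0 := by
    funext b b'; exact hN b b'
  rw [this, tens_one, h0] at e
  apply hz
  rw [← e]
  funext l
  simp [tens]

/-- A linearly independent tuple has nonzero Plücker vector. -/
theorem plucker_ne_zero [Fintype α] [DecidableEq α] {k : ℕ} {w : Fin k → α → F}
    (h : LinearIndependent F w) : plucker w ≠ 0 := by
  have hker : ∀ c : Fin k → F, (∀ a, ∑ j, w j a * c j = 0) → c = 0 := fun c hc =>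
    funext fun i => Fintype.linearIndependent_iff.mp h c
      (funext fun a => by simpa [Finset.sum_apply, mul_comm] using hc a) i
  let e : Fin k → Fin k → F := fun j b => if j = b then 1 else 0
  have h1 : plucker e ≠ 0 := fun h0 => by
    have := congrFun h0 id
    rw [Pi.zero_apply, plucker,
      show (Matrix.of fun r j => e j (id r) : Matrix (Fin k) (Fin k) F) = 1 by
        ext r j; simp [e, Matrix.one_apply, eq_comm],
      det_one] at this
    exact one_ne_zero this
  have h2 : plucker w = tens k (fun a b => w b a) (plucker e) := by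
    rw [← plucker_map]
    congr 1
    funext j a
    simp [e]
  rw [h2]
  exact tens_ne_zero hker h1

end Field

end Fermat.Agent.MordellWeil
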