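import Fermat.Agent.MordellWeil.Invariant
import Fermat.Prelude.Def_AlgebraicCurve_BaseChangeGalois
import Mathlib.FieldTheory.Galois.Infinite

/-!
# Galois equivariance, the lower bound and the Northcott property
-/

set_option autoImplicit false

noncomputable section

open AlgebraicCurve Fermat.Agent.FF

namespace Fermat.Agent.MordellWeil

variable {F : Type*} [Field F] [Algebra Qb F] [IsFunctionField Qb F]

namespace Coords

variable (X : Coords F)

/-- A Galois action on the function field compatible with the coordinates. -/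
structure GalAct where
  act : (Qb ≃ₐ[ℚ] Qb) → SemilinearAut Qb F
  base : ∀ σ, SemilinearAut.baseAut (act σ) = σ.toRingEquiv
  fix_pt : ∀ σ, act σ • X.pt = X.pt
  co_act : ∀ σ m f, f ∈ X.V m → X.co m (act σ • f) = fun i => σ (X.co m f i)

namespace GalAct

variable {X} (A : X.GalAct) (σ : Qb ≃ₐ[ℚ] Qb)

omit [IsFunctionField Qb F] in
theorem act_smul (c : Qb) (f : F) : A.act σ • (c • f) = σ c • (A.act σ • f) := by
  rw [Algebra.smul_def, Algebra.smul_def, smul_mul', SemilinearAut.smul_algebraMap, A.base]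
  rfl

omit [IsFunctionField Qb F] in
theorem act_inj {f g : F} (h : A.act σ • f = A.act σ • g) : f = g :=
  MulAction.injective (A.act σ) h

omit [IsFunctionField Qb F] in
theorem act_ne_zero {f : F} (h : f ≠ 0) : A.act σ • f ≠ 0 := fun e =>
  h (A.act_inj σ (e.trans (smul_zero _).symm))

omit [IsFunctionField Qb F] in
theorem ord_act (f : F) (w : Place Qb F) :
    w.ord (A.act σ • f) = ((A.act σ)⁻¹ • w).ord f := by
  have := SemilinearAut.ord_smul (A.act σ) ((A.act σ)⁻¹ • w) f
  rwa [smul_inv_smul] at this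

omit [IsFunctionField Qb F] in
theorem smul_single_pt (n : ℤ) :
    A.act σ • (Finsupp.single X.pt n : Divisor Qb F) = Finsupp.single X.pt n := by
  rw [SemilinearAut.smul_single, A.fix_pt]

omit [IsFunctionField Qb F] in
theorem single_pt_apply (n : ℤ) (w : Place Qb F) :
    Finsupp.single X.pt n ((A.act σ)⁻¹ • w) = Finsupp.single X.pt n w := by
  rw [← SemilinearAut.divisor_smul_apply, A.smul_single_pt]

omit [IsFunctionField Qb F] in
theorem smul_nonneg {D : Divisor Qb F} (hD : 0 ≤ D) : 0 ≤ A.act σ • D :=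
  Finsupp.le_def.mpr fun w => by
    rw [SemilinearAut.divisor_smul_apply]
    exact Finsupp.le_def.mp hD _

omit [IsFunctionField Qb F] in
theorem act_mem_W {m : ℕ} {D : Divisor Qb F} {f : F} (hf : f ∈ X.W m D) :
    A.act σ • f ∈ X.W m (A.act σ • D) := by
  rcases eq_or_ne f 0 with rfl | h0
  · rw [smul_zero]; exact zero_mem _
  refine mem_L_of_le fun w => ?_
  have := neg_le_ord hf h0 ((A.act σ)⁻¹ • w)
  rw [A.ord_act]
  simp only [Finsupp.sub_apply, SemilinearAut.divisor_smul_apply, A.single_pt_apply] at this ⊢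
  exact this

theorem zdiv_act {n : ℕ} (u : F) : X.zdiv n (A.act σ • u) = A.act σ • X.zdiv n u := by
  refine Finsupp.ext fun w => ?_
  simp only [zdiv, Finsupp.add_apply, div_apply, SemilinearAut.divisor_smul_apply, A.ord_act,
    A.single_pt_apply]

/-- Galois commutes with taking the class of a divisor. -/
theorem smul_cls {n : ℕ} {D : Divisor Qb F} (hn : Divisor.degree D = n) :
    A.act σ • X.cls n D = X.cls n (A.act σ • D) := by
  rw [X.cls_eq hn, X.cls_eq (by rw [SemilinearAut.degree_smul, hn]), SemilinearAut.pic0_smul_mk]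
  refine congrArg Pic0.mk (Subtype.ext ?_)
  simp only [SemilinearAut.coe_degZeroSMulHom]
  rw [smul_sub, A.smul_single_pt]

/-- Galois carries pairs to pairs. -/
theorem act_pair {n n' : ℕ} {D D' : Divisor Qb F} {u : F} (h : X.IsPair n n' D D' u) :
    X.IsPair n n' (A.act σ • D) (A.act σ • D') (A.act σ • u) :=
  ⟨A.smul_nonneg σ h.nonneg, A.smul_nonneg σ h.nonneg', by rw [SemilinearAut.degree_smul, h.deg],
    by rw [SemilinearAut.degree_smul, h.deg'], A.act_ne_zero σ h.ne,
    by rw [A.zdiv_act, h.div_eq, smul_add]⟩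

omit [IsFunctionField Qb F] in
theorem linearIndependent_act {ι : Type*} [Fintype ι] {w : ι → F}
    (h : LinearIndependent Qb w) : LinearIndependent Qb fun i => A.act σ • w i := by
  rw [Fintype.linearIndependent_iff] at h ⊢
  intro c hc i
  have := h (fun i => σ.symm (c i)) (A.act_inj σ (by
    rw [Finset.smul_sum, smul_zero, ← hc]
    exact Finset.sum_congr rfl fun i _ => by rw [A.act_smul, σ.apply_symm_apply]))
  simpa using this i

theorem isFrame_act {D : Divisor Qb F} (hD : 0 ≤ D) (hn : Divisor.degree D = a0 F)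
    {w : Fin X.kk → F} (h : X.IsFrame D w) :
    X.IsFrame (A.act σ • D) fun i => A.act σ • w i := by
  refine ⟨A.linearIndependent_act σ h.1, ?_⟩
  have := X.finiteDimensional_of_le (X.W_le (m := lev F) (A.smul_nonneg σ hD))
  refine Submodule.eq_of_le_of_finrank_eq (Submodule.span_le.mpr ?_)
    (by rw [Coords.finrank_span_eq (A.linearIndependent_act σ h.1),
      X.finrank_W ((SemilinearAut.degree_smul _ _).trans hn) hlev]; rfl)
  rintro _ ⟨i, rfl⟩
  exact A.act_mem_W σ (h.mem i)

/-- The invariant of a pair is Galois equivariant up to a constant factor. -/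
theorem phi_act {D D' : Divisor Qb F} {u : F} (h : X.IsPair (a0 F) (a0 F) D D' u) :
    ∃ c : Qb, c ≠ 0 ∧ (fun l => σ (X.phi D D' u l)) =
      c • X.phi (A.act σ • D) (A.act σ • D') (A.act σ • u) := by
  obtain ⟨c, hc, e⟩ := X.phi_frame (A.act_pair σ h)
    (A.isFrame_act σ h.nonneg h.deg (X.isFrame_basisW h.nonneg h.deg))
    (A.isFrame_act σ h.nonneg' h.deg' (X.isFrame_basisW h.nonneg' h.deg'))
  refine ⟨c, hc, ?_⟩
  rw [← e]
  funext l
  have hm := X.tbl_mem h (X.isFrame_basisW h.nonneg h.deg) (X.isFrame_basisW h.nonneg' h.deg')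
  simp only [phi, dbl, map_sum, map_mul, map_prod, map_intCast]
  refine Finset.sum_congr rfl fun p _ => Finset.sum_congr rfl fun q _ => ?_
  refine congrArg₂ (· * ·) rfl (Finset.prod_congr rfl fun r _ => ?_)
  rw [← congrFun (A.co_act σ (lev F) _ (hm (p r) (q r))) (l r)]
  simp only [tbl, SemilinearAut.smul_def, map_div₀, map_mul]

end GalAct

/-- The invariant of a class. -/
def classPhi (y : Pic0 Qb F) : (Fin X.kk → Fin (X.d (lev F))) → Qb :=
  X.phi (X.exists_pair_a0 y).choose.1 (X.exists_pair_a0 y).choose.2.1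
    (X.exists_pair_a0 y).choose.2.2

/-- The invariant of a class is nonzero. -/
theorem classPhi_ne_zero (y : Pic0 Qb F) : X.classPhi y ≠ 0 :=
  X.phi_ne_zero (X.exists_pair_a0 y).choose_spec.1

/-- The height of the invariant is at most the height of the class plus a constant. -/
theorem exists_habs_classPhi_le : ∃ C, ∀ y : Pic0 Qb F, habs (X.classPhi y) ≤ X.hgt y + C := by
  obtain ⟨C, hC⟩ := X.habs_phi_le
  exact ⟨C, fun y => hC _ _ _ (X.exists_pair_a0 y).choose_spec.1⟩

/-- The height is bounded below. -/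
theorem exists_hgt_ge : ∃ C, ∀ y : Pic0 Qb F, -C ≤ X.hgt y := by
  obtain ⟨C, hC⟩ := X.exists_habs_classPhi_le
  exact ⟨C, fun y => by linarith [hC y, habs_nonneg (X.classPhi y)]⟩

theorem mem_bot_of_fixed {q : Qb} (h : ∀ σ : Qb ≃ₐ[ℚ] Qb, σ q = q) :
    q ∈ (⊥ : IntermediateField ℚ Qb) := by
  rw [IntermediateField.mem_bot]
  have : IsAlgClosure ℚ Qb := ⟨inferInstance, inferInstance⟩
  have : Normal ℚ Qb := IsAlgClosure.normal ℚ Qb
  have : IsGalois ℚ Qb := {}
  exact (InfiniteGalois.mem_range_algebraMap_iff_fixed q).mpr h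

/-- Northcott: vectors over a number field, normalised at one coordinate, of bounded height are
finite. -/
theorem finite_vectors_over (L : IntermediateField ℚ Qb) [FiniteDimensional ℚ L] {σ' : Type*}
    [Fintype σ'] (l₀ : σ') (B : ℝ) :
    {q : σ' → Qb | q l₀ = 1 ∧ (∀ l, q l ∈ L) ∧ habs q ≤ B}.Finite := by
  classical
  have := numberField_of_finite L
  have hfin : {a : L | Height.logHeight₁ a ≤ B * Module.finrank ℚ L}.Finite :=
    NumberField.finite_setOfPred_logHeight₁_le L _
  refine ((Set.Finite.pi' fun _ : σ' => hfin).image fun (g : σ' → L) l => (g l : Qb)).subset ?_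
  rintro q ⟨h1, hq, hB⟩
  refine ⟨fun l => ⟨q l, hq l⟩, fun l => ?_, rfl⟩
  have hmem : ∀ i, (![q l, 1] : Fin 2 → Qb) i ∈ L := by
    intro i; fin_cases i
    · exact hq l
    · exact one_mem L
  have e := habs_comp_le (![l, l₀] : Fin 2 → σ') q
  rw [show q ∘ (![l, l₀] : Fin 2 → σ') = ![q l, 1] by
    funext i; fin_cases i <;> simp [h1], habs_eq _ L hmem, fieldHeight,
    show (fun i => (⟨![q l, 1] i, hmem i⟩ : L)) = ![⟨q l, hq l⟩, 1] by
      funext i; fin_cases i <;> rfl, ← Height.logHeight₁_eq_logHeight] at e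
  have hpos : (0 : ℝ) < Module.finrank ℚ L := by exact_mod_cast Module.finrank_pos
  rw [div_le_iff₀ hpos] at e
  exact le_trans e (by nlinarith)

/-- Northcott: finitely many fixed classes of bounded height. -/
theorem finite_fixed_hgt_le (A : X.GalAct) (B : ℝ) :
    {y : Pic0 Qb F | (∀ σ, A.act σ • y = y) ∧ X.hgt y ≤ B}.Finite := by
  classical
  obtain ⟨C, hC⟩ := X.exists_habs_classPhi_le
  let Q : Set ((Fin X.kk → Fin (X.d (lev F))) → Qb) :=
    ⋃ l₀, {q | q l₀ = 1 ∧ (∀ l, q l ∈ (⊥ : IntermediateField ℚ Qb)) ∧ habs q ≤ B + C}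
  have hQ : Q.Finite := Set.finite_iUnion fun l₀ =>
    finite_vectors_over (⊥ : IntermediateField ℚ Qb) l₀ _
  refine (hQ.biUnion fun v _ => X.finite_phi_fibre v).subset ?_
  rintro y ⟨hfix, hB⟩
  obtain ⟨hp, hy⟩ := (X.exists_pair_a0 y).choose_spec
  obtain ⟨l₀, hl₀⟩ := Function.ne_iff.mp (X.classPhi_ne_zero y)
  set v := X.classPhi y
  set q := (v l₀)⁻¹ • v
  refine Set.mem_biUnion (x := q) (Set.mem_iUnion.mpr ⟨l₀, ?_, fun l => ?_, ?_⟩)
    ⟨_, _, _, hp, hy, v l₀, hl₀, ?_⟩
  · simp only [q, Pi.smul_apply, smul_eq_mul]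
    exact inv_mul_cancel₀ hl₀
  · refine mem_bot_of_fixed fun σ => ?_
    obtain ⟨c, hc, e⟩ := A.phi_act σ hp
    obtain ⟨c', hc', e'⟩ := X.phi_congr hp (A.act_pair σ hp) (by
      rw [← A.smul_cls σ hp.deg, hy, hfix σ])
    rw [e', smul_smul] at e
    have key : ∀ j, σ (v j) = c * c' * v j := fun j => congrFun e j
    simp only [q, Pi.smul_apply, smul_eq_mul, map_mul, map_inv₀, key]
    have h0 : v l₀ ≠ 0 := hl₀
    field_simp
  · rw [show habs q = habs v from habs_smul v (inv_ne_zero hl₀)]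
    linarith [hC y]
  · change v = _
    rw [smul_inv_smul₀ hl₀]

end Coords

end Fermat.Agent.MordellWeil
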