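import Fermat.Agent.MordellWeil.Invariant
import Fermat.Agent.MordellWeil.Rational
import Fermat.Agent.MordellWeil.Extend

/-!
# The torsion is finite

Torsion classes of given order have bounded height, and the normalised invariant is a polynomial
function on an algebraic family containing all of them.

The main theorem is `Coords.finite_nsmul_torsion`.
-/

set_option autoImplicit false

noncomputable section

open AlgebraicCurve Fermat.Agent.FF

namespace Fermat.Agent.MordellWeil

/-! ### Heights of torsion classes -/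

theorem log_le_habs_natCast (n : ℕ) (hn : n ≠ 0) :
    Real.log n ≤ habs (![(n : Qb), 1] : Fin 2 → Qb) := by
  classical
  have : NeZero n := ⟨hn⟩
  set L : IntermediateField ℚ Qb := ⊥
  have := numberField_of_finite L
  have hmem : ∀ i, (![(n : Qb), 1] : Fin 2 → Qb) i ∈ L := by
    intro i; fin_cases i
    · exact natCast_mem L n
    · exact one_mem L
  rw [habs_eq _ L hmem, fieldHeight,
    show (fun i => (⟨(![(n : Qb), 1] : Fin 2 → Qb) i, hmem i⟩ : L)) =
        fun i => algebraMap ℚ L ((![(n : ℚ), 1] : Fin 2 → ℚ) i) by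
      funext i; fin_cases i <;> exact Subtype.ext (by simp),
    logHeight_extend, ← Height.logHeight₁_eq_logHeight, Rat.logHeight₁_natCast,
    mul_div_cancel_left₀ _ (Nat.cast_ne_zero.mpr Module.finrank_pos.ne')]

variable {F : Type*} [Field F] [Algebra Qb F] [IsFunctionField Qb F]

/-- Divisors `A ≤ B` of the same degree are equal. -/
theorem eq_of_le_of_degree {A B : Divisor Qb F} (h : A ≤ B)
    (hd : Divisor.degree A = Divisor.degree B) : A = B := by
  classical
  refine Finsupp.ext fun v => le_antisymm (Finsupp.le_def.mp h v) ?_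
  by_contra hv
  have hle : A + Finsupp.single v 1 ≤ B := Finsupp.le_def.mpr fun w => by
    rw [Finsupp.add_apply, Finsupp.single_apply]
    have := Finsupp.le_def.mp h w
    split_ifs with hw
    · subst hw; omega
    · omega
  have := FF.degree_mono hle
  rw [map_add, FF.degree_single_one] at this
  omega

namespace Coords

variable (X : Coords F)

theorem le_of_W_le {m n : ℕ} {D E : Divisor Qb F} (hn : Divisor.degree D = n)
    (hm : n + bnd Qb F + 1 ≤ m) (h : X.W m D ≤ X.W m E) : E ≤ D := Finsupp.le_def.mpr fun v => by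
  obtain ⟨f, hf, h0, hord⟩ := (X.isBase_W hn hm).2 v
  have := neg_le_ord (h hf) h0 v
  simp only [Finsupp.sub_apply] at this
  omega

theorem eq_of_W_eq {m n k : ℕ} {D E : Divisor Qb F} (hn : Divisor.degree D = n)
    (hk : Divisor.degree E = k) (hm : n + bnd Qb F + 1 ≤ m) (hm' : k + bnd Qb F + 1 ≤ m)
    (h : X.W m D = X.W m E) : D = E :=
  le_antisymm (X.le_of_W_le hk hm' h.ge) (X.le_of_W_le hn hm h.le)

/-- The data of a standard pair. -/
def selfLevel (F : Type*) [Field F] [Algebra Qb F] [IsFunctionField Qb F] : PLevel :=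
  ⟨lev F, a0 F, lev F, a0 F⟩

theorem selfLevel_good : (selfLevel F).Good F := by
  constructor <;> simp only [selfLevel, lev, a0] <;> omega

theorem cls_nsmul {n : ℕ} {D : Divisor Qb F} (hn : Divisor.degree D = n) :
    ∀ m : ℕ, X.cls (m * n) (m • D) = m • X.cls n D
  | 0 => by
    rw [zero_nsmul, zero_nsmul, X.cls_eq_zero_iff (by rw [map_zero, Nat.zero_mul]; rfl)]
    exact ⟨1, one_ne_zero, by simp [zdiv]⟩
  | m + 1 => by
    rw [succ_nsmul, succ_nsmul, ← cls_nsmul hn m, show (m + 1) * n = m * n + n by ring,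
      X.cls_add (by rw [map_nsmul, hn]; push_cast; simp) hn]

theorem hgt_nsmul (k : ℕ) : ∃ C, ∀ T : Pic0 Qb F, |X.hgt (k • T) - (k : ℝ) ^ 2 * X.hgt T| ≤ C := by
  obtain ⟨P, hP⟩ := X.hgt_parallelogram
  induction k using Nat.strong_induction_on with
  | _ k ih =>
    match k with
    | 0 => exact ⟨|X.hgt 0|, fun T => by simp⟩
    | 1 => exact ⟨0, fun T => by simp⟩
    | k + 2 =>
      obtain ⟨C₁, h₁⟩ := ih k (by omega)
      obtain ⟨C₂, h₂⟩ := ih (k + 1) (by omega)
      refine ⟨P + C₁ + 2 * C₂, fun T => ?_⟩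
      have e := abs_le.mp (hP ((k + 1) • T) T)
      have a₁ := abs_le.mp (h₁ T)
      have a₂ := abs_le.mp (h₂ T)
      rw [← succ_nsmul, show (k + 1) • T - T = k • T by rw [succ_nsmul, add_sub_cancel_right]] at e
      push_cast at a₂ ⊢
      rw [abs_le]
      constructor <;> nlinarith [e.1, e.2, a₁.1, a₁.2, a₂.1, a₂.2]

theorem exists_bound_torsion (m : ℕ) (hm : 0 < m) : ∃ B, ∀ (D D' : Divisor Qb F) (u : F),
    X.IsPair (a0 F) (a0 F) D D' u → m • X.cls (a0 F) D = 0 → habs (X.phi D D' u) ≤ B := by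
  obtain ⟨C, hC⟩ := X.exists_habs_classPhi_le
  obtain ⟨P, hP⟩ := X.hgt_nsmul m
  refine ⟨|X.hgt 0| + |P| + C, fun D D' u h hT => ?_⟩
  set T := X.cls (a0 F) D
  obtain ⟨c, hc, e⟩ := X.phi_congr (X.exists_pair_a0 T).choose_spec.1 h
    (X.exists_pair_a0 T).choose_spec.2
  have h1 := hC T
  rw [show habs (X.phi D D' u) = habs (X.classPhi T) by rw [e, habs_smul _ hc]; rfl]
  have h2 := abs_le.mp (hP T)
  rw [hT] at h2
  have hm1 : (1 : ℝ) ≤ (m : ℝ) ^ 2 := by exact_mod_cast Nat.one_le_pow 2 m hm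
  have := le_abs_self (X.hgt 0); have := le_abs_self P
  have := abs_nonneg (X.hgt 0); have := abs_nonneg P
  rcases le_or_gt (X.hgt T) 0 with hneg | hpos
  · linarith
  · have := mul_le_mul_of_nonneg_right hm1 hpos.le
    linarith [h2.1, one_mul (X.hgt T)]

/-! ### The algebraic family -/

/-- The family of pairs with an invariant and a witness that `m` times the class vanishes. -/
abbrev TVar (m : ℕ) : Type :=
  (Σ b, (selfLevel F).σ X b) ⊕ ((Fin X.kk → Fin (X.d (lev F))) ⊕ Unit) ⊕
    (Fin (X.d (m * a0 F)) ⊕ Fin (X.d (m * a0 F)))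

variable (m : ℕ)

instance finite_TVar : Finite (X.TVar m) :=
  haveI : ∀ b, Finite ((selfLevel F).σ X b) := fun b => (selfLevel F).finite_σ X b
  inferInstance

/-- A frame vector of the first block. -/
def frm (c : ∀ b, (selfLevel F).σ X b) (z : X.TVar m → Qb) (i : Fin X.kk) : F :=
  X.el (lev F) (uvec (fun J => z (.inl ⟨.W, J⟩)) (c .W, i))

/-- A product of frame vectors. -/
def frmProd (c : ∀ b, (selfLevel F).σ X b) {k : ℕ} (t : Fin k → Fin X.kk) (z : X.TVar m → Qb) : F :=
  ∏ r, X.frm m c z (t r)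

theorem isPolyElt_frmProd (c : ∀ b, (selfLevel F).σ X b) :
    ∀ {k : ℕ} (t : Fin k → Fin X.kk), X.IsPolyElt (k * lev F) (X.frmProd m c t) := by
  intro k
  induction k with
  | zero =>
    intro t
    unfold frmProd
    simp only [Finset.univ_eq_empty, Finset.prod_empty]
    exact X.isPolyElt_const (mem_L_of_le fun w => by simp)
  | succ k ih =>
    intro t
    unfold frmProd
    simp only [Fin.prod_univ_succ]
    rw [show (k + 1) * lev F = lev F + k * lev F by ring]
    exact (X.isPolyElt_el fun x => IsPoly.coord _).mul X (ih fun r => t r.succ)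

theorem frmProd_mem {c : ∀ b, (selfLevel F).σ X b} {z : X.TVar m → Qb} {D : Divisor Qb F}
    (h : ∀ i, X.frm m c z i ∈ X.W (lev F) D) :
    ∀ {k : ℕ} (t : Fin k → Fin X.kk), X.frmProd m c t z ∈ X.W (k * lev F) (k • D) := by
  intro k
  induction k with
  | zero => intro t; exact mem_L_of_le fun v => by simp [frmProd]
  | succ k ih =>
    intro t
    rw [frmProd, Fin.prod_univ_succ, show (k + 1) * lev F = lev F + k * lev F by ring, succ_nsmul']
    exact X.mul_mem_W (h _) (ih fun r => t r.succ)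

theorem m_mul_level (m : ℕ) : m * a0 F + (m * lev F - m * a0 F) = m * lev F := by
  have : m * a0 F ≤ m * lev F := Nat.mul_le_mul_left m (by simp only [lev]; omega)
  omega

/-- The algebraic family. -/
def TSet (c : ∀ b, (selfLevel F).σ X b) (l₀ : Fin X.kk → Fin (X.d (lev F))) :
    Set (X.TVar m → Qb) :=
  {z | (selfLevel F).Cond X c (fun a => z (.inl a)) ∧
    (∀ L, tens X.kk (X.mulMat (lev F) (lev F) (fun i => z (.inl ⟨.U, i⟩)))
        (fun J => z (.inr (.inl (.inl J)))) L =
      X.psi (lev F) (lev F) X.kk (fun J => z (.inl ⟨.W, J⟩)) (fun J => z (.inl ⟨.W', J⟩)) L) ∧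
    z (.inr (.inl (.inl l₀))) * z (.inr (.inl (.inr ()))) = 1 ∧
    ∀ t : Fin m → Fin X.kk, (∑ i, z (.inr (.inr (.inl i))) * z (.inr (.inr (.inr i))) = 1) ∧
      X.frmProd m c t z ∈ (X.V (m * lev F - m * a0 F)).map
        (LinearMap.mulLeft Qb (X.el (m * a0 F) fun i => z (.inr (.inr (.inl i)))))}

theorem isAlgSet_TSet (c : ∀ b, (selfLevel F).σ X b) (l₀ : Fin X.kk → Fin (X.d (lev F))) :
    IsAlgSet (X.TSet m c l₀) :=
  IsAlgSet.and (((selfLevel F).isAlgSet_cond X selfLevel_good c).preimage fun _ => IsPoly.coord _)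
    (IsAlgSet.and
      (IsAlgSet.forall_ fun L => IsAlgSet.of_eq
        (by
          simp only [tens, mulMat]
          exact IsPoly.sum _ fun J _ => (IsPoly.prod _ fun r _ =>
            IsPoly.sum _ fun i _ => (IsPoly.coord _).mul (IsPoly.const _)).mul (IsPoly.coord _))
        (by
          simp only [psi]
          exact IsPoly.sum _ fun I _ => IsPoly.sum _ fun J _ =>
            (IsPoly.const _).mul ((IsPoly.coord _).mul (IsPoly.coord _))))
      (IsAlgSet.and (IsAlgSet.of_eq ((IsPoly.coord _).mul (IsPoly.coord _)) (IsPoly.const 1))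
        (IsAlgSet.forall_ fun t => X.isAlgSet_mem_map (N := m * a0 F)
          (m_mul_level m)
          (IsAlgSet.of_eq (IsPoly.sum _ fun i _ => (IsPoly.coord _).mul (IsPoly.coord _))
            (IsPoly.const 1))
          (X.isPolyElt_frmProd m c t) (X.isPolyElt_el fun i => IsPoly.coord _)
          fun z hz => X.el_ne_zero fun h0 => by
            have : ∀ i, z (.inr (.inr (.inl i))) = 0 := fun i => congrFun h0 i
            simp [this] at hz)))

theorem exists_habs_le_TSet (hm : 0 < m) : ∃ B, ∀ c l₀, ∀ z ∈ X.TSet m c l₀,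
    habs (fun J => z (.inr (.inl (.inl J))) * z (.inr (.inl (.inr ())))) ≤ B := by
  obtain ⟨B, hB⟩ := X.exists_bound_torsion m hm
  refine ⟨B, fun c l₀ z hz => ?_⟩
  obtain ⟨hcond, htens, hnorm, hprod⟩ := hz
  obtain ⟨x, hW, hW', hu⟩ := PLevel.exists_pt selfLevel_good hcond
  obtain ⟨⟨hF, hF', -⟩, -⟩ := hcond
  have h : X.IsPair (a0 F) (a0 F) x.D x.D' x.u :=
    ⟨x.D_nonneg, x.D'_nonneg, x.D_degree, x.D'_degree, x.u_ne, x.u_div⟩
  let w : Fin X.kk → F := X.frm m c z
  let w' : Fin X.kk → F := fun j => X.el (lev F) (uvec (fun J => z (.inl ⟨.W', J⟩)) (c .W', j))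
  have hw : X.IsFrame x.D w := ⟨X.frame_linearIndependent hF, hW⟩
  have hw' : X.IsFrame x.D' w' := ⟨X.frame_linearIndependent hF', hW'⟩
  have hcu : X.co (lev F) x.u = fun i => z (.inl ⟨.U, i⟩) := by
    rw [hu]; exact X.co_el _ _
  have hφ : (fun J => z (.inr (.inl (.inl J)))) = X.dbl X.kk (lev F) (X.tbl w w' x.u) := by
    refine tens_injective (X.mulMat_injective
      (X.co_ne_zero (show x.u ∈ X.V (lev F) from h.mem) h.ne)) ?_
    rw [X.tens_phi h hw hw']
    funext L
    rw [hcu]
    refine (htens L).trans ?_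
    rw [show X.pl (lev F) w = fun J => z (.inl ⟨.W, J⟩) from X.pl_frame hF,
      show X.pl (lev F) w' = fun J => z (.inl ⟨.W', J⟩) from X.pl_frame hF']
    rfl
  -- `m` times the class vanishes
  have hmT : m • X.cls (a0 F) x.D = 0 := by
    obtain ⟨k0, hk0⟩ := X.exists_kk
    have hsum := (hprod fun _ => ⟨0, by omega⟩).1
    set v := X.el (m * a0 F) fun i => z (.inr (.inr (.inl i)))
    have hv : v ≠ 0 := X.el_ne_zero fun h0 => by
      have : ∀ i, z (.inr (.inr (.inl i))) = 0 := fun i => congrFun h0 i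
      simp [this] at hsum
    have hdeg : Divisor.degree (m • x.D) = ((m * a0 F : ℕ) : ℤ) := by
      rw [map_nsmul, h.deg]; push_cast; simp
    have hle : X.zdiv (m * a0 F) v ≤ m • x.D := Finsupp.le_def.mpr fun p => by
      obtain ⟨f, hf, hf0, hford⟩ := (X.isBase_W (m := lev F) h.deg
        (by simp only [lev, a0]; omega)).2 p
      obtain ⟨i, hi0, hi⟩ : ∃ i, w i ≠ 0 ∧
          p.ord (w i) = x.D p - Finsupp.single X.pt (lev F : ℤ) p := by
        by_contra hno
        push Not at hno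
        have hall : ∀ i, w i ∈ ordGe p (x.D p - Finsupp.single X.pt (lev F : ℤ) p + 1) :=
          fun i => by
          rcases eq_or_ne (w i) 0 with h0 | h0
          · rw [h0]; exact zero_mem _
          have h1 := neg_le_ord (hw.mem i) h0 p
          have h2 := hno i h0
          simp only [Finsupp.sub_apply] at h1
          exact (mem_ordGe p).mpr (Or.inr (by omega))
        rw [← hw.2] at hf
        have := le_ord_of_mem_ordGe p hf0
          ((Submodule.span_le.mpr (Set.range_subset_iff.mpr hall)) hf)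
        omega
      obtain ⟨g, hg, hgp⟩ := (hprod fun _ => i).2
      rw [LinearMap.mulLeft_apply, frmProd, Finset.prod_const, Finset.card_univ,
        Fintype.card_fin] at hgp
      have hne : v * g ≠ 0 := by rw [hgp]; exact pow_ne_zero _ hi0
      have e := congrArg p.ord hgp
      rw [p.ord_mul hv (right_ne_zero_of_mul hne), FF.ord_pow, hi] at e
      have := neg_le_ord hg (right_ne_zero_of_mul hne) p
      simp only [zdiv, Finsupp.add_apply, div_apply, Finsupp.smul_apply, nsmul_eq_mul]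
      have hs : Finsupp.single X.pt ((m * lev F : ℕ) : ℤ) p =
          Finsupp.single X.pt ((m * a0 F : ℕ) : ℤ) p +
            Finsupp.single X.pt ((m * lev F - m * a0 F : ℕ) : ℤ) p := by
        rw [← Finsupp.add_apply, ← Finsupp.single_add, ← Nat.cast_add, m_mul_level]
      have hsc : Finsupp.single X.pt ((m * lev F : ℕ) : ℤ) p =
          (m : ℤ) * Finsupp.single X.pt (lev F : ℤ) p := by
        classical
        rw [Finsupp.single_apply, Finsupp.single_apply]; split_ifs <;> simp
      rw [mul_sub] at e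
      omega
    rw [← X.cls_nsmul h.deg, X.cls_eq_zero_iff hdeg]
    exact ⟨v, hv, eq_of_le_of_degree hle (by rw [X.degree_zdiv, hdeg])⟩
  obtain ⟨a, ha, e⟩ := X.phi_frame h hw hw'
  have ht : z (.inr (.inl (.inr ()))) ≠ 0 := fun h0 => by simp [h0] at hnorm
  rw [show (fun J => z (.inr (.inl (.inl J))) * z (.inr (.inl (.inr ())))) =
      z (.inr (.inl (.inr ()))) • fun J => z (.inr (.inl (.inl J))) by
    funext J; exact mul_comm _ _, habs_smul _ ht, hφ, e, habs_smul _ ha]
  exact hB _ _ _ h hmT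

theorem finite_values_TSet (hm : 0 < m) (c : ∀ b, (selfLevel F).σ X b)
    (l₀ l : Fin X.kk → Fin (X.d (lev F))) :
    ((fun z : X.TVar m → Qb => z (.inr (.inl (.inl l))) * z (.inr (.inl (.inr ())))) ''
      X.TSet m c l₀).Finite := by
  classical
  by_contra hinf
  set t : MvPolynomial (X.TVar m) Qb :=
    MvPolynomial.X (.inr (.inl (.inl l))) * MvPolynomial.X (.inr (.inl (.inr ())))
  have he : (fun z : X.TVar m → Qb => z (.inr (.inl (.inl l))) * z (.inr (.inl (.inr ())))) =
      fun z => MvPolynomial.eval z t := by funext z; simp [t]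
  rw [he] at hinf
  have hfin := finite_compl_values (X.isAlgSet_TSet m c l₀) t hinf
  obtain ⟨B, hB⟩ := X.exists_habs_le_TSet m hm
  obtain ⟨N, hN⟩ := exists_nat_gt (Real.exp B)
  have hinj : Function.Injective fun k : ℕ => ((N + 1 + k : ℕ) : Qb) := fun a b h => by
    have := Nat.cast_injective (R := Qb) h; omega
  obtain ⟨k, hk⟩ := (hfin.preimage hinj.injOn).exists_notMem
  simp only [Set.mem_preimage, Set.mem_compl_iff, not_not] at hk
  obtain ⟨z, hz, hzk⟩ := hk
  have hval : z (.inr (.inl (.inl l))) * z (.inr (.inl (.inr ()))) = ((N + 1 + k : ℕ) : Qb) := by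
    rw [← hzk]; simp [t]
  have h1 := hB c l₀ z hz
  have h2 := habs_comp_le (![l, l₀] : Fin 2 → _)
    (fun J => z (.inr (.inl (.inl J))) * z (.inr (.inl (.inr ()))))
  rw [show (fun J => z (.inr (.inl (.inl J))) * z (.inr (.inl (.inr ())))) ∘
    (![l, l₀] : Fin 2 → _) =
      ![((N + 1 + k : ℕ) : Qb), 1] by
    funext i; fin_cases i
    · exact hval
    · exact hz.2.2.1] at h2
  have h3 := log_le_habs_natCast (N + 1 + k) (by omega)
  have h4 : B < Real.log ((N + 1 + k : ℕ) : ℝ) := by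
    rw [Real.lt_log_iff_exp_lt (by exact_mod_cast (show 0 < N + 1 + k by omega))]
    push_cast
    linarith [(Nat.cast_nonneg k : (0 : ℝ) ≤ k)]
  linarith

/-! ### Finiteness -/

include X in
/-- The `m`-torsion is finite. -/
theorem finite_nsmul_torsion (m : ℕ) (hm : 0 < m) : {T : Pic0 Qb F | m • T = 0}.Finite := by
  classical
  let q : (Σ _c : ∀ b, (selfLevel F).σ X b, Fin X.kk → Fin (X.d (lev F))) →
      Set ((Fin X.kk → Fin (X.d (lev F))) → Qb) := fun p =>
    {g | ∀ l, g l ∈
      (fun z : X.TVar m → Qb => z (.inr (.inl (.inl l))) * z (.inr (.inl (.inr ())))) ''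
        X.TSet m p.1 p.2}
  have hq : ∀ p, (q p).Finite := fun p =>
    (Set.Finite.pi' fun l => X.finite_values_TSet m hm p.1 p.2 l).subset fun g hg => hg
  refine ((Set.finite_iUnion hq).biUnion fun v _ => X.finite_phi_fibre v).subset ?_
  intro T hT
  have hgb := genus_le_bnd (K := Qb) (F := F)
  obtain ⟨D, D', u, h, hcls⟩ := X.exists_pair T (n := a0 F) (n' := a0 F)
    (by simp only [a0]; omega) (by simp only [a0]; omega)
  let x : PLevel.Pt X (selfLevel F) :=
    ⟨D, D', u, h.nonneg, h.nonneg', h.deg, h.deg', h.mem, h.ne, h.div_eq⟩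
  have hex : ∀ b, ∃ a, (selfLevel F).vec X b x a ≠ 0 := fun b =>
    Function.ne_iff.mp (PLevel.vec_ne_zero selfLevel_good b x)
  choose c hc using hex
  obtain ⟨hcond, hW, hW'⟩ := PLevel.cond_ratio selfLevel_good c x hc
  set zz : (Σ b, (selfLevel F).σ X b) → Qb :=
    fun a => (selfLevel F).vec X a.1 x a.2 / (selfLevel F).vec X a.1 x (c a.1) with hzz
  let w : Fin X.kk → F := fun j => X.el (lev F) (uvec (fun J => zz ⟨.W, J⟩) (c .W, j))
  let w' : Fin X.kk → F := fun j => X.el (lev F) (uvec (fun J => zz ⟨.W', J⟩) (c .W', j))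
  have hw : X.IsFrame D w := ⟨X.frame_linearIndependent hcond.1.1, hW⟩
  have hw' : X.IsFrame D' w' := ⟨X.frame_linearIndependent hcond.1.2.1, hW'⟩
  set a := (selfLevel F).vec X .U x (c .U)
  have ha : a ≠ 0 := hc .U
  obtain ⟨d, hd, e⟩ := X.phi_frame h hw hw'
  obtain ⟨l₀, hl₀⟩ := Function.ne_iff.mp (X.phi_ne_zero h)
  set φ := a ^ X.kk • X.dbl X.kk (lev F) (X.tbl w w' u) with hφ
  have hφe : φ = (a ^ X.kk * d) • X.phi D D' u := by rw [hφ, e, smul_smul]
  have hφ0 : φ l₀ ≠ 0 := by
    rw [hφe]; exact mul_ne_zero (mul_ne_zero (pow_ne_zero _ ha) hd) hl₀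
  -- witness for `m • T = 0`
  have hdeg : Divisor.degree (m • D) = ((m * a0 F : ℕ) : ℤ) := by
    rw [map_nsmul, h.deg]; push_cast; simp
  obtain ⟨v, hv0, hv⟩ := (X.cls_eq_zero_iff hdeg).mp (by rw [X.cls_nsmul h.deg, hcls]; exact hT)
  have hvm : v ∈ X.V (m * a0 F) := X.mem_V_of_zdiv_nonneg (hv ▸ nsmul_nonneg h.nonneg m)
  obtain ⟨i₁, hi₁⟩ := Function.ne_iff.mp (X.co_ne_zero hvm hv0)
  let z : X.TVar m → Qb := Sum.elim zz (Sum.elim (Sum.elim φ fun _ => (φ l₀)⁻¹)
    (Sum.elim (X.co (m * a0 F) v) (Pi.single i₁ (X.co (m * a0 F) v i₁)⁻¹)))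
  have hmem : z ∈ X.TSet m c l₀ := by
    refine ⟨hcond, fun L => ?_, mul_inv_cancel₀ hφ0, fun t => ⟨?_, ?_⟩⟩
    · have hpl : X.pl (lev F) w = fun J => zz ⟨.W, J⟩ := X.pl_frame hcond.1.1
      have hpl' : X.pl (lev F) w' = fun J => zz ⟨.W', J⟩ := X.pl_frame hcond.1.2.1
      have hz : (fun i => zz ⟨.U, i⟩) = a⁻¹ • X.co (lev F) u :=
        funext fun i => div_eq_inv_mul _ _
      change tens X.kk (X.mulMat (lev F) (lev F) (fun i => zz ⟨.U, i⟩)) φ L =
        X.psi (lev F) (lev F) X.kk (fun J => zz ⟨.W, J⟩) (fun J => zz ⟨.W', J⟩) L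
      refine Eq.trans (congrArg (fun y => tens X.kk (X.mulMat (lev F) (lev F) y) φ L) hz) ?_
      have hs : X.mulMat (lev F) (lev F) (a⁻¹ • X.co (lev F) u) =
          fun l j => a⁻¹ * X.mulMat (lev F) (lev F) (X.co (lev F) u) l j := by
        funext l j
        simp only [mulMat, Pi.smul_apply, smul_eq_mul, Finset.mul_sum]
        exact Finset.sum_congr rfl fun i _ => by ring
      have hk : ∀ (M : Fin (X.d (lev F + lev F)) → Fin (X.d (lev F)) → Qb)
          (y : (Fin X.kk → Fin (X.d (lev F))) → Qb), tens X.kk (fun l j => a⁻¹ * M l j) y L =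
            a⁻¹ ^ X.kk * tens X.kk M y L := by
        intro M y
        simp only [tens, Finset.mul_sum, Finset.prod_mul_distrib, Finset.prod_const,
          Finset.card_univ, Fintype.card_fin, mul_assoc]
      rw [hs, hk, hφ, tens_smul, X.tens_phi h hw hw', hpl, hpl', Pi.smul_apply, smul_eq_mul,
        ← mul_assoc, ← mul_pow, inv_mul_cancel₀ ha, one_pow, one_mul]
      rfl
    · simp [z, Pi.single_apply, mul_inv_cancel₀ hi₁]
    · have hel : X.el (m * a0 F) (fun i => z (.inr (.inr (.inl i)))) = v := X.el_co hvm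
      rw [hel]
      exact X.W_le_map_mul hv0 (m_mul_level m) hv.le
        (X.frmProd_mem m (c := c) (z := z) (fun i => hw.mem i) t)
  refine Set.mem_biUnion (x := fun l => φ l * (φ l₀)⁻¹) (Set.mem_iUnion.mpr
    ⟨⟨c, l₀⟩, fun l => ⟨z, hmem, rfl⟩⟩) ⟨D, D', u, h, hcls, (a ^ X.kk * d)⁻¹ * φ l₀,
      mul_ne_zero (inv_ne_zero (mul_ne_zero (pow_ne_zero _ ha) hd)) hφ0, ?_⟩
  funext l
  simp only [hφe, Pi.smul_apply, smul_eq_mul]
  field_simp
  rw [mul_div_cancel_right₀]
  exact hl₀

end Coords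

end Fermat.Agent.MordellWeil
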