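import Fermat.Agent.MordellWeil.Base

/-!
# Subspaces given by normalised Plücker vectors
-/

set_option autoImplicit false

noncomputable section

open Fermat.Agent.FF

namespace Fermat.Agent.MordellWeil

/-- A normalised Plücker vector in the chart `c`. -/
def FrameCond {α : Type*} [DecidableEq α] {k : ℕ} (c : Fin k → α) (Ω : (Fin k → α) → Qb) : Prop :=
  (∀ j i, Ω (Function.update c j (c i)) = if i = j then 1 else 0) ∧
    ∀ J, plucker (fun j => uvec Ω (c, j)) J = Ω J

theorem isAlgSet_frameCond {V α : Type*} [DecidableEq α] {k : ℕ} (c : Fin k → α)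
    (g : (Fin k → α) → V) : IsAlgSet {z : V → Qb | FrameCond c (z ∘ g)} :=
  IsAlgSet.and
    (IsAlgSet.forall_ fun _ => IsAlgSet.forall_ fun _ =>
      IsAlgSet.of_eq (IsPoly.coord _) (IsPoly.const _))
    (IsAlgSet.forall_ fun J => IsAlgSet.of_eq
      (IsPoly.plucker (fun _ _ => IsPoly.coord _) J) (IsPoly.coord _))

/-- The vectors read off a normalised Plücker vector are linearly independent. -/
theorem FrameCond.linearIndependent {α : Type*} [DecidableEq α] {k : ℕ} {c : Fin k → α}
    {Ω : (Fin k → α) → Qb} (h : FrameCond c Ω) :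
    LinearIndependent Qb fun j => uvec Ω (c, j) := by
  refine Fintype.linearIndependent_iff.mpr fun a ha i => ?_
  have := congrFun ha (c i)
  simpa [uvec, h.1] using this

theorem plucker_update_self {K α : Type*} [CommRing K] {k : ℕ} (w : Fin k → α → K)
    (J : Fin k → α) (i j : Fin k) :
    plucker w (Function.update J j (J i)) = if i = j then plucker w J else 0 := by
  split_ifs with h
  · subst h; rw [Function.update_eq_self]
  · refine Matrix.det_zero_of_row_eq h ?_
    funext l
    simp [Function.update_of_ne h]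

theorem frameCond_normalise {α : Type*} [DecidableEq α] {k : ℕ}
    (w : Fin k → α → Qb) {c : Fin k → α} (hc : plucker w c ≠ 0) :
    FrameCond c fun J => plucker w J / plucker w c := by
  have h1 : ∀ j i : Fin k, plucker w (Function.update c j (c i)) / plucker w c =
      if i = j then 1 else 0 := fun j i => by
    rw [plucker_update_self]; split_ifs <;> simp [hc]
  refine ⟨h1, fun J => ?_⟩
  set f : Fin k → α → Qb := fun j => uvec (fun J => plucker w J / plucker w c) (c, j) with hf
  have hmem : ∀ j, f j ∈ Submodule.span Qb (Set.range w) := fun j => by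
    have e : f j = (plucker w c)⁻¹ • uvec (plucker w) (c, j) := by
      funext x; simp [hf, uvec, div_eq_inv_mul]
    exact e ▸ Submodule.smul_mem _ _ (uvec_mem_span w (c, j))
  choose g hg using fun j => (Submodule.mem_span_range_iff_exists_fun Qb).mp (hmem j)
  have e : f = fun j x => ∑ i, w i x * Matrix.of (fun i j => g j i) i j := by
    funext j x
    rw [← hg j]
    simp [Finset.sum_apply, mul_comm]
  have hJ : ∀ J, plucker f J = plucker w J * (Matrix.of fun i j => g j i).det := fun J => by
    rw [e, plucker_comb]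
  have hfc : plucker f c = 1 := by
    rw [plucker, show (Matrix.of fun r j => f j (c r) : Matrix (Fin k) (Fin k) Qb) = 1 by
      ext r j; simp [hf, uvec, h1, Matrix.one_apply], Matrix.det_one]
  rw [hJ J, show (Matrix.of fun i j => g j i).det = (plucker w c)⁻¹ from
    eq_inv_of_mul_eq_one_right ((hJ c).symm.trans hfc)]
  exact (div_eq_mul_inv _ _).symm

variable {F : Type*} [Field F] [Algebra Qb F] [IsFunctionField Qb F]

namespace Coords

variable (X : Coords F)

/-- The subspace with normalised Plücker vector `Ω`. -/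
def frameSpan (m : ℕ) {k : ℕ} (c : Fin k → Fin (X.d m)) (Ω : (Fin k → Fin (X.d m)) → Qb) :
    Submodule Qb F :=
  Submodule.span Qb (Set.range fun j => X.el m (uvec Ω (c, j)))

omit [IsFunctionField Qb F] in
theorem frameSpan_le (m : ℕ) {k : ℕ} (c : Fin k → Fin (X.d m))
    (Ω : (Fin k → Fin (X.d m)) → Qb) : X.frameSpan m c Ω ≤ X.V m :=
  Submodule.span_le.mpr fun _ ⟨_, hj⟩ => hj ▸ X.el_mem _ _

omit [IsFunctionField Qb F] in
theorem frame_linearIndependent {m k : ℕ} {c : Fin k → Fin (X.d m)}
    {Ω : (Fin k → Fin (X.d m)) → Qb} (h : FrameCond c Ω) :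
    LinearIndependent Qb fun j => X.el m (uvec Ω (c, j)) := by
  refine Fintype.linearIndependent_iff.mpr fun a ha => ?_
  refine Fintype.linearIndependent_iff.mp h.linearIndependent a ?_
  have := congrArg (X.co m) ha
  rw [X.co_zero, X.co_sum _ fun j _ => Submodule.smul_mem _ _ (X.el_mem _ _)] at this
  rw [← this]
  exact Finset.sum_congr rfl fun j _ => by rw [X.co_smul _ (X.el_mem _ _), co_el]

omit [IsFunctionField Qb F] in
/-- The space read off a normalised Plücker vector has dimension `k`. -/
theorem finrank_frameSpan {m k : ℕ} {c : Fin k → Fin (X.d m)}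
    {Ω : (Fin k → Fin (X.d m)) → Qb} (h : FrameCond c Ω) :
    Module.finrank Qb (X.frameSpan m c Ω) = k :=
  finrank_span_eq (X.frame_linearIndependent h)

omit [IsFunctionField Qb F] in
theorem pl_frame {m k : ℕ} {c : Fin k → Fin (X.d m)}
    {Ω : (Fin k → Fin (X.d m)) → Qb} (h : FrameCond c Ω) :
    X.pl m (fun j => X.el m (uvec Ω (c, j))) = Ω := by
  funext J; simpa [pl] using h.2 J

theorem frameSpan_normalise {m k : ℕ} {S : Submodule Qb F} {w : Fin k → F} (hS : S ≤ X.V m)
    (hspan : Submodule.span Qb (Set.range w) = S)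
    {c : Fin k → Fin (X.d m)} (hc : X.pl m w c ≠ 0) :
    X.frameSpan m c (fun J => X.pl m w J / X.pl m w c) = S := by
  subst hspan
  set Ω : (Fin k → Fin (X.d m)) → Qb := fun J => X.pl m w J / X.pl m w c with hΩ
  have h : FrameCond c Ω := frameCond_normalise (fun j => X.co m (w j)) hc
  have hw : ∀ j, w j ∈ X.V m := fun j => hS (Submodule.subset_span ⟨j, rfl⟩)
  have hle : X.frameSpan m c Ω ≤ Submodule.span Qb (Set.range w) := by
    refine Submodule.span_le.mpr ?_
    rintro _ ⟨j, rfl⟩
    obtain ⟨a, ha⟩ := (Submodule.mem_span_range_iff_exists_fun Qb).mp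
      (uvec_mem_span (fun i => X.co m (w i)) (c, j))
    have e : X.el m (uvec Ω (c, j)) = ∑ i, ((X.pl m w c)⁻¹ * a i) • w i := by
      refine X.co_injOn (X.el_mem _ _) (sum_mem fun i _ => Submodule.smul_mem _ _ (hw i)) ?_
      rw [co_el, X.co_sum _ fun i _ => Submodule.smul_mem _ _ (hw i)]
      funext x
      have := congrFun ha x
      simp only [Finset.sum_apply, Pi.smul_apply, smul_eq_mul] at this
      simp only [uvec, hΩ, Finset.sum_apply, X.co_smul _ (hw _), Pi.smul_apply, smul_eq_mul]
      rw [div_eq_inv_mul, show X.pl m w (Function.update c j x) = ∑ i, a i * X.co m (w i) x from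
        this.symm, Finset.mul_sum]
      exact Finset.sum_congr rfl fun i _ => by ring
    change X.el m (uvec Ω (c, j)) ∈ Submodule.span Qb (Set.range w)
    rw [e]
    exact sum_mem fun i _ => Submodule.smul_mem _ _ (Submodule.subset_span ⟨i, rfl⟩)
  have : FiniteDimensional Qb (Submodule.span Qb (Set.range w)) := X.finiteDimensional_of_le hS
  refine Submodule.eq_of_le_of_finrank_le hle ?_
  rw [X.finrank_frameSpan h]
  exact (finrank_range_le_card w).trans (le_of_eq (Fintype.card_fin k))

end Coords

end Fermat.Agent.MordellWeil
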