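import Fermat.Agent.MordellWeil.Increments

/-!
# The height on divisor classes of degree zero and the parallelogram law

The height is `Coords.hgt`, and the law `Coords.hgt_parallelogram`.
-/

set_option autoImplicit false

noncomputable section

open AlgebraicCurve Fermat.Agent.FF

namespace Fermat.Agent.MordellWeil

variable {F : Type*} [Field F] [Algebra Qb F] [IsFunctionField Qb F]

namespace Coords

variable (X : Coords F)

/-! ### Classes and pairs -/

open Classical in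
/-- The class of `D - n • pt`. -/
def cls (n : ℕ) (D : Divisor Qb F) : Pic0 Qb F :=
  if h : Divisor.degree D = n then
    Pic0.mk ⟨D - Finsupp.single X.pt (n : ℤ),
      Divisor.mem_degZero.mpr (by rw [map_sub, h, FF.degree_single_one, sub_self])⟩
  else 0

theorem cls_eq {n : ℕ} {D : Divisor Qb F} (h : Divisor.degree D = n) :
    X.cls n D = Pic0.mk ⟨D - Finsupp.single X.pt (n : ℤ),
      Divisor.mem_degZero.mpr (by rw [map_sub, h, FF.degree_single_one, sub_self])⟩ := dif_pos h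

/-- `cls` is additive in the divisor and its degree. -/
theorem cls_add {n k : ℕ} {D E : Divisor Qb F} (hn : Divisor.degree D = n)
    (hk : Divisor.degree E = k) : X.cls (n + k) (D + E) = X.cls n D + X.cls k E := by
  rw [X.cls_eq (by rw [map_add, hn, hk]; push_cast; rfl), X.cls_eq hn, X.cls_eq hk, ← Pic0.mk_add]
  refine congrArg Pic0.mk (Subtype.ext ?_)
  simp only [AddSubgroup.coe_add, Nat.cast_add, Finsupp.single_add]
  abel

/-- For `D` of degree `n`, `cls n D = 0` exactly when `D = zdiv n w` for some `w ≠ 0`. -/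
theorem cls_eq_zero_iff {n : ℕ} {D : Divisor Qb F} (hn : Divisor.degree D = n) :
    X.cls n D = 0 ↔ ∃ w : F, w ≠ 0 ∧ X.zdiv n w = D := by
  rw [X.cls_eq hn, Pic0.mk, QuotientAddGroup.eq_zero_iff, AddSubgroup.mem_addSubgroupOf,
    Divisor.mem_principal]
  constructor
  · rintro ⟨f, hf, h⟩
    refine ⟨f, hf, Finsupp.ext fun v => ?_⟩
    have := h v
    simp only [Finsupp.sub_apply] at this
    simp only [zdiv, Finsupp.add_apply, div_apply]
    omega
  · rintro ⟨w, hw, rfl⟩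
    exact ⟨w, hw, fun v => by simp [zdiv]⟩

theorem mem_V_of_zdiv_nonneg {n : ℕ} {w : F} (h : 0 ≤ X.zdiv n w) : w ∈ X.V n :=
  mem_L_of_le fun v => by
    have := Finsupp.le_def.mp h v
    simp only [zdiv, Finsupp.add_apply, div_apply, Finsupp.zero_apply] at this
    omega

/-- Every degree zero class has an effective representative in each degree at least the genus. -/
theorem exists_cls (y : Pic0 Qb F) {n : ℕ} (hn : genusFF Qb F ≤ n) :
    ∃ D : Divisor Qb F, 0 ≤ D ∧ Divisor.degree D = n ∧ X.cls n D = y := by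
  obtain ⟨⟨E, hE⟩, rfl⟩ := Pic0.mk_surjective y
  have hE0 : Divisor.degree E = 0 := Divisor.mem_degZero.mp hE
  obtain ⟨f, hf, hpos⟩ := exists_effective (D := E + Finsupp.single X.pt (n : ℤ))
    (by rw [map_add, hE0, FF.degree_single_one]; omega)
  set D := E + Finsupp.single X.pt (n : ℤ) + div Qb f
  have hn' : Divisor.degree D = n := by
    simp only [D, map_add, hE0, FF.degree_single_one, degree_div]; ring
  refine ⟨D, hpos, hn', ?_⟩
  rw [X.cls_eq hn', Pic0.mk, Pic0.mk, QuotientAddGroup.eq, AddSubgroup.mem_addSubgroupOf,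
    Divisor.mem_principal]
  refine ⟨f⁻¹, inv_ne_zero hf, fun v => ?_⟩
  simp only [D, AddSubgroup.coe_add, AddSubgroup.coe_neg, Finsupp.add_apply, Finsupp.sub_apply,
    Finsupp.neg_apply, div_apply, Place.ord_inv]
  ring

/-- A divisor together with an effective representative of the opposite class. -/
structure IsPair (n n' : ℕ) (D D' : Divisor Qb F) (u : F) : Prop where
  nonneg : 0 ≤ D
  nonneg' : 0 ≤ D'
  deg : Divisor.degree D = n
  deg' : Divisor.degree D' = n'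
  ne : u ≠ 0
  div_eq : X.zdiv (n + n') u = D + D'

namespace IsPair

variable {X} {n n' k k' : ℕ} {D D' E E' : Divisor Qb F} {u v : F}

theorem mem (h : X.IsPair n n' D D' u) : u ∈ X.V (n + n') :=
  X.mem_V_of_zdiv_nonneg (h.div_eq ▸ add_nonneg h.nonneg h.nonneg')

theorem symm (h : X.IsPair n n' D D' u) : X.IsPair n' n D' D u :=
  ⟨h.nonneg', h.nonneg, h.deg', h.deg, h.ne, by rw [add_comm n', h.div_eq, add_comm]⟩

theorem cls' (h : X.IsPair n n' D D' u) : X.cls n' D' = -X.cls n D := by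
  rw [eq_neg_iff_add_eq_zero, ← X.cls_add h.deg' h.deg,
    X.cls_eq_zero_iff (by rw [map_add, h.deg', h.deg]; push_cast; rfl)]
  exact ⟨u, h.ne, by rw [add_comm n', h.div_eq, add_comm]⟩

theorem add (h : X.IsPair n n' D D' u) (h' : X.IsPair k k' E E' v) :
    X.IsPair (n + k) (n' + k') (D + E) (D' + E') (u * v) :=
  ⟨add_nonneg h.nonneg h'.nonneg, add_nonneg h.nonneg' h'.nonneg',
    by rw [map_add, h.deg, h'.deg]; push_cast; rfl,
    by rw [map_add, h.deg', h'.deg']; push_cast; rfl, mul_ne_zero h.ne h'.ne,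
    by rw [show n + k + (n' + k') = n + n' + (k + k') by omega, X.zdiv_mul h.ne h'.ne, h.div_eq,
      h'.div_eq]; abel⟩

end IsPair

theorem exists_pair (y : Pic0 Qb F) {n n' : ℕ} (hn : genusFF Qb F ≤ n) (hn' : genusFF Qb F ≤ n') :
    ∃ D D' u, X.IsPair n n' D D' u ∧ X.cls n D = y := by
  obtain ⟨D, hD, hdeg, rfl⟩ := X.exists_cls y hn
  obtain ⟨D', hD', hdeg', h⟩ := X.exists_cls (-X.cls n D) hn'
  have h0 : X.cls (n + n') (D + D') = 0 := by rw [X.cls_add hdeg hdeg', h, add_neg_cancel]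
  obtain ⟨u, hu, hdiv⟩ :=
    (X.cls_eq_zero_iff (by rw [map_add, hdeg, hdeg']; push_cast; rfl)).mp h0
  exact ⟨D, D', u, ⟨hD, hD', hdeg, hdeg', hu, hdiv⟩, rfl⟩

/-! ### The height of a pair -/

/-- The height of a pair, with slack `a`. -/
def pairH (a n n' : ℕ) (D D' : Divisor Qb F) (u : F) : ℝ :=
  X.hW (a + n) D + X.hW (a + n') D' - (X.kdim a 0 : ℝ) * X.hv (n + n') u

omit [IsFunctionField Qb F] in
theorem kdim_shift (a n : ℕ) : X.kdim (a + n) n = X.kdim a 0 := by simp [kdim]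

theorem kdim_cast {a : ℕ} (ha : bnd Qb F ≤ a) :
    (X.kdim a 0 : ℝ) = (a : ℝ) + 1 - genusFF Qb F := by
  have := genus_le_bnd (K := Qb) (F := F)
  rw [kdim, Nat.sub_zero, Nat.cast_sub (by omega)]
  push_cast
  ring

/-- The height of a pair depends, up to a bounded term, only on the class. -/
theorem pairH_congr (a : ℕ) (ha : bnd Qb F ≤ a) (n n' k k' : ℕ) :
    ∃ C, ∀ (D D' : Divisor Qb F) (u : F) (E E' : Divisor Qb F) (v : F),
      X.IsPair n n' D D' u → X.IsPair k k' E E' v → X.cls n D = X.cls k E →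
      |X.pairH a n n' D D' u - X.pairH a k k' E E' v| ≤ C := by
  obtain ⟨C₁, h₁⟩ := X.hW_scale (k + k') (a + n) n (by omega)
  obtain ⟨C₂, h₂⟩ := X.hW_scale (n + k') (a + k) k (by omega)
  obtain ⟨C₃, h₃⟩ := X.hW_scale (n + k') (a + n') n' (by omega)
  obtain ⟨C₄, h₄⟩ := X.hW_scale (n + n') (a + k') k' (by omega)
  refine ⟨C₁ + C₂ + C₃ + C₄, fun D D' u E E' v h h' he => ?_⟩
  obtain ⟨w, hw0, hw⟩ := (X.cls_eq_zero_iff (n := n + k') (D := D + E')
    (by rw [map_add, h.deg, h'.deg']; push_cast; rfl)).mp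
    (by rw [X.cls_add h.deg h'.deg', he, h'.cls', add_neg_cancel])
  have hwm : w ∈ X.V (n + k') := X.mem_V_of_zdiv_nonneg (hw ▸ add_nonneg h.nonneg h'.nonneg')
  have a1 := abs_le.mp (h₁ v D h'.mem h'.ne h.nonneg h.deg)
  have a2 := abs_le.mp (h₂ w E hwm hw0 h'.nonneg h'.deg)
  have a3 := abs_le.mp (h₃ w D' hwm hw0 h.nonneg' h.deg')
  have a4 := abs_le.mp (h₄ u E' h.mem h.ne h'.nonneg' h'.deg')
  rw [kdim_shift, h'.div_eq, show k + k' + (a + n) = a + (n + k + k') by omega] at a1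
  rw [kdim_shift, hw, show n + k' + (a + k) = a + (n + k + k') by omega,
    show E + (D + E') = D + (E + E') by abel] at a2
  rw [kdim_shift, hw, show n + k' + (a + n') = a + (n + n' + k') by omega,
    show D' + (D + E') = D + D' + E' by abel] at a3
  rw [kdim_shift, h.div_eq, show n + n' + (a + k') = a + (n + n' + k') by omega,
    show E' + (D + D') = D + D' + E' by abel] at a4
  rw [pairH, pairH, abs_le]
  constructor <;> linarith [a1.1, a1.2, a2.1, a2.2, a3.1, a3.2, a4.1, a4.2]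

theorem pairH_add (a n n' k k' : ℕ) :
    ∃ C, ∀ (D D' : Divisor Qb F) (u : F) (E E' : Divisor Qb F) (v : F),
      X.IsPair n n' D D' u → X.IsPair k k' E E' v →
      |X.pairH a (n + k) (n' + k') (D + E) (D' + E') (u * v) -
        (X.hW (a + (n + k)) (D + E) + X.hW (a + (n' + k')) (D' + E') -
          (X.kdim a 0 : ℝ) * (X.hv (n + n') u + X.hv (k + k') v))| ≤ C := by
  obtain ⟨C, hC⟩ := X.hv_mul (n + n') (k + k')
  refine ⟨(X.kdim a 0 : ℝ) * C, fun D D' u E E' v h h' => ?_⟩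
  have := hC u h.mem v h'.mem h.ne h'.ne
  rw [pairH, show n + k + (n' + k') = n + n' + (k + k') by omega]
  rw [show ∀ p q r s : ℝ, p - q * r - (p - q * s) = -(q * (r - s)) from fun p q r s => by ring,
    abs_neg, abs_mul, Nat.abs_cast]
  exact mul_le_mul_of_nonneg_left this (Nat.cast_nonneg _)

variable (F) in
/-- The basic slack. -/
def a0 : ℕ := 3 * bnd Qb F + 2

/-- Every class of degree zero has a pair of the basic slack. -/
theorem exists_pair_a0 (y : Pic0 Qb F) :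
    ∃ p : Divisor Qb F × Divisor Qb F × F,
      X.IsPair (a0 F) (a0 F) p.1 p.2.1 p.2.2 ∧ X.cls (a0 F) p.1 = y := by
  have := genus_le_bnd (K := Qb) (F := F)
  obtain ⟨D, D', u, h, hy⟩ := X.exists_pair y (n := a0 F) (n' := a0 F)
    (by simp only [a0]; omega) (by simp only [a0]; omega)
  exact ⟨(D, D', u), h, hy⟩

/-! ### The height of a class -/

/-- The height of a class, with slack `a`. -/
def ht (a : ℕ) (y : Pic0 Qb F) : ℝ :=
  X.pairH a (a0 F) (a0 F) (X.exists_pair_a0 y).choose.1 (X.exists_pair_a0 y).choose.2.1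
    (X.exists_pair_a0 y).choose.2.2

theorem ht_spec (a : ℕ) (ha : bnd Qb F ≤ a) (n n' : ℕ) :
    ∃ C, ∀ (D D' : Divisor Qb F) (u : F), X.IsPair n n' D D' u →
      |X.ht a (X.cls n D) - X.pairH a n n' D D' u| ≤ C := by
  obtain ⟨C, hC⟩ := X.pairH_congr a ha (a0 F) (a0 F) n n'
  exact ⟨C, fun D D' u h => hC _ _ _ _ _ _ (X.exists_pair_a0 (X.cls n D)).choose_spec.1 h
    (X.exists_pair_a0 (X.cls n D)).choose_spec.2⟩

theorem ht_neg (a : ℕ) (ha : bnd Qb F ≤ a) :
    ∃ C, ∀ y, |X.ht a (-y) - X.ht a y| ≤ C := by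
  obtain ⟨C, hC⟩ := X.ht_spec a ha (a0 F) (a0 F)
  refine ⟨C + C, fun y => ?_⟩
  obtain ⟨⟨D, D', u⟩, h, hy⟩ := X.exists_pair_a0 y
  have h1 := abs_le.mp (hC D D' u h)
  have h2 := abs_le.mp (hC D' D u h.symm)
  rw [h.cls'] at h2
  rw [hy] at h1 h2
  simp only [pairH] at h1 h2
  rw [abs_le]
  constructor <;> linarith [h1.1, h1.2, h2.1, h2.2]

omit [IsFunctionField Qb F] in
/-- A nonnegative divisor with a point of positive multiplicity is that point plus a nonnegative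
divisor. -/
private theorem sub_single_nonneg {R : Divisor Qb F} (hR : 0 ≤ R) {Q : Place Qb F} (hQ : 1 ≤ R Q) :
    0 ≤ R - Finsupp.single Q 1 :=
  Finsupp.le_def.mpr fun v => by
    have := Finsupp.le_def.mp hR v
    simp only [Finsupp.sub_apply, Finsupp.zero_apply] at this ⊢
    by_cases hv : Q = v
    · subst hv; simp only [Finsupp.single_eq_same]; omega
    · rw [Finsupp.single_eq_of_ne (Ne.symm hv)]; omega

omit [IsFunctionField Qb F] in
/-- A nonnegative divisor other than `0` has a point of positive multiplicity. -/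
private theorem exists_one_le {R : Divisor Qb F} (hR : 0 ≤ R) (hne : R ≠ 0) :
    ∃ Q, 1 ≤ R Q := by
  by_contra hno
  push Not at hno
  exact hne (Finsupp.ext fun v => le_antisymm
    (by have := hno v; simp only [Finsupp.zero_apply]; omega) (Finsupp.le_def.mp hR v))

/-- The only nonnegative divisor of degree `0` is `0`. -/
private theorem eq_zero_of_nonneg_of_degree_eq_zero {R : Divisor Qb F} (hR : 0 ≤ R)
    (hdeg : Divisor.degree R = 0) : R = 0 := by
  by_contra hne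
  obtain ⟨Q, hQ⟩ := exists_one_le hR hne
  have := FF.degree_mono (sub_single_nonneg hR hQ)
  rw [map_zero, map_sub, FF.degree_single_one, hdeg] at this
  omega

/-! ### The cube law -/

/-- The third difference of the height of a divisor vanishes up to a bounded term. -/
theorem hW_cube (m₁ n₁ m₂ n₂ A r : ℕ) (h₁ : n₁ + 3 * bnd Qb F + 2 ≤ m₁)
    (h₂ : n₂ + 3 * bnd Qb F + 2 ≤ m₂) (hr : r + 3 * bnd Qb F + 2 ≤ A) :
    ∃ C, ∀ D₁ D₂ R : Divisor Qb F, 0 ≤ D₁ → Divisor.degree D₁ = n₁ → 0 ≤ D₂ →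
      Divisor.degree D₂ = n₂ → 0 ≤ R → Divisor.degree R = r →
      |X.hW (m₁ + m₂ + A) (D₁ + D₂ + R) - X.hW (m₁ + m₂ + A) (D₁ + D₂)
        - (X.hW (m₁ + A) (D₁ + R) - X.hW (m₁ + A) D₁)
        - (X.hW (m₂ + A) (D₂ + R) - X.hW (m₂ + A) D₂) + X.hW A R| ≤ C := by
  classical
  induction r with
  | zero =>
    refine ⟨|X.hW A 0|, fun D₁ D₂ R _ _ _ _ hR hdeg => ?_⟩
    rw [eq_zero_of_nonneg_of_degree_eq_zero hR (by simpa using hdeg)]
    simp
  | succ r ih =>
    obtain ⟨C, hC⟩ := ih (by omega)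
    -- the increment at a point is additive in the divisor, up to a bounded term
    obtain ⟨B₀, b₀⟩ := X.incr_add m₁ n₁ m₂ n₂ h₁ h₂
    obtain ⟨B₁, b₁⟩ := X.incr_add (m₁ + m₂) (n₁ + n₂) A r (by omega) (by omega)
    obtain ⟨B₂, b₂⟩ := X.incr_add m₁ n₁ A r h₁ (by omega)
    obtain ⟨B₃, b₃⟩ := X.incr_add m₂ n₂ A r h₂ (by omega)
    refine ⟨C + B₀ + B₁ + B₂ + B₃, fun D₁ D₂ R hD₁ hn₁ hD₂ hn₂ hR hdeg => ?_⟩
    -- split a point `Q` off `R`, and add up the increments at `Q`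
    obtain ⟨Q, hQ⟩ := exists_one_le hR fun h0 => by
      rw [h0, map_zero] at hdeg; push_cast at hdeg; omega
    have hR'0 := sub_single_nonneg hR hQ
    obtain ⟨R', rfl⟩ : ∃ R', R = R' + Finsupp.single Q 1 := ⟨_, (sub_add_cancel _ _).symm⟩
    rw [add_sub_cancel_right] at hR'0
    have hdeg' : Divisor.degree R' = r := by
      rw [map_add, FF.degree_single_one] at hdeg; push_cast at hdeg; omega
    have h12 : Divisor.degree (D₁ + D₂) = ((n₁ + n₂ : ℕ) : ℤ) := by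
      rw [map_add, hn₁, hn₂]; push_cast; rfl
    have e := abs_le.mp (hC D₁ D₂ R' hD₁ hn₁ hD₂ hn₂ hR'0 hdeg')
    have e0 := abs_le.mp (b₀ D₁ D₂ Q hD₁ hn₁ hD₂ hn₂)
    have e1 := abs_le.mp (b₁ (D₁ + D₂) R' Q (add_nonneg hD₁ hD₂) h12 hR'0 hdeg')
    have e2 := abs_le.mp (b₂ D₁ R' Q hD₁ hn₁ hR'0 hdeg')
    have e3 := abs_le.mp (b₃ D₂ R' Q hD₂ hn₂ hR'0 hdeg')
    simp only [incr] at e0 e1 e2 e3
    simp only [← add_assoc]
    rw [abs_le]
    constructor <;> linarith [e.1, e.2, e0.1, e0.2, e1.1, e1.2, e2.1, e2.2, e3.1, e3.2]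

/-- The third difference of the height of a class vanishes up to a bounded term, for suitable
slacks. -/
theorem ht_cube : ∃ C, ∀ y₁ y₂ z : Pic0 Qb F,
    |X.ht (3 * a0 F) (y₁ + y₂ + z) - X.ht (4 * a0 F) (y₁ + y₂) - X.ht (2 * a0 F) (y₁ + z)
      - X.ht (2 * a0 F) (y₂ + z) + X.ht (3 * a0 F) y₁ + X.ht (3 * a0 F) y₂
      + X.ht (a0 F) z| ≤ C := by
  have hb : 3 * bnd Qb F + 2 = a0 F := rfl
  set a := a0 F
  -- `S`: height of a class against height of a pair; `P`: height of a sum of pairs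
  obtain ⟨C₀, c₀⟩ := X.hW_cube (2 * a) a (2 * a) a (2 * a) a (by omega) (by omega) (by omega)
  obtain ⟨S₁, s₁⟩ := X.ht_spec (3 * a) (by omega) (a + a + a) (a + a + a)
  obtain ⟨S₂, s₂⟩ := X.ht_spec (4 * a) (by omega) (a + a) (a + a)
  obtain ⟨S₃, s₃⟩ := X.ht_spec (2 * a) (by omega) (a + a) (a + a)
  obtain ⟨S₄, s₄⟩ := X.ht_spec (3 * a) (by omega) a a
  obtain ⟨S₅, s₅⟩ := X.ht_spec a (by omega) a a
  obtain ⟨P₁, p₁⟩ := X.pairH_add (3 * a) (a + a) (a + a) a a
  obtain ⟨P₂, p₂⟩ := X.pairH_add (4 * a) a a a a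
  obtain ⟨P₃, p₃⟩ := X.pairH_add (2 * a) a a a a
  obtain ⟨M, hM⟩ := X.hv_mul (a + a) (a + a)
  refine ⟨2 * C₀ + S₁ + S₂ + 2 * S₃ + 2 * S₄ + S₅ + P₁ + P₂ + 2 * P₃ + (X.kdim (3 * a) 0) * M,
    fun y₁ y₂ z => ?_⟩
  obtain ⟨D₁, D₁', u₁, h₁, rfl⟩ := X.exists_pair y₁ (n := a) (n' := a)
    (by have := genus_le_bnd (K := Qb) (F := F); omega)
    (by have := genus_le_bnd (K := Qb) (F := F); omega)
  obtain ⟨D₂, D₂', u₂, h₂, rfl⟩ := X.exists_pair y₂ (n := a) (n' := a)
    (by have := genus_le_bnd (K := Qb) (F := F); omega)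
    (by have := genus_le_bnd (K := Qb) (F := F); omega)
  obtain ⟨R, R', v, hv, rfl⟩ := X.exists_pair z (n := a) (n' := a)
    (by have := genus_le_bnd (K := Qb) (F := F); omega)
    (by have := genus_le_bnd (K := Qb) (F := F); omega)
  -- `t`: the seven classes against their pairs; `q`: the sums of pairs; `c`, `c'`: the cube on
  -- the divisors and on their opposites; `mm`: the function `u₁ u₂`
  have h12 := h₁.add h₂
  have h123 := h12.add hv
  have t1 := abs_le.mp (s₁ _ _ _ h123)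
  have t2 := abs_le.mp (s₂ _ _ _ h12)
  have t3 := abs_le.mp (s₃ _ _ _ (h₁.add hv))
  have t3' := abs_le.mp (s₃ _ _ _ (h₂.add hv))
  have t4 := abs_le.mp (s₄ _ _ _ h₁)
  have t4' := abs_le.mp (s₄ _ _ _ h₂)
  have t5 := abs_le.mp (s₅ _ _ _ hv)
  have q1 := abs_le.mp (p₁ _ _ _ _ _ _ h12 hv)
  have q2 := abs_le.mp (p₂ _ _ _ _ _ _ h₁ h₂)
  have q3 := abs_le.mp (p₃ _ _ _ _ _ _ h₁ hv)
  have q3' := abs_le.mp (p₃ _ _ _ _ _ _ h₂ hv)
  have c := abs_le.mp (c₀ D₁ D₂ R h₁.nonneg h₁.deg h₂.nonneg h₂.deg hv.nonneg hv.deg)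
  have c' := abs_le.mp (c₀ D₁' D₂' R' h₁.nonneg' h₁.deg' h₂.nonneg' h₂.deg' hv.nonneg' hv.deg')
  have mm := abs_le.mp (hM u₁ h₁.mem u₂ h₂.mem h₁.ne h₂.ne)
  -- express the slacks through `2 a`, and the dimensions through `a`
  simp only [X.cls_add h12.deg hv.deg, X.cls_add h₁.deg h₂.deg, X.cls_add h₁.deg hv.deg,
    X.cls_add h₂.deg hv.deg] at t1 t2 t3 t3'
  simp only [pairH] at t4 t4' t5
  rw [show 3 * a + (a + a + a) = 2 * a + 2 * a + 2 * a by omega] at q1
  rw [show 4 * a + (a + a) = 2 * a + 2 * a + 2 * a by omega] at q2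
  rw [show 2 * a + (a + a) = 2 * a + 2 * a by omega] at q3 q3'
  rw [show 3 * a + a = 2 * a + 2 * a by omega] at t4 t4'
  rw [show a + a = 2 * a by omega] at mm
  rw [show a + a + (a + a) = 2 * a + 2 * a by omega] at q1
  simp only [show a + a = 2 * a by omega] at q1 q2 q3 q3' t4 t4' t5 t1 t2 t3 t3'
  have k1 := X.kdim_cast (a := a) (by omega)
  have k2 := X.kdim_cast (a := 2 * a) (by omega)
  have k3 := X.kdim_cast (a := 3 * a) (by omega)
  have k4 := X.kdim_cast (a := 4 * a) (by omega)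
  have hk3 : (0 : ℝ) ≤ X.kdim (3 * a) 0 := Nat.cast_nonneg _
  have mm1 := mul_le_mul_of_nonneg_left mm.1 hk3
  have mm2 := mul_le_mul_of_nonneg_left mm.2 hk3
  push_cast at k1 k2 k3 k4
  simp only [k1, k2, k3, k4] at q1 q2 q3 q3' t4 t4' t5 mm1 mm2 ⊢
  rw [abs_le]
  constructor <;>
    linarith [t1.1, t1.2, t2.1, t2.2, t3.1, t3.2, t3'.1, t3'.2, t4.1, t4.2, t4'.1, t4'.2, t5.1,
      t5.2, q1.1, q1.2, q2.1, q2.2, q3.1, q3.2, q3'.1, q3'.2, c.1, c.2, c'.1, c'.2]

/-- The height on degree-zero classes. -/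
def hgt (y : Pic0 Qb F) : ℝ := X.ht (a0 F) y

/-- The height satisfies the parallelogram law up to a bounded error. -/
theorem hgt_parallelogram :
    ∃ C, ∀ x y, |X.hgt (x + y) + X.hgt (x - y) - 2 * (X.hgt x + X.hgt y)| ≤ C := by
  obtain ⟨C, hC⟩ := X.ht_cube
  have ha : bnd Qb F ≤ a0 F := by simp only [a0]; omega
  obtain ⟨N₁, n₁⟩ := X.ht_neg (a0 F) ha
  obtain ⟨N₂, n₂⟩ := X.ht_neg (2 * a0 F) (by omega)
  set K := |X.ht (a0 F) 0| + |X.ht (2 * a0 F) 0| + |X.ht (3 * a0 F) 0| + |X.ht (4 * a0 F) 0| with hK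
  refine ⟨40 * (|C| + |N₁| + |N₂| + K), fun x y => ?_⟩
  have := le_abs_self (X.ht (a0 F) 0); have := neg_abs_le (X.ht (a0 F) 0)
  have := le_abs_self (X.ht (2 * a0 F) 0); have := neg_abs_le (X.ht (2 * a0 F) 0)
  have := le_abs_self (X.ht (3 * a0 F) 0); have := neg_abs_le (X.ht (3 * a0 F) 0)
  have := le_abs_self (X.ht (4 * a0 F) 0); have := neg_abs_le (X.ht (4 * a0 F) 0)
  have := abs_nonneg (X.ht (a0 F) 0); have := abs_nonneg (X.ht (2 * a0 F) 0)
  have := abs_nonneg (X.ht (3 * a0 F) 0); have := abs_nonneg (X.ht (4 * a0 F) 0)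
  have := le_abs_self C; have := abs_nonneg C
  have := le_abs_self N₁; have := abs_nonneg N₁
  have := le_abs_self N₂; have := abs_nonneg N₂
  -- all slacks agree
  have key : ∀ w : Pic0 Qb F,
      |X.ht (2 * a0 F) w - X.hgt w| ≤ 4 * (|C| + |N₁| + |N₂| + K) ∧
      |X.ht (3 * a0 F) w - X.hgt w| ≤ 6 * (|C| + |N₁| + |N₂| + K) ∧
      |X.ht (4 * a0 F) w - X.hgt w| ≤ 8 * (|C| + |N₁| + |N₂| + K) := fun w => by
    have e1 := abs_le.mp (hC w 0 0)
    have e2 := abs_le.mp (hC 0 0 w)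
    have e3 := abs_le.mp (hC w 0 (-w))
    have e4 := abs_le.mp (n₁ w)
    have e5 := abs_le.mp (n₂ w)
    simp only [add_zero, zero_add, add_neg_cancel] at e1 e2 e3
    simp only [hgt, abs_le]
    refine ⟨⟨?_, ?_⟩, ⟨?_, ?_⟩, ?_, ?_⟩ <;>
      linarith [e1.1, e1.2, e2.1, e2.2, e3.1, e3.2, e4.1, e4.2, e5.1, e5.2]
  have e := abs_le.mp (hC x y (-y))
  have e4 := abs_le.mp (n₁ y)
  simp only [add_neg_cancel, ← sub_eq_add_neg, add_sub_cancel_right] at e
  obtain ⟨-, h3x, -⟩ := key x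
  obtain ⟨-, h3y, -⟩ := key y
  obtain ⟨-, -, h4⟩ := key (x + y)
  obtain ⟨h2, -, -⟩ := key (x - y)
  rw [abs_le] at h3x h3y h4 h2 ⊢
  simp only [hgt] at *
  constructor <;> linarith [e.1, e.2, e4.1, e4.2, h3x.1, h3x.2, h3y.1, h3y.2, h4.1, h4.2,
    h2.1, h2.2]

end Coords

end Fermat.Agent.MordellWeil
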