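import Mathlib.NumberTheory.Height.NumberField
import Mathlib.RingTheory.Ideal.Norm.RelNorm
import Mathlib.FieldTheory.PrimitiveElement

/-!
# Heights of tuples under extensions of number fields
-/

set_option autoImplicit false

noncomputable section

open Height NumberField Finset

namespace Fermat.Agent.MordellWeil

variable {K L : Type*} [Field K] [NumberField K] [Field L] [NumberField L] [Algebra K L]

theorem prod_infinitePlace_pow_mult {M : Type*} [CommMonoid M] {F : Type*} [Field F] [NumberField F]
    (g : InfinitePlace F → M) :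
    ∏ w, g w ^ w.mult = ∏ φ : F →+* ℂ, g (InfinitePlace.mk φ) := by
  classical
  rw [← Finset.univ.prod_fiberwise (fun φ : F →+* ℂ => InfinitePlace.mk φ)]
  refine Finset.prod_congr rfl fun w _ => ?_
  rw [Finset.prod_congr rfl (fun φ hφ => by rw [(Finset.mem_filter.mp hφ).2]), Finset.prod_const,
    InfinitePlace.card_filter_mk_eq]

theorem card_embeddings_over (ψ : K →+* ℂ) [DecidableEq (K →+* ℂ)] :
    (Finset.univ.filter fun φ : L →+* ℂ => φ.comp (algebraMap K L) = ψ).card =
      Module.finrank K L := by
  let : Algebra K ℂ := ψ.toAlgebra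
  have : IsScalarTower ℚ K L := inferInstance
  have : Module.Finite K L := Module.Finite.right ℚ K L
  rw [← AlgHom.card K L ℂ, ← Fintype.card_subtype]
  refine Fintype.card_congr
    { toFun := fun φ => { (φ : L →+* ℂ) with commutes' := fun c => RingHom.congr_fun φ.2 c }
      invFun := fun φ => ⟨φ.toRingHom, RingHom.ext fun c => φ.commutes c⟩
      left_inv := fun φ => rfl
      right_inv := fun φ => AlgHom.ext fun x => rfl }

/-- Archimedean part of the height of an extended tuple. -/
theorem prod_infinitePlace_extend {ι : Type*} (x : ι → K) :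
    ∏ w : InfinitePlace L, (⨆ i, w (algebraMap K L (x i))) ^ w.mult =
      (∏ v : InfinitePlace K, (⨆ i, v (x i)) ^ v.mult) ^ Module.finrank K L := by
  classical
  rw [prod_infinitePlace_pow_mult, prod_infinitePlace_pow_mult, ← Finset.prod_pow,
    ← Finset.univ.prod_fiberwise (fun φ : L →+* ℂ => φ.comp (algebraMap K L))]
  refine Finset.prod_congr rfl fun ψ _ => ?_
  rw [← card_embeddings_over (L := L) ψ, ← Finset.prod_const]
  refine Finset.prod_congr rfl fun φ hφ => ?_
  obtain ⟨-, rfl⟩ := Finset.mem_filter.mp hφ
  simp [InfinitePlace.apply]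

theorem finrank_ringOfIntegers :
    Module.finrank (𝓞 K) (𝓞 L) = Module.finrank K L := by
  have : IsScalarTower ℚ K L := inferInstance
  have : Module.Finite K L := Module.Finite.right ℚ K L
  have h := Ideal.absNorm_algebraMap (R := 𝓞 K) (S := 𝓞 L) (Ideal.span {((2 : ℕ) : 𝓞 K)})
  rw [Ideal.map_span, Set.image_singleton, map_natCast, Ideal.absNorm_span_natCast,
    Ideal.absNorm_span_natCast, RingOfIntegers.rank, RingOfIntegers.rank, ← pow_mul] at h
  have h' := Nat.pow_right_injective le_rfl h
  rw [← Module.finrank_mul_finrank ℚ K L] at h'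
  exact (Nat.eq_of_mul_eq_mul_left Module.finrank_pos h').symm

/-- Finite part of the height of an extended integral tuple. -/
theorem finprod_finitePlace_extend {ι : Type*} [Finite ι] (x : ι → 𝓞 K) (hx : x ≠ 0) :
    ∏ᶠ w : FinitePlace L, ⨆ i, w (algebraMap K L (x i : K)) =
      (∏ᶠ v : FinitePlace K, ⨆ i, v (x i : K)) ^ Module.finrank K L := by
  set y : ι → 𝓞 L := fun i => algebraMap (𝓞 K) (𝓞 L) (x i) with hy
  have hy0 : y ≠ 0 := fun h => hx <| funext fun i =>
    (map_eq_zero_iff _ (FaithfulSMul.algebraMap_injective (𝓞 K) (𝓞 L))).mp (congrFun h i)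
  have e : ∀ i, (algebraMap K L (x i : K)) = (y i : L) := fun i => rfl
  have hspan : Ideal.span (Set.range y) =
      (Ideal.span (Set.range x)).map (algebraMap (𝓞 K) (𝓞 L)) := by
    rw [Ideal.map_span, ← Set.range_comp]; rfl
  have h1 := absNorm_mul_finprod_finitePlace_eq_one (x := x) hx
  have h2 := absNorm_mul_finprod_finitePlace_eq_one (x := y) hy0
  simp only [e]
  rw [eq_inv_of_mul_eq_one_right h2, eq_inv_of_mul_eq_one_right h1, hspan,
    Ideal.absNorm_algebraMap, inv_pow, Nat.cast_pow, finrank_ringOfIntegers]

theorem exists_integral_multiple {ι : Type*} [Finite ι] (x : ι → K) :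
    ∃ c : K, c ≠ 0 ∧ ∃ y : ι → 𝓞 K, ∀ i, (y i : K) = c * x i := by
  obtain ⟨b, hb⟩ := IsLocalization.exist_integer_multiples_of_finite
    (nonZeroDivisors (𝓞 K)) x
  choose y hy using hb
  refine ⟨algebraMap (𝓞 K) K b, ?_, y, fun i => ?_⟩
  · simp
  · rw [← Algebra.smul_def]; exact hy i

/-- The height of a tuple is homogeneous under extensions of number fields. -/
theorem mulHeight_extend {ι : Type*} [Finite ι] (x : ι → K) :
    mulHeight (fun i => algebraMap K L (x i)) = mulHeight x ^ Module.finrank K L := by
  rcases eq_or_ne x 0 with rfl | hx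
  · simp
  obtain ⟨c, hc, y, hy⟩ := exists_integral_multiple x
  have hc' : algebraMap K L c ≠ 0 := (map_ne_zero _).mpr hc
  have e1 : (fun i => algebraMap K L (y i : K)) = algebraMap K L c • fun i =>
      algebraMap K L (x i) := by
    funext i; simp [hy i]
  have e2 : (fun i => (y i : K)) = c • x := by funext i; simp [hy i]
  rw [← mulHeight_smul_eq_mulHeight (fun i => algebraMap K L (x i)) hc', ← e1,
    ← mulHeight_smul_eq_mulHeight x hc, ← e2]
  have hy0' : (fun i => (y i : K)) ≠ 0 := by rw [e2]; simp [hc, hx]
  have hy0 : y ≠ 0 := fun h => hy0' <| by funext i; simp [h]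
  have hy1 : (fun i => algebraMap K L (y i : K)) ≠ 0 := fun h => hy0' <| funext fun i =>
    (map_eq_zero (algebraMap K L)).mp (congrFun h i)
  rw [NumberField.mulHeight_eq hy1, NumberField.mulHeight_eq hy0', prod_infinitePlace_extend,
    finprod_finitePlace_extend y hy0, mul_pow]

/-- The unnormalised height is multiplied by the degree in an extension of number fields. -/
theorem logHeight_extend {ι : Type*} [Finite ι] (x : ι → K) :
    logHeight (fun i => algebraMap K L (x i)) = Module.finrank K L * logHeight x := by
  rw [logHeight_eq_log_mulHeight, mulHeight_extend, Real.log_pow, logHeight_eq_log_mulHeight]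

end Fermat.Agent.MordellWeil
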