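import Fermat.Agent.MordellWeil.WSpaces
import Fermat.Agent.MordellWeil.Base

/-!
# Points in general position with respect to finitely many spaces of sections
-/

set_option autoImplicit false

noncomputable section

open AlgebraicCurve Fermat.Agent.FF

namespace Fermat.Agent.MordellWeil

variable {F : Type*} [Field F] [Algebra Qb F] [IsFunctionField Qb F]

scoped instance infinite_place : Infinite (Place Qb F) := by
  refine ⟨fun hfin => ?_⟩
  have := Fintype.ofFinite (Place Qb F)
  obtain ⟨v⟩ := exists_place (K := Qb) (F := F)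
  obtain ⟨f, -, -, hf⟩ := exists_exact_finset
    (D := Finsupp.single v ((bnd Qb F + 1 : ℕ) : ℤ))
    (by rw [FF.degree_single_one]; push_cast; omega)
    Finset.univ
  have h : div Qb f = -Finsupp.single v ((bnd Qb F + 1 : ℕ) : ℤ) :=
    Finsupp.ext fun w => hf w (Finset.mem_univ w)
  have := congrArg Divisor.degree h
  rw [degree_div, map_neg, FF.degree_single_one] at this
  omega

namespace Coords

variable (X : Coords F)

theorem evv_add (Q : Place Qb F) {m : ℕ} {f g : F} (hf : f ∈ X.V m) (hg : g ∈ X.V m) :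
    X.evv Q m (f + g) = X.evv Q m f + X.evv Q m g := by
  simp only [evv, add_mul, val_add Q (X.mul_tw_mem hf) (X.mul_tw_mem hg)]

theorem evv_smul (Q : Place Qb F) {m : ℕ} (c : Qb) {f : F} (hf : f ∈ X.V m) :
    X.evv Q m (c • f) = c * X.evv Q m f := by
  simp only [evv, smul_mul_assoc, val_smul Q c (X.mul_tw_mem hf)]

/-- A section with vanishing twisted value at `Q` has a zero there. -/
theorem mem_support_of_evv_eq_zero {Q : Place Qb F} {m : ℕ} {f : F} (hf : f ∈ X.V m) (h0 : f ≠ 0)
    (h : X.evv Q m f = 0) : Q ∈ (X.zdiv m f).support := by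
  have h1 : f ∈ X.W m (0 + Finsupp.single Q 1) :=
    (X.evv_eq_zero_iff (D := 0) le_rfl rfl (by rwa [W_zero])).mp h
  have := neg_le_ord (D := Finsupp.single X.pt (m : ℤ) - (0 + Finsupp.single Q 1)) h1 h0 Q
  simp only [Finsupp.sub_apply, zero_add, Finsupp.single_eq_same] at this
  rw [Finsupp.mem_support_iff, zdiv, Finsupp.add_apply, div_apply]
  omega

/-- A place other than `pt` where finitely many sections are all non-zero. -/
theorem exists_evv_ne_zero_avoid {ι : Type*} [Finite ι] (m : ι → ℕ) (f : ι → F)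
    (hf : ∀ t, f t ∈ X.V (m t)) (h0 : ∀ t, f t ≠ 0) :
    ∃ Q : Place Qb F, Q ≠ X.pt ∧ ∀ t, X.evv Q (m t) (f t) ≠ 0 := by
  classical
  have := Fintype.ofFinite ι
  obtain ⟨Q, hQ⟩ := Infinite.exists_notMem_finset
    (insert X.pt (Finset.univ.biUnion fun t => (X.zdiv (m t) (f t)).support))
  rw [Finset.mem_insert, not_or] at hQ
  exact ⟨Q, hQ.1, fun t h => hQ.2 (Finset.mem_biUnion.mpr
    ⟨t, Finset.mem_univ t, X.mem_support_of_evv_eq_zero (hf t) (h0 t) h⟩)⟩

/-- A place where finitely many sections are all non-zero. -/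
theorem exists_evv_ne_zero {ι : Type*} [Finite ι] (m : ι → ℕ) (f : ι → F)
    (hf : ∀ t, f t ∈ X.V (m t)) (h0 : ∀ t, f t ≠ 0) :
    ∃ Q : Place Qb F, ∀ t, X.evv Q (m t) (f t) ≠ 0 :=
  let ⟨Q, _, hQ⟩ := X.exists_evv_ne_zero_avoid m f hf h0
  ⟨Q, hQ⟩

/-- An element vanishing at every place is zero. -/
theorem eq_zero_of_forall_evv {m : ℕ} {f : F} (hf : f ∈ X.V m)
    (h : ∀ Q : Place Qb F, X.evv Q m f = 0) : f = 0 := by
  by_contra h0
  obtain ⟨Q, hQ⟩ := X.exists_evv_ne_zero (ι := Unit) (fun _ => m) (fun _ => f) (fun _ => hf)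
    fun _ => h0
  exact hQ () (h Q)

/-- Evaluation at a tuple of places. -/
def evals {m r : ℕ} (S : Submodule Qb F) (hS : S ≤ X.V m) (P : Fin r → Place Qb F) :
    S →ₗ[Qb] (Fin r → Qb) where
  toFun f i := X.evv (P i) m (f : F)
  map_add' f g := funext fun i => X.evv_add (P i) (hS f.2) (hS g.2)
  map_smul' c f := funext fun i => X.evv_smul (P i) c (hS f.2)

theorem exists_kernel {m r k : ℕ} {S : Submodule Qb F} (hS : S ≤ X.V m)
    (hk : Module.finrank Qb S = k) (hr : r < k) (P : Fin r → Place Qb F) :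
    ∃ f ∈ S, f ≠ 0 ∧ ∀ i, X.evv (P i) m f = 0 := by
  have := X.finiteDimensional_of_le hS
  have hker : LinearMap.ker (X.evals S hS P) ≠ ⊥ := by
    intro hbot
    have := LinearMap.finrank_le_finrank_of_injective (LinearMap.ker_eq_bot.mp hbot)
    rw [hk, Module.finrank_fin_fun] at this
    omega
  obtain ⟨⟨f, hf⟩, hmem, hne⟩ := Submodule.exists_mem_ne_zero_of_ne_bot hker
  exact ⟨f, hf, fun h => hne (Subtype.ext h), fun i => congrFun (LinearMap.mem_ker.mp hmem) i⟩

theorem exists_dual_points {ι : Type*} [Finite ι] (m : ι → ℕ) (S : ι → Submodule Qb F) (k : ℕ)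
    (hS : ∀ t, S t ≤ X.V (m t)) (hk : ∀ t, Module.finrank Qb (S t) = k) (r : ℕ) (hr : r ≤ k) :
    ∃ P : Fin r → Place Qb F, (∀ i, P i ≠ X.pt) ∧ ∀ t, ∃ w : Fin r → F, (∀ j, w j ∈ S t) ∧
      ∀ i j, X.evv (P i) (m t) (w j) = if i = j then 1 else 0 := by
  induction r with
  | zero => exact ⟨Fin.elim0, fun i => i.elim0, fun t => ⟨Fin.elim0, fun j => j.elim0,
    fun i => i.elim0⟩⟩
  | succ r ih =>
    obtain ⟨P, hPne, hP⟩ := ih (by omega)
    choose w hw hwP using hP
    choose f hf hf0 hfP using fun t => X.exists_kernel (hS t) (hk t) (show r < k by omega) P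
    obtain ⟨Q, hQne, hQ⟩ := X.exists_evv_ne_zero_avoid m f (fun t => hS t (hf t)) hf0
    refine ⟨Fin.snoc P Q, fun i => ?_, fun t => ⟨Fin.snoc
      (fun j => w t j + (-(X.evv Q (m t) (w t j) / X.evv Q (m t) (f t))) • f t)
      ((X.evv Q (m t) (f t))⁻¹ • f t), fun j => ?_, fun i j => ?_⟩⟩
    · induction i using Fin.lastCases with
      | last => rw [Fin.snoc_last]; exact hQne
      | cast i => rw [Fin.snoc_castSucc]; exact hPne i
    · induction j using Fin.lastCases with
      | last => rw [Fin.snoc_last]; exact Submodule.smul_mem _ _ (hf t)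
      | cast j => rw [Fin.snoc_castSucc]; exact add_mem (hw t j) (Submodule.smul_mem _ _ (hf t))
    · induction i using Fin.lastCases with
      | last =>
        induction j using Fin.lastCases with
        | last =>
          rw [Fin.snoc_last, Fin.snoc_last, X.evv_smul _ _ (hS t (hf t)), inv_mul_cancel₀ (hQ t),
            if_pos rfl]
        | cast j =>
          rw [Fin.snoc_last, Fin.snoc_castSucc, X.evv_add _ (hS t (hw t j))
            (Submodule.smul_mem _ _ (hS t (hf t))), X.evv_smul _ _ (hS t (hf t)), neg_mul,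
            div_mul_cancel₀ _ (hQ t), add_neg_cancel, if_neg (Fin.castSucc_lt_last j).ne']
      | cast i =>
        induction j using Fin.lastCases with
        | last =>
          rw [Fin.snoc_last, Fin.snoc_castSucc, X.evv_smul _ _ (hS t (hf t)), hfP t i, mul_zero,
            if_neg (Fin.castSucc_lt_last i).ne]
        | cast j =>
          rw [Fin.snoc_castSucc, Fin.snoc_castSucc, X.evv_add _ (hS t (hw t j))
            (Submodule.smul_mem _ _ (hS t (hf t))), X.evv_smul _ _ (hS t (hf t)), hfP t i, mul_zero,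
            add_zero, hwP t i j]
          simp [Fin.castSucc_inj]

/-- Frames adapted to `r` points, of spaces of dimension `r + 1`. -/
theorem exists_adapted {ι : Type*} [Finite ι] (m : ι → ℕ) (S : ι → Submodule Qb F) (r : ℕ)
    (hS : ∀ t, S t ≤ X.V (m t)) (hk : ∀ t, Module.finrank Qb (S t) = r + 1) :
    ∃ P : Fin r → Place Qb F, ∀ t, ∃ w : Fin (r + 1) → F, (∀ j, w j ∈ S t) ∧ w 0 ≠ 0 ∧
      LinearIndependent Qb w ∧ Submodule.span Qb (Set.range w) = S t ∧
      (∀ i, X.evv (P i) (m t) (w 0) = 0) ∧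
      ∀ i (j : Fin r), X.evv (P i) (m t) (w j.succ) = if i = j then 1 else 0 := by
  obtain ⟨P, -, hP⟩ := X.exists_dual_points m S (r + 1) hS hk r (Nat.le_succ r)
  refine ⟨P, fun t => ?_⟩
  obtain ⟨v, hv, hvP⟩ := hP t
  obtain ⟨f, hf, hf0, hfP⟩ := X.exists_kernel (hS t) (hk t) (Nat.lt_succ_self r) P
  let w : Fin (r + 1) → F := Fin.cons f v
  have hw : ∀ j, w j ∈ S t := fun j => by
    refine Fin.cases hf (fun i => ?_) j
    exact hv i
  have hind : LinearIndependent Qb w := by
    rw [Fintype.linearIndependent_iff]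
    intro c hc
    have hsum : ∀ i, X.evals (S t) (hS t) P (∑ j, c j • ⟨w j, hw j⟩) i = c i.succ := fun i => by
      rw [map_sum, Finset.sum_apply, Fin.sum_univ_succ]
      simp [evals, w, X.evv_smul _ _ (hS t hf), X.evv_smul _ _ (hS t (hv _)), hfP, hvP]
    have hz : (∑ j, c j • (⟨w j, hw j⟩ : S t)) = 0 := Subtype.ext (by
      rw [Submodule.coe_sum]; exact hc)
    have hs : ∀ i : Fin r, c i.succ = 0 := fun i => by
      rw [← hsum i, hz, map_zero]; rfl
    rw [Fin.sum_univ_succ] at hc
    simp only [hs, zero_smul, Finset.sum_const_zero, add_zero, w, Fin.cons_zero,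
      smul_eq_zero, hf0, or_false] at hc
    intro j
    exact Fin.cases hc hs j
  refine ⟨w, hw, by simpa [w] using hf0, hind, ?_, fun i => by simp [w, hfP],
    fun i j => by simp [w, hvP]⟩
  have := X.finiteDimensional_of_le (hS t)
  exact Submodule.eq_of_le_of_finrank_eq (Submodule.span_le.mpr (Set.range_subset_iff.mpr hw))
    (by rw [Coords.finrank_span_eq hind, hk t])

end Coords

end Fermat.Agent.MordellWeil
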