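import Fermat.Agent.MordellWeil.Height
import Fermat.Agent.MordellWeil.Points

/-!
# A point in affine space attached to a class, bounded by its height, with finite fibres
-/

set_option autoImplicit false

noncomputable section

open AlgebraicCurve Fermat.Agent.FF

namespace Fermat.Agent.MordellWeil

theorem tens_smul {α β : Type*} [Fintype β] (k : ℕ) (M : α → β → Qb) (c : Qb)
    (z : (Fin k → β) → Qb) : tens k M (c • z) = c • tens k M z := by
  funext l
  simp only [tens, Pi.smul_apply, smul_eq_mul, Finset.mul_sum]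
  exact Finset.sum_congr rfl fun m _ => by ring

theorem tens_injective {α β : Type*} [Fintype α] [DecidableEq α] [Fintype β] [DecidableEq β]
    {k : ℕ} {M : α → β → Qb} (h : ∀ c : β → Qb, (∀ a, ∑ b, M a b * c b = 0) → c = 0) :
    Function.Injective (tens k M) := by
  intro z z' he
  by_contra hne
  refine tens_ne_zero h (z := z - z') (sub_ne_zero.mpr hne) ?_
  funext l
  have := congrFun he l
  simp only [tens] at this
  simp [tens, mul_sub, Finset.sum_sub_distrib, this]

variable {F : Type*} [Field F] [Algebra Qb F] [IsFunctionField Qb F]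

namespace Coords

variable (X : Coords F)

/-- The double alternating sum of a square table of sections. -/
def dbl (k m : ℕ) (T : Fin k → Fin k → F) (l : Fin k → Fin (X.d m)) : Qb :=
  ∑ p : Equiv.Perm (Fin k), ∑ q : Equiv.Perm (Fin k),
    ((Equiv.Perm.sign p : ℤ) : Qb) * ((Equiv.Perm.sign q : ℤ) : Qb) *
      ∏ r, X.co m (T (p r) (q r)) (l r)

theorem plucker_eq_sum {α : Type*} {k : ℕ} (w : Fin k → α → Qb) (J : Fin k → α) :
    plucker w J = ∑ p : Equiv.Perm (Fin k), ((Equiv.Perm.sign p : ℤ) : Qb) * ∏ r,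
      w (p r) (J r) := by
  rw [plucker, ← Matrix.det_transpose, Matrix.det_apply']
  simp [Matrix.transpose_apply]

/-- The bilinear form in two Plücker vectors. -/
def psi (a b k : ℕ) (Ω : (Fin k → Fin (X.d a)) → Qb) (Ω' : (Fin k → Fin (X.d b)) → Qb)
    (l : Fin k → Fin (X.d (a + b))) : Qb :=
  ∑ I, ∑ J, (∏ r, X.co (a + b) (X.e a (I r) * X.e b (J r)) (l r)) * (Ω I * Ω' J)

omit [IsFunctionField Qb F] in
theorem dbl_mul {a b k : ℕ} {w w' : Fin k → F} (hw : ∀ i, w i ∈ X.V a) (hw' : ∀ i, w' i ∈ X.V b) :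
    X.dbl k (a + b) (fun i j => w i * w' j) = X.psi a b k (X.pl a w) (X.pl b w') := by
  funext l
  set c : Fin (X.d a) → Fin (X.d b) → Fin (X.d (a + b)) → Qb :=
    fun i j x => X.co (a + b) (X.e a i * X.e b j) x
  have e : ∀ i j x, X.co (a + b) (w i * w' j) x =
      ∑ s : Fin (X.d a), ∑ t : Fin (X.d b), c s t x * (X.co a (w i) s * X.co b (w' j) t) := by
    intro i j x
    rw [X.co_mul (hw i) (hw' j), Finset.sum_comm]
    refine Finset.sum_congr rfl fun t _ => ?_
    simp only [mulMat, Finset.sum_mul, c]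
    exact Finset.sum_congr rfl fun s _ => by ring
  have ep : ∀ p q : Equiv.Perm (Fin k), ∏ r, X.co (a + b) (w (p r) * w' (q r)) (l r) =
      ∑ I : Fin k → Fin (X.d a), ∑ J : Fin k → Fin (X.d b), (∏ r, c (I r) (J r) (l r)) *
        ((∏ r, X.co a (w (p r)) (I r)) * ∏ r, X.co b (w' (q r)) (J r)) := by
    intro p q
    simp only [e]
    rw [Fintype.prod_sum]
    refine Finset.sum_congr rfl fun I _ => ?_
    rw [Fintype.prod_sum]
    refine Finset.sum_congr rfl fun J _ => ?_
    rw [Finset.prod_mul_distrib, Finset.prod_mul_distrib]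
  simp only [dbl, psi, pl, plucker_eq_sum, ep, Finset.mul_sum, Finset.sum_mul]
  conv_lhs => enter [2, p]; rw [Finset.sum_comm]
  conv_lhs => rw [Finset.sum_comm]
  refine Finset.sum_congr rfl fun I _ => ?_
  conv_lhs => enter [2, p]; rw [Finset.sum_comm]
  conv_lhs => rw [Finset.sum_comm]
  refine Finset.sum_congr rfl fun J _ => ?_
  conv_lhs => rw [Finset.sum_comm]
  refine Finset.sum_congr rfl fun q _ => Finset.sum_congr rfl fun p _ => ?_
  ring

omit [IsFunctionField Qb F] in
theorem dbl_scale {N m k : ℕ} {u : F} {T : Fin k → Fin k → F} (hu : u ∈ X.V N)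
    (hT : ∀ i j, T i j ∈ X.V m) :
    X.dbl k (N + m) (fun i j => u * T i j) = tens k (X.mulMat N m (X.co N u)) (X.dbl k m T) := by
  funext l
  simp only [dbl, tens, X.co_mul hu (hT _ _), Fintype.prod_sum, Finset.mul_sum,
    Finset.prod_mul_distrib]
  rw [Finset.sum_comm (γ := Fin k → Fin (X.d m))]
  refine Finset.sum_congr rfl fun p _ => ?_
  rw [Finset.sum_comm (γ := Fin k → Fin (X.d m))]
  refine Finset.sum_congr rfl fun q _ => Finset.sum_congr rfl fun L _ => ?_
  ring

/-- Evaluation of a tensor at a tuple of places. -/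
def evalT (k m : ℕ) (P : Fin k → Place Qb F) (z : (Fin k → Fin (X.d m)) → Qb) : Qb :=
  ∑ l, (∏ r, X.φ (P r) m (l r)) * z l

theorem evalT_dbl {k m : ℕ} (P : Fin k → Place Qb F) {T : Fin k → Fin k → F}
    (hT : ∀ i j, T i j ∈ X.V m) :
    X.evalT k m P (X.dbl k m T) = ∑ p : Equiv.Perm (Fin k), ∑ q : Equiv.Perm (Fin k),
      ((Equiv.Perm.sign p : ℤ) : Qb) * ((Equiv.Perm.sign q : ℤ) : Qb) *
        ∏ r, X.evv (P r) m (T (p r) (q r)) := by
  simp only [evalT, dbl, X.evv_eq_sum _ (hT _ _), Fintype.prod_sum, Finset.mul_sum,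
    Finset.prod_mul_distrib]
  rw [Finset.sum_comm]
  refine Finset.sum_congr rfl fun p _ => ?_
  rw [Finset.sum_comm]
  refine Finset.sum_congr rfl fun q _ => Finset.sum_congr rfl fun l _ => ?_
  ring

theorem evalT_smul {k m : ℕ} (P : Fin k → Place Qb F) (c : Qb) (z : (Fin k → Fin (X.d m)) → Qb) :
    X.evalT k m P (c • z) = c * X.evalT k m P z := by
  simp only [evalT, Pi.smul_apply, smul_eq_mul, Finset.mul_sum]
  exact Finset.sum_congr rfl fun l _ => by ring

/-- If `u * T i j = w i * w' j`, evaluation of the tensor of `T` factors. -/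
theorem evalT_of_eq_mul {k N m a b : ℕ} (hab : N + m = a + b) (P : Fin k → Place Qb F) {u : F}
    {T : Fin k → Fin k → F} {w w' : Fin k → F} (hu : u ∈ X.V N) (hT : ∀ i j, T i j ∈ X.V m)
    (hw : ∀ i, w i ∈ X.V a) (hw' : ∀ i, w' i ∈ X.V b) (h : ∀ i j, u * T i j = w i * w' j) :
    (∏ r, X.evv (P r) N u) * X.evalT k m P (X.dbl k m T) =
      (Matrix.of fun r i => X.evv (P r) a (w i) : Matrix (Fin k) (Fin k) Qb).det *
        (Matrix.of fun r i => X.evv (P r) b (w' i) : Matrix (Fin k) (Fin k) Qb).det := by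
  rw [X.evalT_dbl P hT, ← Matrix.det_transpose, Matrix.det_apply', ← Matrix.det_transpose,
    Matrix.det_apply', Finset.sum_mul_sum, Finset.mul_sum]
  refine Finset.sum_congr rfl fun p _ => ?_
  rw [Finset.mul_sum]
  refine Finset.sum_congr rfl fun q _ => ?_
  have e : ∀ r, X.evv (P r) N u * X.evv (P r) m (T (p r) (q r)) =
      X.evv (P r) a (w (p r)) * X.evv (P r) b (w' (q r)) := fun r => by
    rw [← X.evv_mul _ hu (hT _ _), ← X.evv_mul _ (hw _) (hw' _), h, hab]
  simp only [Matrix.transpose_apply, Matrix.of_apply]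
  calc (∏ r, X.evv (P r) N u) * (((Equiv.Perm.sign p : ℤ) : Qb) * ((Equiv.Perm.sign q : ℤ) : Qb) *
        ∏ r, X.evv (P r) m (T (p r) (q r)))
      = ((Equiv.Perm.sign p : ℤ) : Qb) * ((Equiv.Perm.sign q : ℤ) : Qb) *
        ∏ r, (X.evv (P r) N u * X.evv (P r) m (T (p r) (q r))) := by
        rw [Finset.prod_mul_distrib]; ring
    _ = _ := by
        rw [Finset.prod_congr rfl fun r _ => e r, Finset.prod_mul_distrib]; ring

/-! ### The invariant of a standard pair -/

variable (F) in
/-- Level of the spaces attached to a standard pair. -/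
def lev : ℕ := a0 F + a0 F

/-- Dimension of the spaces attached to a standard pair. -/
def kk : ℕ := X.kdim (lev F) (a0 F)

theorem hlev : a0 F + bnd Qb F ≤ lev F := by simp only [lev, a0]; omega

theorem exists_kk : ∃ r, X.kk = r + 1 :=
  ⟨X.kk - 1, by have := X.one_le_kdim (m := lev F) (n := a0 F) hlev; simp only [kk]; omega⟩

/-- A frame of `L(lev • pt - D)`. -/
def IsFrame (D : Divisor Qb F) (w : Fin X.kk → F) : Prop :=
  LinearIndependent Qb w ∧ Submodule.span Qb (Set.range w) = X.W (lev F) D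

variable {X} in
theorem IsFrame.mem {D : Divisor Qb F} {w : Fin X.kk → F} (h : X.IsFrame D w) (i : Fin X.kk) :
    w i ∈ X.W (lev F) D := h.2 ▸ Submodule.subset_span ⟨i, rfl⟩

theorem isFrame_basisW {D : Divisor Qb F} (hD : 0 ≤ D) (hn : Divisor.degree D = a0 F) :
    X.IsFrame D (PLevel.basisW X (lev F) X.kk D) :=
  ⟨(PLevel.basisW_spec X hD hn hlev).1, (PLevel.basisW_spec X hD hn hlev).2.1⟩

/-- The table of quotients. -/
def tbl (w w' : Fin X.kk → F) (u : F) (i j : Fin X.kk) : F := w i * w' j / u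

theorem tbl_mem {D D' : Divisor Qb F} {u : F} (h : X.IsPair (a0 F) (a0 F) D D' u)
    {w w' : Fin X.kk → F} (hw : X.IsFrame D w) (hw' : X.IsFrame D' w') (i j : Fin X.kk) :
    X.tbl w w' u i j ∈ X.V (lev F) := by
  rcases eq_or_ne (w i * w' j) 0 with h0 | h0
  · rw [tbl, h0, zero_div]; exact zero_mem _
  refine mem_L_of_le fun v => ?_
  have e1 := neg_le_ord (hw.mem i) (left_ne_zero_of_mul h0) v
  have e2 := neg_le_ord (hw'.mem j) (right_ne_zero_of_mul h0) v
  have e3 := DFunLike.congr_fun h.div_eq v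
  simp only [zdiv, lev, Nat.cast_add, Finsupp.single_add, Finsupp.sub_apply, Finsupp.add_apply,
    div_apply] at e1 e2 e3 ⊢
  rw [tbl, FF.ord_div v h0 h.ne, v.ord_mul (left_ne_zero_of_mul h0) (right_ne_zero_of_mul h0)]
  omega

/-- The invariant of a standard pair. -/
def phi (D D' : Divisor Qb F) (u : F) : (Fin X.kk → Fin (X.d (lev F))) → Qb :=
  X.dbl X.kk (lev F)
    (X.tbl (PLevel.basisW X (lev F) X.kk D) (PLevel.basisW X (lev F) X.kk D') u)

theorem tens_phi {D D' : Divisor Qb F} {u : F} (h : X.IsPair (a0 F) (a0 F) D D' u)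
    {w w' : Fin X.kk → F} (hw : X.IsFrame D w) (hw' : X.IsFrame D' w') :
    tens X.kk (X.mulMat (lev F) (lev F) (X.co (lev F) u))
        (X.dbl X.kk (lev F) (X.tbl w w' u)) =
      X.psi (lev F) (lev F) X.kk (X.pl (lev F) w) (X.pl (lev F) w') := by
  rw [← X.dbl_scale (m := lev F) (show u ∈ X.V (lev F) from h.mem) (X.tbl_mem h hw hw'),
    ← X.dbl_mul (fun i => X.W_le h.nonneg (hw.mem i)) (fun i => X.W_le h.nonneg' (hw'.mem i))]
  exact congrArg (X.dbl X.kk _) (funext₂ fun i j => mul_div_cancel₀ _ h.ne)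

/-- Any pair of frames gives the invariant of a pair up to a nonzero scalar. -/
theorem phi_frame {D D' : Divisor Qb F} {u : F} (h : X.IsPair (a0 F) (a0 F) D D' u)
    {w w' : Fin X.kk → F} (hw : X.IsFrame D w) (hw' : X.IsFrame D' w') :
    ∃ c : Qb, c ≠ 0 ∧ X.dbl X.kk (lev F) (X.tbl w w' u) = c • X.phi D D' u := by
  classical
  set b := PLevel.basisW X (lev F) X.kk D
  set b' := PLevel.basisW X (lev F) X.kk D'
  have hb : X.IsFrame D b := X.isFrame_basisW h.nonneg h.deg
  have hb' : X.IsFrame D' b' := X.isFrame_basisW h.nonneg' h.deg'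
  obtain ⟨c, hc, e⟩ := X.exists_pl_proportional (m := lev F) (w := b) (w' := w)
    (fun j => X.W_le h.nonneg (hb.mem j)) hw.1 fun j => by rw [hb.2]; exact hw.mem j
  obtain ⟨c', hc', e'⟩ := X.exists_pl_proportional (m := lev F) (w := b') (w' := w')
    (fun j => X.W_le h.nonneg' (hb'.mem j)) hw'.1 fun j => by rw [hb'.2]; exact hw'.mem j
  refine ⟨c * c', mul_ne_zero hc hc',
    tens_injective (X.mulMat_injective (X.co_ne_zero (show u ∈ X.V (lev F) from h.mem) h.ne)) ?_⟩
  rw [tens_smul, phi, X.tens_phi h hb hb', X.tens_phi h hw hw', e, e']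
  funext l
  simp only [psi, Pi.smul_apply, smul_eq_mul, Finset.mul_sum]
  exact Finset.sum_congr rfl fun I _ => Finset.sum_congr rfl fun J _ => by ring

theorem det_adapted {r : ℕ} (P : Fin r → Place Qb F) (Q : Place Qb F) (m : ℕ)
    (w : Fin (r + 1) → F) (h0 : ∀ i, X.evv (P i) m (w 0) = 0)
    (h1 : ∀ i (j : Fin r), X.evv (P i) m (w j.succ) = if i = j then 1 else 0) :
    (Matrix.of fun s i => X.evv (Fin.cons (α := fun _ => Place Qb F) Q P s) m (w i) :
      Matrix (Fin (r + 1)) (Fin (r + 1)) Qb).det = X.evv Q m (w 0) := by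
  rw [Matrix.det_succ_column_zero, Fin.sum_univ_succ]
  simp only [Fin.val_zero, pow_zero, one_mul, Matrix.of_apply, Fin.cons_zero, Fin.cons_succ, h0,
    mul_zero, zero_mul, Finset.sum_const_zero, add_zero]
  have : (Matrix.submatrix (Matrix.of fun s i =>
      X.evv (Fin.cons (α := fun _ => Place Qb F) Q P s) m (w i))
        (Fin.succAbove 0) Fin.succ : Matrix (Fin r) (Fin r) Qb) = 1 := by
    ext i j
    simp [h1, Matrix.one_apply]
  rw [this, Matrix.det_one, mul_one]

/-- The invariant of a standard pair is not zero. -/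
theorem phi_ne_zero {D D' : Divisor Qb F} {u : F} (h : X.IsPair (a0 F) (a0 F) D D' u) :
    X.phi D D' u ≠ 0 := by
  obtain ⟨r, hr⟩ := X.exists_kk
  let S : Bool → Submodule Qb F := fun t => bif t then X.W (lev F) D else X.W (lev F) D'
  obtain ⟨P, hP⟩ := X.exists_adapted (fun _ : Bool => lev F) S r
    (fun t => by cases t <;> simp [S, X.W_le h.nonneg, X.W_le h.nonneg'])
    (fun t => by
      cases t
      · exact (X.finrank_W h.deg' hlev).trans hr
      · exact (X.finrank_W h.deg hlev).trans hr)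
  obtain ⟨w, hwm, hw0, hwi, hws, hwP, hwP'⟩ := hP true
  obtain ⟨w', hwm', hw0', hwi', hws', hwP0, hwP1⟩ := hP false
  obtain ⟨Q, hQ⟩ := X.exists_evv_ne_zero (fun _ : Bool => lev F)
    (fun t => bif t then w 0 else w' 0)
    (fun t => by cases t; exacts [X.W_le h.nonneg' (hwm' 0), X.W_le h.nonneg (hwm 0)])
    (fun t => by cases t; exacts [hw0', hw0])
  have hfw : X.IsFrame D (w ∘ Fin.cast hr) :=
    ⟨hwi.comp _ (Fin.cast_injective _), by
      rw [(Fin.cast_injective hr).surjective_of_finite (finCongr hr) |>.range_comp]; exact hws⟩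
  have hfw' : X.IsFrame D' (w' ∘ Fin.cast hr) :=
    ⟨hwi'.comp _ (Fin.cast_injective _), by
      rw [(Fin.cast_injective hr).surjective_of_finite (finCongr hr) |>.range_comp]; exact hws'⟩
  obtain ⟨c, hc, e⟩ := X.phi_frame h hfw hfw'
  intro h0
  have hev := X.evalT_of_eq_mul (a := lev F) (b := lev F) (m := lev F) (N := lev F) rfl
    (fun s => Fin.cons (α := fun _ => Place Qb F) Q P (Fin.cast hr s))
    (show u ∈ X.V (lev F) from h.mem) (X.tbl_mem h hfw hfw') (fun i => X.W_le h.nonneg (hfw.mem i))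
    (fun i => X.W_le h.nonneg' (hfw'.mem i)) (fun i j => mul_div_cancel₀ _ h.ne)
  rw [e, h0, X.evalT_smul] at hev
  simp only [evalT, Pi.zero_apply, mul_zero, Finset.sum_const_zero] at hev
  have hdet : ∀ (v : Fin (r + 1) → F), (Matrix.of fun s i =>
      X.evv (Fin.cons (α := fun _ => Place Qb F) Q P (Fin.cast hr s)) (lev F)
        ((v ∘ Fin.cast hr) i) :
        Matrix (Fin X.kk) (Fin X.kk) Qb).det =
      (Matrix.of fun s i => X.evv (Fin.cons (α := fun _ => Place Qb F) Q P s) (lev F) (v i) :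
        Matrix (Fin (r + 1)) (Fin (r + 1)) Qb).det := fun v =>
    Matrix.det_submatrix_equiv_self (finCongr hr)
      (Matrix.of fun s i => X.evv (Fin.cons (α := fun _ => Place Qb F) Q P s) (lev F) (v i) :
        Matrix (Fin (r + 1)) (Fin (r + 1)) Qb)
  rw [hdet, hdet, X.det_adapted P Q _ w hwP hwP', X.det_adapted P Q _ w' hwP0 hwP1] at hev
  exact mul_ne_zero (hQ true) (hQ false) hev.symm

/-- The invariant of a pair depends on the class only, up to a scalar. -/
theorem phi_congr {D D' E E' : Divisor Qb F} {u v : F} (h : X.IsPair (a0 F) (a0 F) D D' u)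
    (h' : X.IsPair (a0 F) (a0 F) E E' v) (he : X.cls (a0 F) D = X.cls (a0 F) E) :
    ∃ c : Qb, c ≠ 0 ∧ X.phi E E' v = c • X.phi D D' u := by
  obtain ⟨z, hz0, hz⟩ := (X.cls_eq_zero_iff (n := a0 F + a0 F) (D := D + E')
    (by rw [map_add, h.deg, h'.deg']; push_cast; rfl)).mp
    (by rw [X.cls_add h.deg h'.deg', he, h'.cls', add_neg_cancel])
  set e := PLevel.basisW X (lev F) X.kk E
  set e' := PLevel.basisW X (lev F) X.kk E'
  have hfe : X.IsFrame E e := X.isFrame_basisW h'.nonneg h'.deg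
  have hfe' : X.IsFrame E' e' := X.isFrame_basisW h'.nonneg' h'.deg'
  have frame : ∀ (g : F) (A B : Divisor Qb F) (b : Fin X.kk → F), g ≠ 0 →
      Divisor.degree A = a0 F → 0 ≤ A → X.IsFrame B b → (∀ v : Place Qb F, v.ord g = A v - B v) →
      X.IsFrame A (fun i => g * b i) := by
    intro g A B b hg hA hA0 hb hord
    have hind : LinearIndependent Qb fun i => g * b i :=
      hb.1.map' (LinearMap.mulLeft Qb g) (LinearMap.ker_eq_bot.mpr (mul_right_injective₀ hg))
    refine ⟨hind, ?_⟩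
    have := X.finiteDimensional_of_le (X.W_le (m := lev F) hA0)
    refine Submodule.eq_of_le_of_finrank_eq (Submodule.span_le.mpr ?_)
      (by rw [Coords.finrank_span_eq hind, X.finrank_W hA hlev]; rfl)
    rintro _ ⟨i, rfl⟩
    refine mem_L_of_le fun v => ?_
    have := neg_le_ord (hb.mem i) (hb.1.ne_zero i) v
    rw [v.ord_mul hg (hb.1.ne_zero i), hord v]
    simp only [Finsupp.sub_apply] at this ⊢
    omega
  have hw := frame (z / v) D E e (div_ne_zero hz0 h'.ne) h.deg h.nonneg hfe fun p => by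
    have a1 := DFunLike.congr_fun hz p
    have a2 := DFunLike.congr_fun h'.div_eq p
    simp only [zdiv, Finsupp.add_apply, div_apply] at a1 a2
    rw [FF.ord_div p hz0 h'.ne]; omega
  have hw' := frame (u / z) D' E' e' (div_ne_zero h.ne hz0) h.deg' h.nonneg' hfe' fun p => by
    have a1 := DFunLike.congr_fun hz p
    have a2 := DFunLike.congr_fun h.div_eq p
    simp only [zdiv, Finsupp.add_apply, div_apply] at a1 a2
    rw [FF.ord_div p h.ne hz0]; omega
  obtain ⟨c, hc, hce⟩ := X.phi_frame h hw hw'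
  refine ⟨c, hc, ?_⟩
  rw [← hce, phi]
  refine congrArg (X.dbl X.kk (lev F)) (funext₂ fun i j => ?_)
  have := h.ne; have := h'.ne
  simp only [tbl, e, e']
  field_simp

theorem habs_phi_le : ∃ C, ∀ (D D' : Divisor Qb F) (u : F), X.IsPair (a0 F) (a0 F) D D' u →
    habs (X.phi D D' u) ≤ X.pairH (a0 F) (a0 F) (a0 F) D D' u + C := by
  classical
  obtain ⟨C₁, h₁⟩ := X.action_bounds (lev F) (lev F) X.kk
  obtain ⟨C₂, h₂⟩ := habs_linear_le (fun (l : Fin X.kk → Fin (X.d (lev F + lev F)))
    (IJ : (Fin X.kk → Fin (X.d (lev F))) × (Fin X.kk → Fin (X.d (lev F)))) =>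
    ∏ r, X.co (lev F + lev F) (X.e (lev F) (IJ.1 r) * X.e (lev F) (IJ.2 r)) (l r))
  refine ⟨C₁ + C₂, fun D D' u h => ?_⟩
  set b := PLevel.basisW X (lev F) X.kk D
  set b' := PLevel.basisW X (lev F) X.kk D'
  obtain ⟨hb, hbW⟩ : X.pl (lev F) b ≠ 0 ∧ X.hW (lev F) D = habs (X.pl (lev F) b) :=
    (PLevel.basisW_spec X (m := lev F) h.nonneg h.deg hlev).2.2.2
  obtain ⟨hb', hbW'⟩ : X.pl (lev F) b' ≠ 0 ∧ X.hW (lev F) D' = habs (X.pl (lev F) b') :=
    (PLevel.basisW_spec X (m := lev F) h.nonneg' h.deg' hlev).2.2.2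
  have hu : u ∈ X.V (lev F) := h.mem
  have a1 := (abs_le.mp (h₁ _ _ (X.co_ne_zero hu h.ne) (X.phi_ne_zero h))).1
  rw [phi, X.tens_phi h (X.isFrame_basisW h.nonneg h.deg) (X.isFrame_basisW h.nonneg' h.deg')] at a1
  have a2 := h₂ (fun IJ => X.pl (lev F) b IJ.1 * X.pl (lev F) b' IJ.2)
  rw [habs_mul_table hb hb'] at a2
  simp only [Fintype.sum_prod_type] at a2
  simp only [pairH, hv]
  rw [show a0 F + a0 F = lev F from rfl, hbW, hbW', show X.kdim (a0 F) 0 = X.kk from
    (X.kdim_shift (a0 F) (a0 F)).symm]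
  unfold psi at a1
  rw [phi]
  linarith

/-! ### Finite fibres -/

theorem exists_residual {D D' : Divisor Qb F} {u : F} (h : X.IsPair (a0 F) (a0 F) D D' u) {f : F}
    (hf : f ∈ X.W (lev F) D) (hf0 : f ≠ 0) :
    ∃ G : Divisor Qb F, 0 ≤ G ∧ Divisor.degree G = a0 F ∧ X.zdiv (lev F) f = D + G ∧
      X.cls (a0 F) D = -X.cls (a0 F) G := by
  refine ⟨X.zdiv (lev F) f - D, sub_nonneg.mpr (Finsupp.le_def.mpr fun v => ?_), ?_,
    (add_sub_cancel _ _).symm, ?_⟩
  · have := neg_le_ord hf hf0 v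
    simp only [Finsupp.sub_apply] at this
    simp only [zdiv, Finsupp.add_apply, div_apply]
    omega
  · rw [map_sub, X.degree_zdiv, h.deg, lev]; push_cast; ring
  · have hG : Divisor.degree (X.zdiv (lev F) f - D) = a0 F := by
      rw [map_sub, X.degree_zdiv, h.deg, lev]; push_cast; ring
    rw [eq_neg_iff_add_eq_zero, ← X.cls_add h.deg hG, add_sub_cancel,
      X.cls_eq_zero_iff (by rw [X.degree_zdiv]; rfl)]
    exact ⟨f, hf0, rfl⟩

theorem card_le_of_le {n : ℕ} {Z : Divisor Qb F} (hn : Divisor.degree Z = n)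
    (s : Finset (Divisor Qb F)) (hs : ∀ G ∈ s, 0 ≤ G ∧ G ≤ Z) : s.card ≤ (n + 1) ^ n := by
  classical
  rcases s.eq_empty_or_nonempty with rfl | ⟨G₀, hG₀⟩
  · simp
  have hZ : 0 ≤ Z := le_trans (hs G₀ hG₀).1 (hs G₀ hG₀).2
  -- The multiplicities and the size of the support are at most the degree `n`.
  have hsup : ∀ v, Z v ≤ n := fun v => by
    by_cases hv : Z v = 0
    · omega
    have hle : Finsupp.single v (Z v) ≤ Z := Finsupp.le_def.mpr fun w => by
      rw [Finsupp.single_apply]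
      split_ifs with h
      · subst h; exact le_rfl
      · exact Finsupp.le_def.mp hZ w
    have := FF.degree_mono hle
    rw [FF.degree_single_one, hn] at this
    exact this
  have hcard : Z.support.card ≤ n := by
    have hle : ∑ v ∈ Z.support, Finsupp.single v (1 : ℤ) ≤ Z := Finsupp.le_def.mpr fun w => by
      rw [Finsupp.finsetSum_apply]
      simp only [Finsupp.single_apply, Finset.sum_ite_eq', Finsupp.mem_support_iff]
      have := Finsupp.le_def.mp hZ w
      simp only [Finsupp.zero_apply] at this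
      split_ifs <;> omega
    have := FF.degree_mono hle
    rw [map_sum, hn] at this
    simp only [FF.degree_single_one, Finset.sum_const, nsmul_eq_mul, mul_one] at this
    exact_mod_cast this
  have hb : ∀ (G : {G // G ∈ s}) (v : Place Qb F), 0 ≤ (G : Divisor Qb F) v ∧
      (G : Divisor Qb F) v ≤ n := fun G v =>
    ⟨Finsupp.le_def.mp (hs G G.2).1 v, le_trans (Finsupp.le_def.mp (hs G G.2).2 v) (hsup v)⟩
  let f : {G // G ∈ s} → ({v // v ∈ Z.support} → Fin (n + 1)) := fun G v =>
    ⟨((G : Divisor Qb F) v).toNat, by have := hb G v; omega⟩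
  -- So the multiplicities on the support determine the divisor.
  have hinj : Function.Injective f := by
    intro G G' he
    refine Subtype.ext (Finsupp.ext fun v => ?_)
    have h1 := Finsupp.le_def.mp (hs G G.2).2 v
    have h2 := Finsupp.le_def.mp (hs G' G'.2).2 v
    have h3 := hb G v; have h4 := hb G' v
    by_cases hv : v ∈ Z.support
    · have : ((G : Divisor Qb F) v).toNat = ((G' : Divisor Qb F) v).toNat :=
        congrArg Fin.val (congrFun he ⟨v, hv⟩)
      omega
    · rw [Finsupp.notMem_support_iff] at hv; omega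
  have := Fintype.card_le_of_injective f hinj
  simp only [Fintype.card_coe, Fintype.card_fun, Fintype.card_fin] at this
  exact le_trans this (Nat.pow_le_pow_right (Nat.succ_pos n) hcard)

/-- Evaluated at `Q` and at adapted points, the invariant is the product of the values at `Q` of
the first members of the adapted frames over the value of `u`. -/
private theorem exists_evalT_mul_eq {D D' : Divisor Qb F} {u : F}
    (hp : X.IsPair (a0 F) (a0 F) D D' u) {c : Qb} {v : (Fin X.kk → Fin (X.d (lev F))) → Qb}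
    (hphi : X.phi D D' u = c • v) {r : ℕ} (hr : X.kk = r + 1) (P : Fin r → Place Qb F)
    {w w' : Fin (r + 1) → F} (hwi : LinearIndependent Qb w)
    (hws : Submodule.span Qb (Set.range w) = X.W (lev F) D)
    (hwP : ∀ i, X.evv (P i) (lev F) (w 0) = 0)
    (hwP' : ∀ i (j : Fin r), X.evv (P i) (lev F) (w j.succ) = if i = j then 1 else 0)
    (hwi' : LinearIndependent Qb w') (hws' : Submodule.span Qb (Set.range w') = X.W (lev F) D')
    (hwP0 : ∀ i, X.evv (P i) (lev F) (w' 0) = 0)
    (hwP1 : ∀ i (j : Fin r), X.evv (P i) (lev F) (w' j.succ) = if i = j then 1 else 0) :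
    ∃ β : Qb, ∀ Q : Place Qb F,
      X.evalT X.kk (lev F) (fun i => Fin.cons (α := fun _ => Place Qb F) Q P (Fin.cast hr i)) v *
          (β * X.evv Q (lev F) u) = X.evv Q (lev F) (w 0) * X.evv Q (lev F) (w' 0) := by
  have hfw : X.IsFrame D (w ∘ Fin.cast hr) :=
    ⟨hwi.comp _ (Fin.cast_injective _), by
      rw [(Fin.cast_injective hr).surjective_of_finite (finCongr hr) |>.range_comp]; exact hws⟩
  have hfw' : X.IsFrame D' (w' ∘ Fin.cast hr) :=
    ⟨hwi'.comp _ (Fin.cast_injective _), by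
      rw [(Fin.cast_injective hr).surjective_of_finite (finCongr hr) |>.range_comp]
      exact hws'⟩
  -- The invariant in the adapted frames is a multiple of the table.
  obtain ⟨d, hd, e⟩ := X.phi_frame hp hfw hfw'
  refine ⟨d * c * ∏ i, X.evv (P i) (lev F) u, fun Q => ?_⟩
  -- At `Q` and the adapted points both determinants reduce to the first members.
  have hev := X.evalT_of_eq_mul (a := lev F) (b := lev F) (m := lev F) (N := lev F) rfl
    (fun i => Fin.cons (α := fun _ => Place Qb F) Q P (Fin.cast hr i))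
    (show u ∈ X.V (lev F) from hp.mem) (X.tbl_mem hp hfw hfw')
    (fun i => X.W_le hp.nonneg (hfw.mem i))
    (fun i => X.W_le hp.nonneg' (hfw'.mem i)) (fun i j => mul_div_cancel₀ _ hp.ne)
  have hdet : ∀ (b : Fin (r + 1) → F), (Matrix.of fun i j =>
      X.evv (Fin.cons (α := fun _ => Place Qb F) Q P (Fin.cast hr i)) (lev F)
        ((b ∘ Fin.cast hr) j) : Matrix (Fin X.kk) (Fin X.kk) Qb).det =
      (Matrix.of fun i j => X.evv (Fin.cons (α := fun _ => Place Qb F) Q P i) (lev F) (b j) :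
        Matrix (Fin (r + 1)) (Fin (r + 1)) Qb).det := fun b =>
    Matrix.det_submatrix_equiv_self (finCongr hr)
      (Matrix.of fun i j => X.evv (Fin.cons (α := fun _ => Place Qb F) Q P i) (lev F) (b j) :
        Matrix (Fin (r + 1)) (Fin (r + 1)) Qb)
  have hprod : (∏ i, X.evv (Fin.cons (α := fun _ => Place Qb F) Q P (Fin.cast hr i)) (lev F) u)
      = X.evv Q (lev F) u * ∏ i, X.evv (P i) (lev F) u := by
    refine ((finCongr hr).prod_comp
      (fun i => X.evv (Fin.cons (α := fun _ => Place Qb F) Q P i) (lev F) u)).trans ?_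
    rw [Fin.prod_univ_succ]
    simp
  rw [e, hphi, X.evalT_smul, X.evalT_smul, hprod, hdet, hdet,
    X.det_adapted P Q _ w hwP hwP',
    X.det_adapted P Q _ w' hwP0 hwP1] at hev
  rw [← hev]; ring

/-- The set of classes with a given invariant, up to scalars, is finite. -/
theorem finite_phi_fibre (v : (Fin X.kk → Fin (X.d (lev F))) → Qb) :
    {y : Pic0 Qb F | ∃ D D' u, X.IsPair (a0 F) (a0 F) D D' u ∧ X.cls (a0 F) D = y ∧
      ∃ c : Qb, c ≠ 0 ∧ X.phi D D' u = c • v}.Finite := by
  classical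
  set B := (2 * a0 F + 1) ^ (2 * a0 F)
  by_contra hinf
  obtain ⟨s, hs, hcard⟩ := Set.Infinite.exists_subset_card_eq hinf (B + 1)
  obtain ⟨x, hx⟩ : s.Nonempty := Finset.card_pos.mp (by omega)
  choose D D' u hp hcls c hc hphi using fun y : s => hs y.2
  obtain ⟨r, hr⟩ := X.exists_kk
  let S : s × Bool → Submodule Qb F :=
    fun t => bif t.2 then X.W (lev F) (D t.1) else X.W (lev F) (D' t.1)
  obtain ⟨P, hP⟩ := X.exists_adapted (fun _ : s × Bool => lev F) S r
    (fun t => by
      obtain ⟨y, b⟩ := t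
      cases b <;> simp [S, X.W_le (hp y).nonneg, X.W_le (hp y).nonneg'])
    (fun t => by
      obtain ⟨y, b⟩ := t
      cases b
      · exact (X.finrank_W (hp y).deg' hlev).trans hr
      · exact (X.finrank_W (hp y).deg hlev).trans hr)
  choose w hwm hw0 hwi hws hwP hwP' using fun y : s => hP (y, true)
  choose w' hwm' hw0' hwi' hws' hwP0 hwP1 using fun y : s => hP (y, false)
  have hf : ∀ y, w y 0 ∈ X.W (lev F) (D y) := fun y => hwm y 0
  have hf' : ∀ y, w' y 0 ∈ X.W (lev F) (D' y) := fun y => hwm' y 0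
  choose G hG hGdeg hGdiv hGcls using fun y => X.exists_residual (hp y) (hf y) (hw0 y)
  choose G' hG' hGdeg' hGdiv' _hGcls' using fun y => X.exists_residual (hp y).symm (hf' y) (hw0' y)
  -- the identity at every place
  have key : ∀ y : s, ∃ β : Qb, ∀ Q : Place Qb F,
      X.evalT X.kk (lev F) (fun i => Fin.cons (α := fun _ => Place Qb F) Q P (Fin.cast hr i)) v *
          (β * X.evv Q (lev F) (u y)) =
        X.evv Q (lev F) (w y 0) * X.evv Q (lev F) (w' y 0) := by
    exact fun y => X.exists_evalT_mul_eq (hp y) (hphi y) hr P (hwi y) (hws y) (hwP y) (hwP' y)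
      (hwi' y) (hws' y) (hwP0 y) (hwP1 y)
  choose β hβ using key
  set x₀ : s := ⟨x, hx⟩
  have hle : ∀ y, G y ≤ G x₀ + G' x₀ := by
    intro y
    have hβ0 : ∀ y, β y ≠ 0 := fun y h0 => by
      obtain ⟨Q, hQ⟩ := X.exists_evv_ne_zero (fun _ : Bool => lev F)
        (fun t => bif t then w y 0 else w' y 0)
        (fun t => by cases t; exacts [X.W_le (hp y).nonneg' (hf' y), X.W_le (hp y).nonneg (hf y)])
        (fun t => by cases t; exacts [hw0' y, hw0 y])
      have := hβ y Q
      rw [h0, zero_mul, mul_zero] at this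
      exact mul_ne_zero (hQ true) (hQ false) this.symm
    set f₁ := u x₀ * (w y 0 * w' y 0)
    set f₂ := u y * (w x₀ 0 * w' x₀ 0)
    have hm : ∀ a b : s, u a ∈ X.V (lev F) ∧ w b 0 * w' b 0 ∈ X.V (lev F + lev F) := fun a b =>
      ⟨(hp a).mem, X.mul_mem_V (X.W_le (hp b).nonneg (hf b)) (X.W_le (hp b).nonneg' (hf' b))⟩
    have h1 : f₁ ∈ X.V (lev F + (lev F + lev F)) := X.mul_mem_V (hm x₀ y).1 (hm x₀ y).2
    have h2 : f₂ ∈ X.V (lev F + (lev F + lev F)) := X.mul_mem_V (hm y x₀).1 (hm y x₀).2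
    have heq : β x₀ • f₁ = β y • f₂ := by
      rw [← sub_eq_zero]
      refine X.eq_zero_of_forall_evv (m := lev F + (lev F + lev F))
        (sub_mem (Submodule.smul_mem _ _ h1) (Submodule.smul_mem _ _ h2)) fun Q => ?_
      rw [sub_eq_add_neg, ← neg_smul, X.evv_add _ (Submodule.smul_mem _ _ h1)
        (Submodule.smul_mem _ _ h2), X.evv_smul _ _ h1, X.evv_smul _ _ h2,
        X.evv_mul _ (hm x₀ y).1 (hm x₀ y).2, X.evv_mul _ (hm y x₀).1 (hm y x₀).2,
        X.evv_mul _ (X.W_le (hp y).nonneg (hf y)) (X.W_le (hp y).nonneg' (hf' y)),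
        X.evv_mul _ (X.W_le (hp x₀).nonneg (hf x₀)) (X.W_le (hp x₀).nonneg' (hf' x₀)),
        ← hβ y Q, ← hβ x₀ Q]
      ring
    refine Finsupp.le_def.mpr fun p => ?_
    have eord := congrArg p.ord heq
    have hn := fun a : s => (hp a).ne
    rw [Algebra.smul_def, Algebra.smul_def,
      p.ord_mul (by simpa using hβ0 x₀) (mul_ne_zero (hn x₀) (mul_ne_zero (hw0 y) (hw0' y))),
      p.ord_mul (by simpa using hβ0 y) (mul_ne_zero (hn y) (mul_ne_zero (hw0 x₀) (hw0' x₀))),
      FF.ord_algebraMap, FF.ord_algebraMap, p.ord_mul (hn x₀) (mul_ne_zero (hw0 y) (hw0' y)),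
      p.ord_mul (hn y) (mul_ne_zero (hw0 x₀) (hw0' x₀)), p.ord_mul (hw0 y) (hw0' y),
      p.ord_mul (hw0 x₀) (hw0' x₀)] at eord
    have a1 := DFunLike.congr_fun (hGdiv y) p
    have a2 := DFunLike.congr_fun (hGdiv' y) p
    have a3 := DFunLike.congr_fun (hGdiv x₀) p
    have a4 := DFunLike.congr_fun (hGdiv' x₀) p
    have a5 := DFunLike.congr_fun (hp y).div_eq p
    have a6 := DFunLike.congr_fun (hp x₀).div_eq p
    have a7 := Finsupp.le_def.mp (hG' y) p
    simp only [zdiv, lev, Nat.cast_add, Finsupp.single_add, Finsupp.add_apply, Finsupp.zero_apply,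
      div_apply] at a1 a2 a3 a4 a5 a6 a7 ⊢
    omega
  have hinj : Function.Injective G := fun y y' he => by
    apply Subtype.ext
    rw [← hcls y, ← hcls y', hGcls y, hGcls y', he]
  have := card_le_of_le (n := 2 * a0 F) (Z := G x₀ + G' x₀)
    (by rw [map_add, hGdeg, hGdeg']; push_cast; ring) (Finset.univ.image G) (fun g hg => by
      obtain ⟨y, -, rfl⟩ := Finset.mem_image.mp hg
      exact ⟨hG y, hle y⟩)
  rw [Finset.card_image_of_injective _ hinj, Finset.card_univ, Fintype.card_coe, hcard] at this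
  omega

end Coords

end Fermat.Agent.MordellWeil
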