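import Fermat.Agent.MordellWeil.WeakMW
import Fermat.Agent.Mazur.Eisenstein.Cusps
import Fermat.Agent.ModFun.Field

/-!
# Coordinates on `X₀(N)` by coefficients of expansions
-/

set_option autoImplicit false

noncomputable section

open AlgebraicCurve ModularCurve Fermat.Agent.FF

attribute [local instance 20000] SubalgebraClass.toAlgebra

namespace Fermat.Agent.MordellWeil

open Fermat.Agent.Genus (Fbar)
open Fermat.Agent.Mazur.Eisenstein (placeInf)

variable (N : ℕ) [NeZero N]

/-- The coefficient functional at an exponent. -/
def coeffFun (m : ℕ) (e : ℤ) : Module.Dual Qb ↥(level (placeInf N) m) where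
  toFun f := ((f : Fbar N) : LaurentSeries Qb).coeff e
  map_add' f g := by simp
  map_smul' c f := by
    simp only [SetLike.val_smul, RingHom.id_apply]
    rw [Algebra.smul_def, algebraMap_laurentSeries_eq_single,
      HahnSeries.coeff_single_zero_mul]
    rfl

/-- Finitely many coefficients of expansions at `∞` are coordinates on `L(m ∞)`. -/
theorem exists_exponents (m : ℕ) : ∃ (d : ℕ) (e : Fin d → ℤ),
    Function.Bijective fun (f : ↥(level (placeInf N) m)) i => coeffFun N m (e i) f := by
  have : FiniteDimensional Qb ↥(level (placeInf N) m) :=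
    finiteDimensional_riemannRochSpace (K := Qb) (Finsupp.single (placeInf N) (m : ℤ))
  obtain ⟨b, hb, hspan, hind⟩ :=
    exists_linearIndependent Qb (Set.range (coeffFun N m))
  have hbfin : b.Finite := hind.set_finite_of_isNoetherian
  have := hbfin.fintype
  choose e he using fun x : b => hb x.2
  let ι := (Fintype.equivFin b).symm
  refine ⟨Fintype.card b, fun i => e (ι i), ?_⟩
  have hinj : Function.Injective
      fun (f : ↥(level (placeInf N) m)) i => coeffFun N m (e (ι i)) f := by
    intro f g hfg
    have hall : ∀ φ ∈ Submodule.span Qb b, φ f = φ g := fun φ hφ => by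
      induction hφ using Submodule.span_induction with
      | mem φ hφ =>
        obtain ⟨i, hi⟩ := ι.surjective ⟨φ, hφ⟩
        have := congrFun hfg i
        simp only [he, hi] at this
        exact this
      | zero => rfl
      | add φ ψ _ _ h1 h2 => simp [h1, h2]
      | smul c φ _ h => simp [h]
    refine Subtype.ext (Subtype.ext (HahnSeries.ext (funext fun k => ?_)))
    exact hall _ (hspan.ge (Submodule.subset_span ⟨k, rfl⟩))
  refine ⟨hinj, ?_⟩
  let L : ↥(level (placeInf N) m) →ₗ[Qb] (Fin (Fintype.card b) → Qb) :=
    LinearMap.pi fun i => coeffFun N m (e (ι i))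
  have hle : Fintype.card b ≤ Module.finrank Qb ↥(level (placeInf N) m) := by
    rw [← Subspace.dual_finrank_eq]
    exact hind.fintype_card_le_finrank
  have hge := LinearMap.finrank_le_finrank_of_injective (f := L) hinj
  rw [Module.finrank_fin_fun] at hge
  exact (LinearMap.injective_iff_surjective_of_finrank_eq_finrank
    (by rw [Module.finrank_fin_fun]; omega)).mp (show Function.Injective L from hinj)

/-- The exponents. -/
def expo (m : ℕ) : Fin (exists_exponents N m).choose → ℤ :=
  (exists_exponents N m).choose_spec.choose

/-- Coordinates on `X₀(N)`. -/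
def x0Coords : Coords (Fbar N) where
  pt := placeInf N
  d m := (exists_exponents N m).choose
  coord m := LinearEquiv.ofBijective (LinearMap.pi fun i => coeffFun N m (expo N m i))
    (exists_exponents N m).choose_spec.choose_spec

/-- The coordinates of a function are coefficients of its expansion. -/
theorem co_x0Coords (m : ℕ) {f : Fbar N} (hf : f ∈ (x0Coords N).V m)
    (i : Fin ((x0Coords N).d m)) :
    (x0Coords N).co m f i = (f : LaurentSeries Qb).coeff (expo N m i) := by
  rw [(x0Coords N).co_of_mem hf]
  rfl

/-- Galois preserves `L(m ∞)`. -/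
theorem galois_mem_level (σ : Qb ≃ₐ[ℚ] Qb) {m : ℕ} {f : Fbar N}
    (hf : f ∈ (x0Coords N).V m) :
    arithmeticGalois (L := Qb) (modularFunctionFieldFull N) σ • f ∈ (x0Coords N).V m := by
  classical
  set g := arithmeticGalois (L := Qb) (modularFunctionFieldFull N) σ
  rcases eq_or_ne f 0 with rfl | h0
  · rw [smul_zero]; exact zero_mem _
  have hg : g⁻¹ • placeInf N = placeInf N := by
    rw [inv_smul_eq_iff]; exact (Mazur.Eisenstein.galois_smul_placeInf N σ).symm
  refine mem_L_of_le fun w => ?_
  have h1 := neg_le_ord (D := Finsupp.single (placeInf N) (m : ℤ)) hf h0 (g⁻¹ • w)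
  have h2 := SemilinearAut.ord_smul g (g⁻¹ • w) f
  rw [smul_inv_smul] at h2
  rw [h2]
  have hs : Finsupp.single (placeInf N) (m : ℤ) (g⁻¹ • w) =
      Finsupp.single (placeInf N) (m : ℤ) w := by
    rw [Finsupp.single_apply, Finsupp.single_apply]
    refine if_congr ⟨fun h => ?_, fun h => by rw [← h, hg]⟩ rfl rfl
    exact MulAction.injective g⁻¹ (hg.trans h)
  rw [hs] at h1
  exact h1

/-- The Galois action on `X₀(N)`. -/
def x0GalAct : (x0Coords N).GalAct where
  act σ := arithmeticGalois (L := Qb) (modularFunctionFieldFull N) σ
  base σ := baseAut_arithmeticGalois (L := Qb) (modularFunctionFieldFull N) σ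
  fix_pt σ := Mazur.Eisenstein.galois_smul_placeInf N σ
  co_act σ m f hf := by
    funext i
    rw [co_x0Coords N m (galois_mem_level N σ hf), co_x0Coords N m hf]
    rfl

end Fermat.Agent.MordellWeil
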