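import Fermat.Agent.MordellWeil.CurvePoints
import Fermat.Agent.MordellWeil.Height
import Fermat.Agent.MordellWeil.Base
import Fermat.Agent.MordellWeil.TorsionFinite

/-!
# Lists of points with principal sum, as an algebraic condition
-/

set_option autoImplicit false

noncomputable section

open AlgebraicCurve Fermat.Agent.FF

namespace Fermat.Agent.MordellWeil

variable {F : Type*} [Field F] [Algebra Qb F] [IsFunctionField Qb F]

namespace Coords

variable (X : Coords F)

/-- The divisor of a tuple of places. -/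
def sumP (_X : Coords F) {n : ℕ} (P : Fin n → Place Qb F) : Divisor Qb F :=
  ∑ r, Finsupp.single (P r) 1

theorem degree_sumP {n : ℕ} (P : Fin n → Place Qb F) : Divisor.degree (X.sumP P) = n := by
  simp [sumP, map_sum, deg_eq_one]

omit [IsFunctionField Qb F] in
theorem sumP_nonneg {n : ℕ} (P : Fin n → Place Qb F) : 0 ≤ X.sumP P :=
  Finset.sum_nonneg fun _ _ => single_nonneg _

omit [IsFunctionField Qb F] in
theorem sumP_append {a b : ℕ} (P : Fin a → Place Qb F) (Q : Fin b → Place Qb F) :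
    X.sumP (Fin.append P Q) = X.sumP P + X.sumP Q := by
  simp [sumP, Fin.sum_univ_add]

/-- Generators of the space of sections vanishing at the point with coordinates `a`. -/
def genElt (a : X.CIx → Qb) (t : X.CIx × X.CIx) : F :=
  a t.1 • X.efun t.2 - a t.2 • X.efun t.1

theorem genElt_mem (a : X.CIx → Qb) (t : X.CIx × X.CIx) : X.genElt a t ∈ X.V (ml F) :=
  sub_mem (Submodule.smul_mem _ _ (X.e_mem _ _)) (Submodule.smul_mem _ _ (X.e_mem _ _))

theorem genElt_mem_W (P : Place Qb F) (t : X.CIx × X.CIx) :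
    X.genElt (X.ν P) t ∈ X.W (ml F) (Finsupp.single P 1) := by
  have hV := X.genElt_mem (X.ν P) t
  have h := (X.evv_eq_zero_iff (Q := P) (D := 0) le_rfl rfl (by rwa [W_zero])).mp (by
    rw [genElt, sub_eq_add_neg, ← neg_smul]
    simp only [efun]
    rw [X.evv_add P (Submodule.smul_mem _ _ (X.e_mem _ _))
      (Submodule.smul_mem _ _ (X.e_mem _ _)), X.evv_smul P _ (X.e_mem _ _),
      X.evv_smul P _ (X.e_mem _ _)]
    simp only [ν, φ]
    ring)
  rwa [zero_add] at h

theorem span_genElt (P : Place Qb F) :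
    Submodule.span Qb (Set.range (X.genElt (X.ν P))) = X.W (ml F) (Finsupp.single P 1) := by
  classical
  refine le_antisymm (Submodule.span_le.mpr (Set.range_subset_iff.mpr (X.genElt_mem_W P)))
    fun f hf => ?_
  have hV : f ∈ X.V (ml F) := X.W_le (single_nonneg P) hf
  obtain ⟨f₀, hf₀, h₀, hord⟩ := exists_exact (D := Finsupp.single X.pt (ml F : ℤ))
    (by rw [FF.degree_single_one]; simp only [ml]; push_cast; omega) P
  obtain ⟨i, hi⟩ : ∃ i, X.ν P i ≠ 0 := by
    by_contra hno
    push Not at hno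
    have h1 := X.mem_support_of_evv_eq_zero (Q := P) hf₀ h₀ (by
      rw [X.evv_eq_sum P hf₀]
      exact Finset.sum_eq_zero fun i _ => by rw [show X.φ P (ml F) i = 0 from hno i, zero_mul])
    rw [Finsupp.mem_support_iff, zdiv, Finsupp.add_apply, div_apply, hord] at h1
    simp at h1
  have h0 : ∑ j, X.ν P j * X.co (ml F) f j = 0 := by
    rw [← show X.evv P (ml F) f = ∑ j, X.ν P j * X.co (ml F) f j from X.evv_eq_sum P hV,
      X.evv_eq_zero_iff (D := 0) le_rfl rfl (by rwa [W_zero]), zero_add]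
    exact hf
  have e : (X.ν P i) • f = ∑ j, X.co (ml F) f j • X.genElt (X.ν P) (i, j) := by
    conv_lhs => rw [← X.sum_co_smul_e hV, Finset.smul_sum]
    simp only [genElt, smul_sub, smul_smul, Finset.sum_sub_distrib, efun]
    rw [← Finset.sum_smul, show ∑ j, X.co (ml F) f j * X.ν P j = 0 by
      rw [← h0]; exact Finset.sum_congr rfl fun j _ => mul_comm _ _, zero_smul, sub_zero]
    exact Finset.sum_congr rfl fun j _ => by rw [mul_comm]
  rw [← inv_smul_smul₀ hi f, e]
  exact Submodule.smul_mem _ _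
    (sum_mem fun j _ => Submodule.smul_mem _ _ (Submodule.subset_span ⟨_, rfl⟩))

theorem exists_genElt_exact (P : Place Qb F) (v : Place Qb F) :
    ∃ t, X.genElt (X.ν P) t ≠ 0 ∧ v.ord (X.genElt (X.ν P) t) =
      Finsupp.single P (1 : ℤ) v - Finsupp.single X.pt (ml F : ℤ) v := by
  obtain ⟨f, hf, h0, hord⟩ := (X.isBase_W (m := ml F) (n := 1) (D := Finsupp.single P 1)
    (by rw [FF.degree_single_one]; rfl) (by simp only [ml]; omega)).2 v
  set c := Finsupp.single P (1 : ℤ) v - Finsupp.single X.pt (ml F : ℤ) v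
  by_contra hno
  push Not at hno
  have hall : ∀ t, X.genElt (X.ν P) t ∈ ordGe v (c + 1) := fun t => by
    rcases eq_or_ne (X.genElt (X.ν P) t) 0 with h | h
    · rw [h]; exact zero_mem _
    have h1 := neg_le_ord (X.genElt_mem_W P t) h v
    have h2 := hno t h
    simp only [Finsupp.sub_apply] at h1
    exact (mem_ordGe v).mpr (Or.inr (by omega))
  rw [← X.span_genElt P] at hf
  have := le_ord_of_mem_ordGe v h0 ((Submodule.span_le.mpr (Set.range_subset_iff.mpr hall)) hf)
  omega

/-- Products of generators. -/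
def prodGen {n : ℕ} (a : Fin n → X.CIx → Qb) (t : Fin n → X.CIx × X.CIx) : F :=
  ∏ r, X.genElt (a r) (t r)

theorem prodGen_mem_W {n : ℕ} (P : Fin n → Place Qb F) (t : Fin n → X.CIx × X.CIx) :
    X.prodGen (fun r => X.ν (P r)) t ∈ X.W (n * ml F) (X.sumP P) := by
  induction n with
  | zero =>
    simp only [prodGen, Finset.univ_eq_empty, Finset.prod_empty]
    exact mem_L_of_le fun v => by simp [sumP]
  | succ n ih =>
    rw [prodGen, Fin.prod_univ_succ, show (n + 1) * ml F = ml F + n * ml F by ring, sumP,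
      Fin.sum_univ_succ]
    exact X.mul_mem_W (X.genElt_mem_W _ _) (ih (fun r => P r.succ) fun r => t r.succ)

theorem exists_prodGen_exact {n : ℕ} (P : Fin n → Place Qb F) (v : Place Qb F) :
    ∃ t, X.prodGen (fun r => X.ν (P r)) t ≠ 0 ∧ v.ord (X.prodGen (fun r => X.ν (P r)) t) =
      X.sumP P v - Finsupp.single X.pt ((n * ml F : ℕ) : ℤ) v := by
  choose t ht0 ht using fun r => X.exists_genElt_exact (P r) v
  refine ⟨t, Finset.prod_ne_zero_iff.mpr fun r _ => ht0 r, ?_⟩
  induction n with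
  | zero => simp [prodGen, sumP]
  | succ n ih =>
    have h := ih (fun r => P r.succ) (fun r => t r.succ) (fun r => ht0 r.succ) (fun r => ht r.succ)
    rw [prodGen, Fin.prod_univ_succ, v.ord_mul (ht0 0)
      (Finset.prod_ne_zero_iff.mpr fun r _ => ht0 r.succ), ht 0, sumP, Fin.sum_univ_succ,
      Finsupp.add_apply]
    rw [prodGen, sumP] at h
    rw [h, show (n + 1) * ml F = ml F + n * ml F by ring, Nat.cast_add, Finsupp.single_add,
      Finsupp.add_apply]
    ring

/-- All products of generators are multiples of the section with coordinates `c`. -/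
def Divides (n : ℕ) (a : Fin n → X.CIx → Qb) (c : Fin (X.d n) → Qb) : Prop :=
  ∀ t, X.prodGen a t ∈ (X.V (n * ml F - n)).map (LinearMap.mulLeft Qb (X.el n c))

theorem le_mul_ml (n : ℕ) : n + (n * ml F - n) = n * ml F := by
  have : n ≤ n * ml F := Nat.le_mul_of_pos_right n (by simp only [ml]; omega)
  omega

theorem cls_eq_zero_of_divides {n : ℕ} {P : Fin n → Place Qb F} {c : Fin (X.d n) → Qb}
    (hc : c ≠ 0) (h : X.Divides n (fun r => X.ν (P r)) c) : X.cls n (X.sumP P) = 0 := by
  have hu : X.el n c ≠ 0 := X.el_ne_zero hc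
  have hle : X.zdiv n (X.el n c) ≤ X.sumP P := Finsupp.le_def.mpr fun v => by
    obtain ⟨t, h0, hord⟩ := X.exists_prodGen_exact P v
    obtain ⟨g, hg, hgt⟩ := h t
    rw [LinearMap.mulLeft_apply] at hgt
    rw [← hgt] at h0 hord
    have hg0 := right_ne_zero_of_mul h0
    rw [v.ord_mul hu hg0] at hord
    have := neg_le_ord hg hg0 v
    rw [← le_mul_ml (F := F) n, Nat.cast_add, Finsupp.single_add, Finsupp.add_apply] at hord
    simp only [zdiv, Finsupp.add_apply, div_apply]
    omega
  rw [X.cls_eq_zero_iff (X.degree_sumP P)]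
  exact ⟨_, hu, eq_of_le_of_degree hle (by rw [X.degree_zdiv, X.degree_sumP])⟩

theorem exists_divides {n : ℕ} {P : Fin n → Place Qb F} (h : X.cls n (X.sumP P) = 0) :
    ∃ c : Fin (X.d n) → Qb, c ≠ 0 ∧ X.Divides n (fun r => X.ν (P r)) c := by
  obtain ⟨u, hu, hdiv⟩ := (X.cls_eq_zero_iff (X.degree_sumP P)).mp h
  have hm : u ∈ X.V n := X.mem_V_of_zdiv_nonneg (hdiv ▸ X.sumP_nonneg P)
  refine ⟨X.co n u, X.co_ne_zero hm hu, fun t => ?_⟩
  rw [X.el_co hm]
  exact X.W_le_map_mul hu (le_mul_ml (F := F) n) hdiv.le (X.prodGen_mem_W P t)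

theorem isPolyElt_genElt {V : Type*} (v : X.CIx → V) (t : X.CIx × X.CIx) :
    X.IsPolyElt (ml F) fun z : V → Qb => X.genElt (fun i => z (v i)) t := by
  refine ⟨fun z => X.genElt_mem _ _, fun l => ?_⟩
  simp only [genElt, sub_eq_add_neg, ← neg_smul,
    X.co_add (Submodule.smul_mem _ _ (X.e_mem _ _)) (Submodule.smul_mem _ _ (X.e_mem _ _)),
    X.co_smul _ (X.e_mem _ _), efun, Pi.add_apply, Pi.smul_apply, smul_eq_mul]
  exact ((IsPoly.coord _).mul (IsPoly.const _)).add ((IsPoly.coord _).neg.mul (IsPoly.const _))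

theorem isPolyElt_prodGen {V : Type*} {n : ℕ} (v : Fin n → X.CIx → V)
    (t : Fin n → X.CIx × X.CIx) :
    X.IsPolyElt (n * ml F) fun z : V → Qb => X.prodGen (fun r i => z (v r i)) t := by
  induction n with
  | zero =>
    simp only [prodGen, Finset.univ_eq_empty, Finset.prod_empty]
    exact X.isPolyElt_const (mem_L_of_le fun w => by simp)
  | succ n ih =>
    simp only [prodGen, Fin.prod_univ_succ]
    rw [show (n + 1) * ml F = ml F + n * ml F by ring]
    exact (X.isPolyElt_genElt (v 0) (t 0)).mul X (ih (fun r => v r.succ) fun r => t r.succ)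

/-- Variables witnessing that a list is principal. -/
abbrev WV (n : ℕ) : Type := Fin (X.d n) ⊕ Fin (X.d n)

/-- The algebraic condition that a list of points has principal sum, with witnesses. -/
def PrinCond {V : Type*} {n : ℕ} (v : Fin n → X.CIx → V) (w : X.WV n → V) (z : V → Qb) : Prop :=
  (∑ i, z (w (.inl i)) * z (w (.inr i)) = 1) ∧
    X.Divides n (fun r i => z (v r i)) (fun i => z (w (.inl i)))

theorem isAlgSet_prinCond {V : Type*} {n : ℕ} (v : Fin n → X.CIx → V) (w : X.WV n → V) :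
    IsAlgSet {z : V → Qb | X.PrinCond v w z} := by
  have h1 : IsAlgSet {z : V → Qb | ∑ i, z (w (.inl i)) * z (w (.inr i)) = 1} :=
    IsAlgSet.of_eq (IsPoly.sum _ fun i _ => (IsPoly.coord _).mul (IsPoly.coord _)) (IsPoly.const 1)
  rcases isEmpty_or_nonempty (Fin n → X.CIx × X.CIx) with he | hne
  · convert h1 using 1
    ext z
    exact ⟨fun h => h.1, fun h => ⟨h, fun t => he.elim t⟩⟩
  obtain ⟨t₀⟩ := hne
  have h2 := fun t => X.isAlgSet_mem_map (m := n * ml F) (N := n) (r := n * ml F - n)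
    (le_mul_ml (F := F) n) h1 (X.isPolyElt_prodGen v t)
    (X.isPolyElt_el (c := fun z i => z (w (.inl i))) fun i => IsPoly.coord _)
    fun z hz => X.el_ne_zero fun h0 => by
      have : ∀ i, z (w (.inl i)) = 0 := fun i => congrFun h0 i
      simp [this] at hz
  convert IsAlgSet.forall_ h2 using 1
  ext z
  exact ⟨fun h t => ⟨h.1, h.2 t⟩, fun h => ⟨(h t₀).1, fun t => (h t).2⟩⟩

theorem cls_eq_zero_of_prinCond {V : Type*} {n : ℕ} {v : Fin n → X.CIx → V} {w : X.WV n → V}
    {z : V → Qb} {P : Fin n → Place Qb F} (h : X.PrinCond v w z)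
    (hP : ∀ r i, z (v r i) = X.ν (P r) i) : X.cls n (X.sumP P) = 0 := by
  refine X.cls_eq_zero_of_divides (c := fun i => z (w (.inl i))) (fun h0 => ?_) ?_
  · have : ∀ i, z (w (.inl i)) = 0 := fun i => congrFun h0 i
    simpa [this] using h.1
  · have := h.2
    simpa only [hP] using this

/-- A list with principal sum has witnesses of the algebraic condition. -/
theorem exists_witness {n : ℕ} {P : Fin n → Place Qb F} (h : X.cls n (X.sumP P) = 0) :
    ∃ c : X.WV n → Qb, (∑ i, c (.inl i) * c (.inr i) = 1) ∧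
      X.Divides n (fun r => X.ν (P r)) (fun i => c (.inl i)) := by
  classical
  obtain ⟨c, hc, hd⟩ := X.exists_divides h
  obtain ⟨i, hi⟩ := Function.ne_iff.mp hc
  exact ⟨Sum.elim c (Pi.single i (c i)⁻¹), by simp [Pi.single_apply, mul_inv_cancel₀ hi], hd⟩

end Coords

end Fermat.Agent.MordellWeil
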