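import Fermat.Agent.FF.RiemannRoch

/-!
# Riemann-Roch spaces of large degree: base points, products, representatives
-/

set_option autoImplicit false

noncomputable section

open AlgebraicCurve Fermat.Agent.FF

namespace Fermat.Agent.MordellWeil

variable {K F : Type*} [Field K] [Field F] [Algebra K F] [IsFunctionField K F]

theorem bnd_exists [IsAlgClosed K] : ∃ c : ℕ, 1 ≤ c ∧ genusFF K F ≤ c ∧
    ∀ D : Divisor K F, (c : ℤ) ≤ Divisor.degree D →
      ell K D = Divisor.degree D + 1 - genusFF K F := by
  obtain ⟨c, hc⟩ := exists_ell_eq (K := K) (F := F)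
  exact ⟨c.toNat + genusFF K F + 1, by omega, by omega, fun D hD => hc D (by omega)⟩

variable [IsAlgClosed K]

variable (K F) in
/-- Beyond this degree the Riemann-Roch formula has no correction term. -/
def bnd : ℕ := (bnd_exists (K := K) (F := F)).choose

theorem one_le_bnd : 1 ≤ bnd K F := (bnd_exists (K := K) (F := F)).choose_spec.1

/-- Over an algebraically closed field the genus is at most `bnd`. -/
theorem genus_le_bnd : genusFF K F ≤ bnd K F := (bnd_exists (K := K) (F := F)).choose_spec.2.1

/-- Riemann-Roch in degree above the bound: `ℓ(D) = deg D + 1 - g`. -/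
theorem ell_eq {D : Divisor K F} (hD : (bnd K F : ℤ) ≤ Divisor.degree D) :
    ell K D = Divisor.degree D + 1 - genusFF K F :=
  (bnd_exists (K := K) (F := F)).choose_spec.2.2 D hD

/-! ### Elementary facts -/

omit [IsFunctionField K F] [IsAlgClosed K] in
theorem mem_L {D : Divisor K F} {f : F} :
    f ∈ riemannRochSpace D ↔ f = 0 ∨ ∀ v : Place K F, -D v ≤ v.ord f := by
  rw [mem_riemannRochSpace_iff]
  constructor
  · intro h
    rcases eq_or_ne f 0 with hf | hf
    · exact .inl hf
    · exact .inr fun v => (h v).resolve_left hf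
  · rintro (rfl | h) v
    · exact .inl rfl
    · exact .inr (h v)

omit [IsFunctionField K F] [IsAlgClosed K] in
/-- A nonzero element of `L(D)` has order at least `-D v` at each place `v`. -/
theorem neg_le_ord {D : Divisor K F} {f : F} (hf : f ∈ riemannRochSpace D) (h0 : f ≠ 0)
    (v : Place K F) : -D v ≤ v.ord f :=
  (mem_L.mp hf).resolve_left h0 v

omit [IsFunctionField K F] [IsAlgClosed K] in
/-- A function of order at least `-D v` everywhere lies in `L(D)`. -/
theorem mem_L_of_le {D : Divisor K F} {f : F} (h : ∀ v : Place K F, -D v ≤ v.ord f) :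
    f ∈ riemannRochSpace D := mem_L.mpr (.inr h)

/-- Riemann-Roch in degree above the bound: `dim L(D) = deg D + 1 - g`. -/
theorem finrank_L {D : Divisor K F} (hD : (bnd K F : ℤ) ≤ Divisor.degree D) :
    (Module.finrank K (riemannRochSpace D) : ℤ) = Divisor.degree D + 1 - genusFF K F :=
  ell_eq hD

/-! ### Base points -/

/-- An element of `L(D)` attaining the bound at `v`. -/
theorem exists_exact {D : Divisor K F} (hD : (bnd K F : ℤ) + 1 ≤ Divisor.degree D)
    (v : Place K F) : ∃ f ∈ riemannRochSpace D, f ≠ 0 ∧ v.ord f = -D v := by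
  classical
  by_contra hne
  push Not at hne
  have hle : riemannRochSpace D ≤ riemannRochSpace (D - Finsupp.single v 1) := fun f hf => by
    rcases eq_or_ne f 0 with rfl | h0
    · simp
    refine mem_L_of_le fun w => ?_
    rw [Finsupp.sub_apply, Finsupp.single_apply]
    have := neg_le_ord hf h0 w
    split_ifs with h
    · subst h; have := hne f hf h0; omega
    · omega
  have h1 : ell K D ≤ ell K (D - Finsupp.single v 1) := by
    simpa [ell] using Submodule.finrank_mono hle
  rw [ell_eq (by omega), ell_eq (by rw [map_sub, FF.degree_single_one]; omega), map_sub,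
    FF.degree_single_one] at h1
  omega

/-- An element of `L(D)` attaining the bound at finitely many given places. -/
theorem exists_exact_finset {D : Divisor K F} (hD : (bnd K F : ℤ) + 1 ≤ Divisor.degree D)
    (S : Finset (Place K F)) :
    ∃ f ∈ riemannRochSpace D, f ≠ 0 ∧ ∀ v ∈ S, v.ord f = -D v := by
  classical
  induction S using Finset.induction_on with
  | empty =>
    obtain ⟨v⟩ := exists_place (K := K) (F := F)
    obtain ⟨f, hf, h0, -⟩ := exists_exact hD v
    exact ⟨f, hf, h0, by simp⟩
  | insert a S ha ih =>
    obtain ⟨f, hf, hf0, hfS⟩ := ih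
    obtain ⟨g, hg, hg0, hga⟩ := exists_exact hD a
    -- the finitely many bad scalars
    let bad : Place K F → Set K :=
      fun w => {t | f + t • g = 0 ∨ -D w < w.ord (f + t • g)}
    have hbad : ∀ w ∈ insert a S, (bad w).Subsingleton := by
      intro w hw t ht s hs
      by_contra hne
      have key : ∀ t, t ∈ bad w → f + t • g ∈ ordGe w (-D w + 1) := fun t ht =>
        (mem_ordGe w).mpr (ht.imp id fun h => by omega)
      have h2 := sub_mem (key t ht) (key s hs)
      rw [add_sub_add_left_eq_sub, ← sub_smul] at h2
      have hg' := (ordGe w (-D w + 1)).smul_mem (t - s)⁻¹ h2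
      rw [inv_smul_smul₀ (sub_ne_zero.mpr hne)] at hg'
      have hf' := sub_mem (key t ht) ((ordGe w (-D w + 1)).smul_mem t hg')
      rw [add_sub_cancel_right] at hf'
      rcases Finset.mem_insert.mp hw with rfl | hw
      · have := le_ord_of_mem_ordGe w hg0 hg'; omega
      · have := le_ord_of_mem_ordGe w hf0 hf'; have := hfS w hw; omega
    obtain ⟨t, -, ht⟩ := ((Set.infinite_univ (α := K)).sdiff
      (s := Set.univ) (t := ⋃ w ∈ insert a S, bad w)
      (Set.Finite.biUnion (Finset.finite_toSet _) fun w hw => (hbad w hw).finite)).nonempty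
    simp only [Set.mem_iUnion, not_exists] at ht
    have hmem : f + t • g ∈ riemannRochSpace D := add_mem hf (Submodule.smul_mem _ t hg)
    have hne0 : f + t • g ≠ 0 := fun h => ht a (Finset.mem_insert_self _ _) (.inl h)
    refine ⟨_, hmem, hne0, fun w hw => le_antisymm ?_ (neg_le_ord hmem hne0 w)⟩
    by_contra h
    exact ht w hw (.inr (by omega))

/-! ### Multiplication -/

theorem sup_mul_eq_of_pencil {A B : Divisor K F} (hA : (bnd K F : ℤ) + 1 ≤ Divisor.degree A)
    (hB : Divisor.degree A + bnd K F ≤ Divisor.degree B) :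
    riemannRochSpace A * riemannRochSpace B = riemannRochSpace (A + B) := by
  classical
  refine le_antisymm (riemannRochSpace_mul_le A B) ?_
  -- Two sections `s`, `t` of `A` without common base point.
  obtain ⟨s, hs, hs0, -⟩ := exists_exact_finset hA ∅
  obtain ⟨t, ht, ht0, htS⟩ := exists_exact_finset hA (A.support ∪ (div K s).support)
  have hbp : ∀ v : Place K F, v.ord s = -A v ∨ v.ord t = -A v := by
    intro v
    by_cases hv : v ∈ A.support ∪ (div K s).support
    · exact .inr (htS v hv)
    · simp only [Finset.mem_union, Finsupp.mem_support_iff, ne_eq, not_or, not_not, div_apply] at hv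
      exact .inl (by omega)
  let ms := (LinearMap.mulLeft K s)
  let mt := (LinearMap.mulLeft K t)
  set U := (riemannRochSpace B).map ms with hU
  set W := (riemannRochSpace B).map mt with hW
  have hsub : U ⊔ W ≤ riemannRochSpace A * riemannRochSpace B := by
    refine sup_le ?_ ?_ <;> rintro _ ⟨b, hb, rfl⟩
    · exact Submodule.mul_mem_mul hs hb
    · exact Submodule.mul_mem_mul ht hb
  have : FiniteDimensional K U := inferInstanceAs (FiniteDimensional K (Submodule.map _ _))
  have : FiniteDimensional K W := inferInstanceAs (FiniteDimensional K (Submodule.map _ _))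
  -- `s L(B)` and `t L(B)` meet in `s t L(B - A)`, so their sum fills `L(A + B)` by Riemann–Roch.
  have hinf : U ⊓ W ≤ (riemannRochSpace (B - A)).map (LinearMap.mulLeft K (s * t)) := by
    rintro _ ⟨⟨u, hu, rfl⟩, ⟨w, hw, hwu⟩⟩
    simp only [mt, ms, LinearMap.mulLeft_apply] at hwu ⊢
    rcases eq_or_ne u 0 with rfl | hu0
    · simp
    have hw0 : w ≠ 0 := fun h => mul_ne_zero hs0 hu0 (by rw [← hwu, h, mul_zero])
    refine ⟨u / t, mem_L_of_le fun v => ?_, ?_⟩
    · rw [Fermat.Agent.FF.ord_div v hu0 ht0, Finsupp.sub_apply]
      have h1 := congrArg v.ord hwu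
      rw [v.ord_mul ht0 hw0, v.ord_mul hs0 hu0] at h1
      have := neg_le_ord hu hu0 v
      have := neg_le_ord hw hw0 v
      rcases hbp v with h | h <;> omega
    · simp only [LinearMap.mulLeft_apply]; field_simp
  have e := Submodule.finrank_sup_add_finrank_inf_eq U W
  have eU : Module.finrank K U = Module.finrank K (riemannRochSpace B) :=
    (Submodule.equivMapOfInjective ms (mul_right_injective₀ hs0) _).symm.finrank_eq
  have eW : Module.finrank K W = Module.finrank K (riemannRochSpace B) :=
    (Submodule.equivMapOfInjective mt (mul_right_injective₀ ht0) _).symm.finrank_eq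
  have einf := (Submodule.finrank_mono hinf).trans (Submodule.finrank_map_le _ _)
  have d1 := finrank_L (D := B) (by omega)
  have d2 := finrank_L (D := A + B) (by rw [map_add]; omega)
  have d3 := finrank_L (D := B - A) (by rw [map_sub]; omega)
  rw [map_add] at d2
  rw [map_sub] at d3
  have hle2 : U ⊔ W ≤ riemannRochSpace (A + B) := hsub.trans (riemannRochSpace_mul_le A B)
  have := Submodule.eq_of_le_of_finrank_le hle2 (by omega)
  exact this ▸ hsub

theorem exists_divisor_degree (n : ℤ) : ∃ D : Divisor K F, Divisor.degree D = n := by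
  obtain ⟨v⟩ := exists_place (K := K) (F := F)
  exact ⟨Finsupp.single v n, FF.degree_single_one v n⟩

/-- Products of Riemann-Roch spaces of large degree. -/
theorem L_mul_eq : ∀ {A B : Divisor K F}, (bnd K F : ℤ) + 1 ≤ Divisor.degree A →
    3 * (bnd K F : ℤ) + 2 ≤ Divisor.degree B →
    riemannRochSpace A * riemannRochSpace B = riemannRochSpace (A + B) := by
  have key : ∀ (k : ℕ) (A B : Divisor K F), Divisor.degree A ≤ k →
      (bnd K F : ℤ) + 1 ≤ Divisor.degree A → 3 * (bnd K F : ℤ) + 2 ≤ Divisor.degree B →
      riemannRochSpace A * riemannRochSpace B = riemannRochSpace (A + B) := by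
    intro k
    induction k with
    | zero => intro A B h1 h2; omega
    | succ k ih =>
      intro A B h1 h2 h3
      by_cases hsmall : Divisor.degree A ≤ 2 * (bnd K F : ℤ) + 1
      · exact sup_mul_eq_of_pencil h2 (by omega)
      obtain ⟨A₁, hA₁⟩ := exists_divisor_degree (K := K) (F := F) ((bnd K F : ℤ) + 1)
      have e1 : riemannRochSpace A₁ * riemannRochSpace (A - A₁ + B) = riemannRochSpace (A + B) := by
        rw [sup_mul_eq_of_pencil (by omega) (by rw [map_add, map_sub, hA₁]; omega)]
        congr 1; abel
      have e2 : riemannRochSpace (A - A₁) * riemannRochSpace B = riemannRochSpace (A - A₁ + B) :=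
        ih _ _ (by rw [map_sub, hA₁]; have := one_le_bnd (K := K) (F := F); omega)
          (by rw [map_sub, hA₁]; omega) h3
      refine le_antisymm (riemannRochSpace_mul_le A B) ?_
      rw [← e1, ← e2, ← mul_assoc]
      refine mul_le_mul_left ?_ _
      have := riemannRochSpace_mul_le A₁ (A - A₁)
      rwa [add_sub_cancel] at this
  intro A B h1 h2
  exact key (Divisor.degree A).toNat A B (by omega) h1 h2

/-! ### Representatives -/

omit [IsAlgClosed K] in
/-- A divisor of degree at least the genus is linearly equivalent to an effective one. -/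
theorem exists_effective {D : Divisor K F} (h : (genusFF K F : ℤ) ≤ Divisor.degree D) :
    ∃ f : F, f ≠ 0 ∧ 0 ≤ D + div K f := by
  refine exists_ne_zero_of_ell_pos ?_
  have := riemann_inequality D
  have := one_le_ell_zero (K := K) (F := F)
  omega

end Fermat.Agent.MordellWeil
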